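/-
The ring `S∞ = 𝒪[[y₁, …, y_r]]`: residue field, dimension, the augmentation ideal; and upper bounds
for the dimension of quotients of local rings.
-/
import Mathlib
import Fermat.Agent.S53_PowerSeries

set_option autoImplicit false

namespace Fermat.Agent.Patch

open IsLocalRing Fermat.Agent.S53rep

section Dim

/-- If `z₁, …, z_m ∈ 𝔪` and the only prime containing `I` and all the `z i` is the maximal ideal,
then `dim R/I ≤ m`. -/
theorem ringKrullDim_quotient_le_card {R : Type*} [CommRing R] [IsLocalRing R] [IsNoetherianRing R]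
    (I : Ideal R) (s : Finset R) (hs : ∀ z ∈ s, z ∈ maximalIdeal R)
    (h : ∀ P : Ideal R, P.IsPrime → I ≤ P → (∀ z ∈ s, z ∈ P) → P = maximalIdeal R) :
    ringKrullDim (R ⧸ I) ≤ s.card := by
  classical
  by_cases hI : I = ⊤
  · have : Subsingleton (R ⧸ I) := Ideal.Quotient.subsingleton_iff.2 hI
    rw [ringKrullDim_eq_bot_of_subsingleton]
    exact bot_le
  have : Nontrivial (R ⧸ I) := Ideal.Quotient.nontrivial_iff.mpr hI
  have := IsLocalRing.of_surjective' (Ideal.Quotient.mk I) Ideal.Quotient.mk_surjective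
  let s' : Finset (R ⧸ I) := s.image (Ideal.Quotient.mk I)
  have hs' : (s' : Set (R ⧸ I)) ⊆ Ring.jacobson (R ⧸ I) := by
    intro z hz
    rw [Finset.mem_coe, Finset.mem_image] at hz
    obtain ⟨z, hz, rfl⟩ := hz
    rw [IsLocalRing.ringJacobson_eq_maximalIdeal]
    have h1 : IsLocalHom (Ideal.Quotient.mk I) :=
      IsLocalHom.of_surjective _ Ideal.Quotient.mk_surjective
    have h2 : (maximalIdeal R).map (Ideal.Quotient.mk I) ≤ maximalIdeal (R ⧸ I) :=
      ((IsLocalRing.local_hom_TFAE (Ideal.Quotient.mk I)).out 0 2).1 h1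
    exact h2 (Ideal.mem_map_of_mem _ (hs z hz))
  have h1 := ringKrullDim_le_ringKrullDim_quotient_add_card s' hs'
  have h2 : ringKrullDim ((R ⧸ I) ⧸ Ideal.span (s' : Set (R ⧸ I))) ≤ 0 := by
    have : Ring.KrullDimLE 0 ((R ⧸ I) ⧸ Ideal.span (s' : Set (R ⧸ I))) := by
      rw [Ring.krullDimLE_zero_iff]
      intro P hP
      let P' := (P.comap (Ideal.Quotient.mk (Ideal.span (s' : Set (R ⧸ I))))).comap
        (Ideal.Quotient.mk I)
      have hP' : P' = maximalIdeal R := by
        refine h P' inferInstance ?_ ?_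
        · intro x hx
          rw [Ideal.mem_comap, Ideal.Quotient.eq_zero_iff_mem.2 hx]
          exact Ideal.zero_mem _
        · intro z hz
          rw [Ideal.mem_comap, Ideal.mem_comap, Ideal.Quotient.eq_zero_iff_mem.2
            (Ideal.subset_span (Finset.mem_coe.2 (Finset.mem_image_of_mem _ hz)))]
          exact Ideal.zero_mem _
      have hmax : P'.IsMaximal := by rw [hP']; infer_instance
      have hsurj : Function.Surjective
          ((Ideal.Quotient.mk (Ideal.span (s' : Set (R ⧸ I)))).comp (Ideal.Quotient.mk I)) :=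
        Ideal.Quotient.mk_surjective.comp Ideal.Quotient.mk_surjective
      have h3 : P = P'.map
          ((Ideal.Quotient.mk (Ideal.span (s' : Set (R ⧸ I)))).comp (Ideal.Quotient.mk I)) := by
        change P = ((P.comap _).comap _).map _
        rw [Ideal.comap_comap, Ideal.map_comap_of_surjective _ hsurj]
      rw [h3]
      rcases Ideal.map_eq_top_or_isMaximal_of_surjective _ hsurj hmax with h4 | h4
      · rw [← h3] at h4
        exact absurd h4 hP.ne_top
      · exact h4
    exact (Order.krullDimLE_iff _ _).1 this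
  refine h1.trans ?_
  calc ringKrullDim ((R ⧸ I) ⧸ Ideal.span (s' : Set (R ⧸ I))) + (s'.card : WithBot ℕ∞)
      ≤ 0 + s'.card := by gcongr
    _ = s'.card := zero_add _
    _ ≤ s.card := by exact_mod_cast Finset.card_image_le

end Dim

section PS

variable {σ : Type*} (𝒪 : Type*) [CommRing 𝒪]

theorem ringKrullDim_add_le_mvPowerSeries_fin (n : ℕ) :
    ringKrullDim 𝒪 + n ≤ ringKrullDim (MvPowerSeries (Fin n) 𝒪) := by
  induction n with
  | zero =>
    rw [ringKrullDim_eq_of_ringEquiv (MvPowerSeries.isEmptyEquiv (Fin 0) 𝒪).toRingEquiv]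
    simp
  | succ n ih =>
    rw [ringKrullDim_eq_of_ringEquiv (MvPowerSeries.finSuccEquiv 𝒪 n).toRingEquiv]
    refine le_trans ?_ ringKrullDim_succ_le_ringKrullDim_powerseries
    rw [Nat.cast_add, ← add_assoc]
    exact add_le_add_left ih _

theorem le_ringKrullDim_mvPowerSeries_fin [IsDomain 𝒪] [IsDiscreteValuationRing 𝒪] (n : ℕ) :
    ((n + 1 : ℕ) : WithBot ℕ∞) ≤ ringKrullDim (MvPowerSeries (Fin n) 𝒪) := by
  refine le_trans ?_ (ringKrullDim_add_le_mvPowerSeries_fin 𝒪 n)
  have h1 : (1 : WithBot ℕ∞) ≤ ringKrullDim 𝒪 :=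
    (IsPrincipalIdealRing.ringKrullDim_eq_one 𝒪
      (IsDiscreteValuationRing.not_isField 𝒪)).ge
  calc ((n + 1 : ℕ) : WithBot ℕ∞) = 1 + n := by push_cast; rw [add_comm]
    _ ≤ ringKrullDim 𝒪 + n := by gcongr

variable {𝒪}

theorem span_range_X_eq_ker [Finite σ] :
    Ideal.span (Set.range (MvPowerSeries.X : σ → MvPowerSeries σ 𝒪)) =
      RingHom.ker (MvPowerSeries.constantCoeff (σ := σ) (R := 𝒪)) := by
  apply le_antisymm
  · rw [Ideal.span_le]
    rintro _ ⟨i, rfl⟩
    rw [SetLike.mem_coe, RingHom.mem_ker, MvPowerSeries.constantCoeff_X]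
  · intro f hf
    have := mem_span_X_pow_of_coeff_eq_zero (n := 1) (f := f) (fun α hα => by
      have h0 : α = 0 := by
        rw [Nat.lt_one_iff, Finsupp.degree_eq_zero_iff] at hα
        exact hα
      rw [h0, MvPowerSeries.coeff_zero_eq_constantCoeff_apply]
      exact hf)
    rwa [pow_one] at this

theorem isPrime_span_range_X [Finite σ] [IsDomain 𝒪] :
    (Ideal.span (Set.range (MvPowerSeries.X : σ → MvPowerSeries σ 𝒪))).IsPrime := by
  rw [span_range_X_eq_ker]
  exact RingHom.ker_isPrime _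

theorem C_mem_span_range_X_iff [Finite σ] {c : 𝒪} :
    (MvPowerSeries.C c : MvPowerSeries σ 𝒪) ∈
      Ideal.span (Set.range (MvPowerSeries.X : σ → MvPowerSeries σ 𝒪)) ↔ c = 0 := by
  rw [span_range_X_eq_ker, RingHom.mem_ker, MvPowerSeries.constantCoeff_C]

theorem finite_residueField_mvPowerSeries (σ : Type*) (𝒪 : Type*) [CommRing 𝒪] [IsLocalRing 𝒪]
    [Finite (ResidueField 𝒪)] : Finite (ResidueField (MvPowerSeries σ 𝒪)) := by
  let f : 𝒪 →+* ResidueField (MvPowerSeries σ 𝒪) :=
    (residue (MvPowerSeries σ 𝒪)).comp MvPowerSeries.C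
  have hf : Function.Surjective f := by
    intro x
    obtain ⟨x, rfl⟩ := residue_surjective x
    refine ⟨MvPowerSeries.constantCoeff x, ?_⟩
    change residue _ (MvPowerSeries.C (MvPowerSeries.constantCoeff x)) = residue _ x
    rw [← sub_eq_zero, ← map_sub, residue_eq_zero_iff, mem_maximalIdeal_mvPowerSeries_iff]
    simp
  have hk : ∀ x ∈ maximalIdeal 𝒪, f x = 0 := by
    intro x hx
    change residue _ (MvPowerSeries.C x) = 0
    rw [residue_eq_zero_iff, mem_maximalIdeal_mvPowerSeries_iff]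
    simpa using hx
  have : Finite (𝒪 ⧸ maximalIdeal 𝒪) := ‹Finite (ResidueField 𝒪)›
  exact Finite.of_surjective (Ideal.Quotient.lift (maximalIdeal 𝒪) f hk)
    (Ideal.Quotient.lift_surjective_of_surjective _ _ hf)

end PS

end Fermat.Agent.Patch
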