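/-
Standard parts along a nonprincipal ultrafilter on `ℕ`, for modules over a ring which are
adically complete with finite quotients.
-/
import Mathlib

set_option autoImplicit false

namespace Fermat.Agent.Patch

open Filter IsLocalRing

/-- `∀ᶠ n in 𝒰` for a fixed nonprincipal ultrafilter on `ℕ`. -/
noncomputable abbrev UU : Ultrafilter ℕ := Filter.hyperfilter ℕ

theorem eventually_UU_of_atTop {p : ℕ → Prop} (h : ∀ᶠ n in atTop, p n) :
    ∀ᶠ n in (UU : Filter ℕ), p n := by
  have : (UU : Filter ℕ) ≤ atTop := by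
    have h1 := Filter.hyperfilter_le_cofinite (α := ℕ)
    rwa [Nat.cofinite_eq_atTop] at h1
  exact this h

theorem eventually_ge_UU (k : ℕ) : ∀ᶠ n in (UU : Filter ℕ), k ≤ n :=
  eventually_UU_of_atTop (eventually_ge_atTop k)

/-- Diagonal argument. -/
theorem exists_diag {p : ℕ → ℕ → Prop} (h0 : ∀ n, p 0 n)
    (h : ∀ k, ∀ᶠ n in (UU : Filter ℕ), p k n) :
    ∃ κ : ℕ → ℕ, (∀ n, p (κ n) n) ∧ ∀ k, ∀ᶠ n in (UU : Filter ℕ), k ≤ κ n := by
  classical
  refine ⟨fun n => Nat.findGreatest (fun k => p k n) n, fun n => ?_, fun k => ?_⟩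
  · exact Nat.findGreatest_spec (P := fun k => p k n) (Nat.zero_le n) (h0 n)
  · filter_upwards [h k, eventually_ge_UU k] with n hn hkn
    exact Nat.le_findGreatest hkn hn

section Std

variable {R : Type*} [CommRing R] (I : Ideal R) {M : Type*} [AddCommGroup M] [Module R M]

/-- `x` is the standard part of the sequence `a`. -/
def IsStd (a : ℕ → M) (x : M) : Prop :=
  ∀ k : ℕ, ∀ᶠ n in (UU : Filter ℕ), a n - x ∈ (I ^ k • ⊤ : Submodule R M)

variable {I}

theorem IsStd.unique [IsHausdorff I M] {a : ℕ → M} {x y : M} (hx : IsStd I a x)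
    (hy : IsStd I a y) : x = y := by
  rw [← sub_eq_zero]
  refine IsHausdorff.haus ‹_› _ fun k => ?_
  obtain ⟨n, h1, h2⟩ := ((hx k).and (hy k)).exists
  rw [SModEq.sub_mem, sub_zero]
  have := Submodule.sub_mem _ h2 h1
  simpa using this

theorem exists_isStd [IsPrecomplete I M] (hfin : ∀ k, Finite (M ⧸ (I ^ k • ⊤ : Submodule R M)))
    (a : ℕ → M) : ∃ x, IsStd I a x := by
  have key : ∀ k, ∃ y : M, ∀ᶠ n in (UU : Filter ℕ), a n - y ∈ (I ^ k • ⊤ : Submodule R M) := by
    intro k
    have := hfin k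
    have h1 : ∀ᶠ n in (UU : Filter ℕ), ∃ v : M ⧸ (I ^ k • ⊤ : Submodule R M),
        Submodule.Quotient.mk (a n) = v := Eventually.of_forall fun n => ⟨_, rfl⟩
    rw [Ultrafilter.eventually_exists_iff] at h1
    obtain ⟨v, hv⟩ := h1
    obtain ⟨y, rfl⟩ := Submodule.Quotient.mk_surjective _ v
    exact ⟨y, hv.mono fun n hn => (Submodule.Quotient.eq _).1 hn⟩
  choose y hy using key
  obtain ⟨x, hx⟩ := IsPrecomplete.prec (I := I) (M := M) ‹_› (f := y) (by
    intro m n hmn
    rw [SModEq.sub_mem]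
    obtain ⟨i, h1, h2⟩ := ((hy m).and (hy n)).exists
    have h3 : (I ^ n • ⊤ : Submodule R M) ≤ I ^ m • ⊤ :=
      Submodule.smul_mono_left (Ideal.pow_le_pow_right hmn)
    have := Submodule.sub_mem _ (h3 h2) h1
    simpa using this)
  refine ⟨x, fun k => (hy k).mono fun n hn => ?_⟩
  have h1 := hx k
  rw [SModEq.sub_mem] at h1
  simpa using Submodule.add_mem _ hn h1

theorem isStd_const (x : M) : IsStd I (fun _ => x) x := fun k => by simp

theorem IsStd.add {a b : ℕ → M} {x y : M} (hx : IsStd I a x) (hy : IsStd I b y) :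
    IsStd I (fun n => a n + b n) (x + y) := fun k => by
  filter_upwards [hx k, hy k] with n h1 h2
  simpa [add_sub_add_comm] using Submodule.add_mem _ h1 h2

theorem IsStd.neg {a : ℕ → M} {x : M} (hx : IsStd I a x) :
    IsStd I (fun n => - a n) (-x) := fun k => by
  filter_upwards [hx k] with n h1
  have := Submodule.neg_mem _ h1
  rwa [neg_sub, ← neg_sub_neg] at this

theorem IsStd.sub {a b : ℕ → M} {x y : M} (hx : IsStd I a x) (hy : IsStd I b y) :
    IsStd I (fun n => a n - b n) (x - y) := by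
  simpa [sub_eq_add_neg] using hx.add hy.neg

theorem IsStd.congr {a b : ℕ → M} {x : M} (hx : IsStd I a x)
    (hab : ∀ᶠ n in (UU : Filter ℕ), a n = b n) : IsStd I b x := fun k => by
  filter_upwards [hx k, hab] with n h1 h2
  rwa [← h2]

theorem IsStd.smul {a : ℕ → R} {b : ℕ → M} {r : R} {x : M} (hr : IsStd I a r)
    (hx : IsStd I b x) : IsStd I (fun n => a n • b n) (r • x) := fun k => by
  filter_upwards [hr k, hx k] with n h1 h2
  have h3 : a n • b n - r • x = (a n - r) • b n + r • (b n - x) := by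
    rw [sub_smul, smul_sub]; abel
  rw [h3]
  refine Submodule.add_mem _ ?_ (Submodule.smul_mem _ _ h2)
  refine Submodule.smul_mem_smul ?_ trivial
  simpa using h1

theorem IsStd.mul {a b : ℕ → R} {r s : R} (hr : IsStd I a r) (hs : IsStd I b s) :
    IsStd I (fun n => a n * b n) (r * s) := by
  simpa using hr.smul hs

theorem isStd_iff_ring {a : ℕ → R} {r : R} :
    IsStd I a r ↔ ∀ k : ℕ, ∀ᶠ n in (UU : Filter ℕ), a n - r ∈ I ^ k := by
  simp [IsStd]

end Std

end Fermat.Agent.Patch
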