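/-
The patched module `P(M) = (∏ M_n) / Z` of a sequence of modules over a local ring.
-/
import Fermat.Agent.Patch.Std

set_option autoImplicit false

namespace Fermat.Agent.Patch

open Filter IsLocalRing

section Def

variable (R : Type*) [CommRing R] [IsLocalRing R]
variable (M : ℕ → Type*) [∀ n, AddCommGroup (M n)] [∀ n, Module R (M n)]

/-- The sequences that are infinitesimal in the `𝔪`-adic topology along the ultrafilter. -/
def infSeq : Submodule (ℕ → R) (∀ n, M n) where
  carrier := {x | ∀ k : ℕ, ∀ᶠ n in (UU : Filter ℕ),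
    x n ∈ (maximalIdeal R ^ k • ⊤ : Submodule R (M n))}
  add_mem' := by
    intro x y hx hy k
    filter_upwards [hx k, hy k] with n h1 h2
    exact Submodule.add_mem _ h1 h2
  zero_mem' := fun k => Eventually.of_forall fun n => Submodule.zero_mem _
  smul_mem' := by
    intro a x hx k
    filter_upwards [hx k] with n h1
    exact Submodule.smul_mem _ _ h1

/-- The patched module. -/
def PMod : Type _ := (∀ n, M n) ⧸ infSeq R M

noncomputable instance : AddCommGroup (PMod R M) :=
  inferInstanceAs (AddCommGroup ((∀ n, M n) ⧸ infSeq R M))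

noncomputable instance instModuleSeq : Module (ℕ → R) (PMod R M) :=
  inferInstanceAs (Module (ℕ → R) ((∀ n, M n) ⧸ infSeq R M))

noncomputable instance instModulePMod : Module R (PMod R M) :=
  Module.compHom (PMod R M) (Pi.constRingHom ℕ R)

end Def

section Basic

variable {R : Type*} [CommRing R] [IsLocalRing R]
variable {M : ℕ → Type*} [∀ n, AddCommGroup (M n)] [∀ n, Module R (M n)]

variable (R) in
/-- The class of a sequence. -/
noncomputable def mkP (x : ∀ n, M n) : PMod R M := Submodule.Quotient.mk (p := infSeq R M) x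

theorem mem_infSeq {x : ∀ n, M n} : x ∈ infSeq R M ↔ ∀ k : ℕ, ∀ᶠ n in (UU : Filter ℕ),
    x n ∈ (maximalIdeal R ^ k • ⊤ : Submodule R (M n)) := Iff.rfl

theorem mkP_surjective : Function.Surjective (mkP R : (∀ n, M n) → PMod R M) :=
  Submodule.Quotient.mk_surjective _

theorem mkP_eq_mkP {x y : ∀ n, M n} : mkP R x = mkP R y ↔ ∀ k : ℕ, ∀ᶠ n in (UU : Filter ℕ),
    x n - y n ∈ (maximalIdeal R ^ k • ⊤ : Submodule R (M n)) :=
  Submodule.Quotient.eq (infSeq R M)

theorem mkP_eq_zero {x : ∀ n, M n} : mkP R x = 0 ↔ ∀ k : ℕ, ∀ᶠ n in (UU : Filter ℕ),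
    x n ∈ (maximalIdeal R ^ k • ⊤ : Submodule R (M n)) :=
  Submodule.Quotient.mk_eq_zero (infSeq R M)

theorem mkP_congr {x y : ∀ n, M n} (h : ∀ᶠ n in (UU : Filter ℕ), x n = y n) :
    mkP R x = mkP R y := by
  rw [mkP_eq_mkP]
  intro k
  filter_upwards [h] with n hn
  rw [hn, sub_self]
  exact Submodule.zero_mem _

@[simp] theorem mkP_zero : mkP R (0 : ∀ n, M n) = 0 := rfl

theorem mkP_add (x y : ∀ n, M n) : mkP R (x + y) = mkP R x + mkP R y := rfl

theorem mkP_add' (x y : ∀ n, M n) : mkP R (fun n => x n + y n) = mkP R x + mkP R y := rfl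

theorem mkP_neg (x : ∀ n, M n) : mkP R (-x) = -mkP R x := rfl

theorem mkP_sub (x y : ∀ n, M n) : mkP R (x - y) = mkP R x - mkP R y := rfl

theorem mkP_smul_seq (a : ℕ → R) (x : ∀ n, M n) : a • mkP R x = mkP R (fun n => a n • x n) := rfl

theorem mkP_smul (a : R) (x : ∀ n, M n) : a • mkP R x = mkP R (fun n => a • x n) := rfl

theorem smul_eq_const_smul (a : R) (x : PMod R M) : a • x = (fun _ => a : ℕ → R) • x := rfl

/-- A sequence of scalars acts through its standard part. -/
theorem seq_smul_eq {a : ℕ → R} {r : R} (h : IsStd (maximalIdeal R) a r) (x : PMod R M) :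
    a • x = r • x := by
  obtain ⟨x, rfl⟩ := mkP_surjective x
  rw [mkP_smul_seq, mkP_smul, mkP_eq_mkP]
  intro k
  rw [isStd_iff_ring] at h
  filter_upwards [h k] with n hn
  rw [← sub_smul]
  exact Submodule.smul_mem_smul hn trivial

theorem mkP_smul_seq' {a : ℕ → R} {r : R} (h : IsStd (maximalIdeal R) a r) (x : ∀ n, M n) :
    mkP R (fun n => a n • x n) = r • mkP R x := by
  rw [← mkP_smul_seq, seq_smul_eq h]

theorem mkP_sum {ι : Type*} (s : Finset ι) (x : ι → ∀ n, M n) :
    mkP R (fun n => ∑ i ∈ s, x i n) = ∑ i ∈ s, mkP R (x i) := by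
  classical
  induction s using Finset.induction_on with
  | empty => simp; rfl
  | insert i s hi ih =>
    simp only [Finset.sum_insert hi]
    rw [← ih, ← mkP_add']

end Basic

section Functor

variable {R : Type*} [CommRing R] [IsLocalRing R]
variable {M L : ℕ → Type*} [∀ n, AddCommGroup (M n)] [∀ n, Module R (M n)]
  [∀ n, AddCommGroup (L n)] [∀ n, Module R (L n)]

omit [IsLocalRing R] in
theorem map_mem_pow_smul {N N' : Type*} [AddCommGroup N] [Module R N] [AddCommGroup N']
    [Module R N'] (f : N →ₗ[R] N') (J : Ideal R) {x : N}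
    (hx : x ∈ (J • ⊤ : Submodule R N)) : f x ∈ (J • ⊤ : Submodule R N') := by
  have h1 : (J • ⊤ : Submodule R N).map f ≤ J • ⊤ := by
    rw [Submodule.map_smul'']
    exact Submodule.smul_mono le_rfl le_top
  exact h1 (Submodule.mem_map_of_mem hx)

/-- Functoriality of the patched module. -/
noncomputable def mapP (f : ∀ n, M n →ₗ[R] L n) : PMod R M →ₗ[R] PMod R L where
  toFun := Quotient.lift (fun x => mkP R (fun n => f n (x n)))
    (by
      intro x y hxy
      have h : mkP R x = mkP R y := Quotient.sound hxy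
      rw [mkP_eq_mkP] at h ⊢
      intro k
      filter_upwards [h k] with n hn
      rw [← map_sub]
      exact map_mem_pow_smul (f n) _ hn)
  map_add' x y := by
    obtain ⟨x, rfl⟩ := mkP_surjective x
    obtain ⟨y, rfl⟩ := mkP_surjective y
    change mkP R (fun n => f n (x n + y n)) = mkP R (fun n => f n (x n)) + mkP R (fun n => f n (y n))
    rw [← mkP_add']
    simp only [map_add]
  map_smul' a x := by
    obtain ⟨x, rfl⟩ := mkP_surjective x
    change mkP R (fun n => f n (a • x n)) = a • mkP R (fun n => f n (x n))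
    rw [mkP_smul]
    simp only [map_smul]

@[simp] theorem mapP_mkP (f : ∀ n, M n →ₗ[R] L n) (x : ∀ n, M n) :
    mapP f (mkP R x) = mkP R (fun n => f n (x n)) := rfl

theorem mapP_surjective {f : ∀ n, M n →ₗ[R] L n} (hf : ∀ n, Function.Surjective (f n)) :
    Function.Surjective (mapP f) := by
  intro y
  obtain ⟨y, rfl⟩ := mkP_surjective y
  choose x hx using fun n => hf n (y n)
  exact ⟨mkP R x, by simp [hx]⟩

/-- If `x n ∈ K n + 𝔪 ^ k M n` for almost all `n`, for each `k`, then the class of `x` is the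
class of a sequence in `K`. -/
theorem exists_mem_of_forall_mem_sup {K : ∀ n, Submodule R (M n)} {x : ∀ n, M n}
    (h : ∀ k, ∀ᶠ n in (UU : Filter ℕ), x n ∈ K n ⊔ (maximalIdeal R ^ k • ⊤ : Submodule R (M n))) :
    ∃ u : ∀ n, M n, (∀ n, u n ∈ K n) ∧ mkP R x = mkP R u := by
  obtain ⟨κ, h1, h2⟩ := exists_diag (p := fun k n =>
    x n ∈ K n ⊔ (maximalIdeal R ^ k • ⊤ : Submodule R (M n))) (by intro n; simp) h
  have h3 : ∀ n, ∃ u ∈ K n, x n - u ∈ (maximalIdeal R ^ (κ n) • ⊤ : Submodule R (M n)) := by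
    intro n
    obtain ⟨u, hu, v, hv, huv⟩ := Submodule.mem_sup.1 (h1 n)
    exact ⟨u, hu, by rw [← huv]; simpa using hv⟩
  choose u hu hxu using h3
  refine ⟨u, hu, ?_⟩
  rw [mkP_eq_mkP]
  intro k
  filter_upwards [h2 k] with n hn
  exact Submodule.smul_mono_left (Ideal.pow_le_pow_right hn) (hxu n)

omit [IsLocalRing R] in
theorem mem_sup_of_map_mem {N N' : Type*} [AddCommGroup N] [Module R N] [AddCommGroup N']
    [Module R N'] {f : N →ₗ[R] N'} (hf : Function.Surjective f) (J : Ideal R) {x : N}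
    (hx : f x ∈ (J • ⊤ : Submodule R N')) :
    x ∈ LinearMap.ker f ⊔ (J • ⊤ : Submodule R N) := by
  have h1 : (J • ⊤ : Submodule R N).map f = J • ⊤ := by
    rw [Submodule.map_smul'', Submodule.map_top, LinearMap.range_eq_top.2 hf]
  rw [← h1] at hx
  obtain ⟨y, hy, hxy⟩ := hx
  have h2 : x = (x - y) + y := by abel
  rw [h2]
  exact Submodule.add_mem_sup (by rw [LinearMap.mem_ker, map_sub, hxy, sub_self]) hy

/-- The kernel of `mapP f` for surjective `f n`. -/
theorem mapP_eq_zero_iff {f : ∀ n, M n →ₗ[R] L n} (hf : ∀ n, Function.Surjective (f n))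
    (x : PMod R M) : mapP f x = 0 ↔ ∃ u : ∀ n, M n, (∀ n, f n (u n) = 0) ∧ x = mkP R u := by
  constructor
  · intro h
    obtain ⟨x, rfl⟩ := mkP_surjective x
    rw [mapP_mkP, mkP_eq_zero] at h
    obtain ⟨u, hu, hxu⟩ := exists_mem_of_forall_mem_sup (K := fun n => LinearMap.ker (f n))
      (x := x) (fun k => (h k).mono fun n hn => mem_sup_of_map_mem (hf n) _ hn)
    exact ⟨u, hu, hxu⟩
  · rintro ⟨u, hu, rfl⟩
    rw [mapP_mkP]
    exact mkP_congr (Eventually.of_forall hu)

end Functor

section Relations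

variable {R : Type*} [CommRing R] [IsLocalRing R]
variable {M : ℕ → Type*} [∀ n, AddCommGroup (M n)] [∀ n, Module R (M n)]

/-- If (a sequence with standard part) `a` kills almost all `M n`, it kills the patched module. -/
theorem smul_eq_zero_of_eventually {a : R} (h : ∀ᶠ n in (UU : Filter ℕ), ∀ x : M n, a • x = 0)
    (x : PMod R M) : a • x = 0 := by
  obtain ⟨x, rfl⟩ := mkP_surjective x
  rw [mkP_smul, ← mkP_zero]
  exact mkP_congr (h.mono fun n hn => hn _)

theorem le_annihilator_PMod {I : Ideal R} (h : ∀ n, I ≤ Module.annihilator R (M n)) :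
    I ≤ Module.annihilator R (PMod R M) := by
  intro a ha
  rw [Module.mem_annihilator]
  exact smul_eq_zero_of_eventually (Eventually.of_forall fun n x =>
    Module.mem_annihilator.1 (h n ha) x)

/-- kernel computation: if each `f n` is surjective with kernel `(span of a₁, ..., a_r) • M n`,
with `a i n` having standard part `c i`, then the kernel of `mapP f` is `(c₁,...,c_r) • PMod`. -/
theorem ker_mapP_eq {L : ℕ → Type*} [∀ n, AddCommGroup (L n)] [∀ n, Module R (L n)]
    {ι : Type*} [Fintype ι] {a : ι → ℕ → R} {c : ι → R}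
    (hac : ∀ i, IsStd (maximalIdeal R) (a i) (c i))
    {f : ∀ n, M n →ₗ[R] L n} (hf : ∀ n, Function.Surjective (f n))
    (hker : ∀ n, ∀ x : M n, f n x = 0 ↔
      x ∈ (Ideal.span (Set.range fun i => a i n) • ⊤ : Submodule R (M n))) (x : PMod R M) :
    mapP f x = 0 ↔ x ∈ (Ideal.span (Set.range c) • ⊤ : Submodule R (PMod R M)) := by
  rw [mapP_eq_zero_iff hf]
  have hmem : ∀ {N : Type _} [AddCommGroup N] [Module R N] (b : ι → R) (z : N),
      z ∈ (Ideal.span (Set.range b) • ⊤ : Submodule R N) ↔ ∃ w : ι → N, z = ∑ i, b i • w i := by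
    intro N _ _ b z
    constructor
    · intro hz
      refine Submodule.smul_induction_on hz ?_ ?_
      · intro r hr y _
        obtain ⟨d, hd⟩ := (Ideal.mem_span_range_iff_exists_fun).1 hr
        refine ⟨fun i => d i • y, ?_⟩
        rw [← hd, Finset.sum_smul]
        refine Finset.sum_congr rfl fun i _ => ?_
        rw [mul_comm, mul_smul]
      · rintro y z ⟨w, rfl⟩ ⟨w', rfl⟩
        exact ⟨w + w', by simp [Finset.sum_add_distrib]⟩
    · rintro ⟨w, rfl⟩
      refine Submodule.sum_mem _ fun i _ => ?_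
      exact Submodule.smul_mem_smul (Ideal.subset_span ⟨i, rfl⟩) trivial
  rw [hmem]
  constructor
  · rintro ⟨u, hu, rfl⟩
    have h1 : ∀ n, ∃ w : ι → M n, u n = ∑ i, a i n • w i := fun n =>
      (hmem (fun i => a i n) (u n)).1 ((hker n _).1 (hu n))
    choose w hw using h1
    refine ⟨fun i => mkP R (fun n => w n i), ?_⟩
    have h2 : u = fun n => ∑ i, a i n • w n i := funext hw
    rw [h2, mkP_sum Finset.univ (fun i n => a i n • w n i)]
    exact Finset.sum_congr rfl fun i _ => mkP_smul_seq' (hac i) _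
  · rintro ⟨w, rfl⟩
    choose v hv using fun i => mkP_surjective (R := R) (w i)
    refine ⟨fun n => ∑ i, a i n • v i n, fun n => ?_, ?_⟩
    · rw [hker n, hmem]
      exact ⟨fun i => v i n, rfl⟩
    · rw [mkP_sum Finset.univ (fun i n => a i n • v i n)]
      refine Finset.sum_congr rfl fun i _ => ?_
      rw [mkP_smul_seq' (hac i), hv]

end Relations

end Fermat.Agent.Patch
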