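/-
Freeness of the patched module over the patched power series ring.
-/
import Fermat.Agent.Patch.Ultra

set_option autoImplicit false

namespace Fermat.Agent.Patch

open Filter IsLocalRing

section Std

variable {S R : Type*} [CommRing S] [CommRing R] (I : Ideal R) [IsAdicComplete I R]
  (hfin : ∀ k, Finite (R ⧸ (I ^ k • ⊤ : Submodule R R)))

/-- The standard part of a sequence of ring homomorphisms. -/
noncomputable def stdRingHom (f : ℕ → (S →+* R)) : S →+* R where
  toFun s := (exists_isStd hfin (fun n => f n s)).choose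
  map_one' := (exists_isStd hfin (fun n => f n 1)).choose_spec.unique (by
    simpa using isStd_const (I := I) (1 : R))
  map_mul' a b := (exists_isStd hfin (fun n => f n (a * b))).choose_spec.unique (by
    simpa using (exists_isStd hfin (fun n => f n a)).choose_spec.mul
      (exists_isStd hfin (fun n => f n b)).choose_spec)
  map_zero' := (exists_isStd hfin (fun n => f n 0)).choose_spec.unique (by
    simpa using isStd_const (I := I) (0 : R))
  map_add' a b := (exists_isStd hfin (fun n => f n (a + b))).choose_spec.unique (by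
    simpa using (exists_isStd hfin (fun n => f n a)).choose_spec.add
      (exists_isStd hfin (fun n => f n b)).choose_spec)

theorem stdRingHom_spec (f : ℕ → (S →+* R)) (s : S) :
    IsStd I (fun n => f n s) (stdRingHom I hfin f s) :=
  (exists_isStd hfin (fun n => f n s)).choose_spec

theorem stdRingHom_eq (f : ℕ → (S →+* R)) (s : S) (r : R) (h : IsStd I (fun n => f n s) r) :
    stdRingHom I hfin f s = r :=
  (stdRingHom_spec I hfin f s).unique h

theorem stdRingHom_eq_const (f : ℕ → (S →+* R)) (s : S) (r : R) (h : ∀ n, f n s = r) :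
    stdRingHom I hfin f s = r :=
  stdRingHom_eq I hfin f s r (by simpa [h] using isStd_const (I := I) r)

end Std

section Local

theorem finite_quotient_pow (R : Type*) [CommRing R] [IsLocalRing R] [IsNoetherianRing R]
    [Finite (ResidueField R)] (k : ℕ) :
    Finite (R ⧸ (maximalIdeal R ^ k • ⊤ : Submodule R R)) := by
  have h1 : (maximalIdeal R ^ k • ⊤ : Submodule R R) = maximalIdeal R ^ k := by
    simp
  rw [h1]
  exact (IsLocalRing.finite_quotient_iff (I := maximalIdeal R ^ k)).2 ⟨k, le_rfl⟩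

theorem finite_quotient_smul_top {R : Type*} [CommRing R] {M : Type*} [AddCommGroup M] [Module R M]
    [Module.Finite R M] (I : Ideal R) (h : Finite (R ⧸ I)) :
    Finite (M ⧸ (I • ⊤ : Submodule R M)) := by
  obtain ⟨n, f, hf⟩ := Module.Finite.exists_fin' R M
  have : Finite (Fin n → R ⧸ I) := inferInstance
  let g : (Fin n → R ⧸ I) → (M ⧸ (I • ⊤ : Submodule R M)) := fun c =>
    Submodule.Quotient.mk (f (fun i => Function.surjInv (Ideal.Quotient.mk_surjective (I := I)) (c i)))
  refine Finite.of_surjective g fun x => ?_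
  obtain ⟨x, rfl⟩ := Submodule.Quotient.mk_surjective _ x
  obtain ⟨c, rfl⟩ := hf x
  refine ⟨fun i => Ideal.Quotient.mk I (c i), ?_⟩
  rw [Submodule.Quotient.eq, ← map_sub]
  set e : Fin n → R := (fun i => Function.surjInv (Ideal.Quotient.mk_surjective (I := I))
    (Ideal.Quotient.mk I (c i))) - c with he
  have hei : ∀ i, e i ∈ I := by
    intro i
    rw [he, Pi.sub_apply, ← Ideal.Quotient.eq]
    exact Function.surjInv_eq _ _
  have : e = ∑ i, e i • Pi.single i (1 : R) := by
    ext j
    simp [Finset.sum_apply, Pi.single_apply]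
  rw [this, map_sum]
  refine Submodule.sum_mem _ fun i _ => ?_
  rw [map_smul]
  exact Submodule.smul_mem_smul (hei i) trivial

/-- A power of the maximal ideal bounded in terms of the cardinality kills a finite module. -/
theorem pow_smul_top_eq_bot_of_card_le {R : Type*} [CommRing R] [IsLocalRing R] {Q : Type*}
    [AddCommGroup Q] [Module R Q] [Finite Q] {N : ℕ} (hN : Nat.card Q ≤ N) :
    (maximalIdeal R ^ N • ⊤ : Submodule R Q) = ⊥ := by
  have key : ∀ i : ℕ, (maximalIdeal R ^ i • ⊤ : Submodule R Q) = ⊥ ∨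
      ((maximalIdeal R ^ i • ⊤ : Submodule R Q) : Set Q).ncard + i ≤ Nat.card Q := by
    intro i
    induction i with
    | zero => right; simp [Set.ncard_univ]
    | succ i ih =>
      rcases ih with h | h
      · left
        rw [pow_succ', mul_smul, h, Submodule.smul_bot]
      · by_cases h0 : (maximalIdeal R ^ i • ⊤ : Submodule R Q) = ⊥
        · left
          rw [pow_succ', mul_smul, h0, Submodule.smul_bot]
        · right
          have hle : (maximalIdeal R ^ (i + 1) • ⊤ : Submodule R Q) ≤ maximalIdeal R ^ i • ⊤ :=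
            Submodule.smul_mono_left (Ideal.pow_le_pow_right (Nat.le_succ i))
          have hlt : (maximalIdeal R ^ (i + 1) • ⊤ : Submodule R Q) < maximalIdeal R ^ i • ⊤ := by
            refine lt_of_le_of_ne hle fun heq => h0 ?_
            refine Submodule.eq_bot_of_le_smul_of_le_jacobson_bot (maximalIdeal R) _
              (IsNoetherian.noetherian _) ?_ (IsLocalRing.maximalIdeal_le_jacobson _)
            rw [← mul_smul, ← pow_succ']
            exact heq.ge
          have h1 : ((maximalIdeal R ^ (i + 1) • ⊤ : Submodule R Q) : Set Q).ncard <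
              ((maximalIdeal R ^ i • ⊤ : Submodule R Q) : Set Q).ncard :=
            Set.ncard_lt_ncard (by exact_mod_cast hlt) (Set.toFinite _)
          omega
  rcases key N with h | h
  · exact h
  · exfalso
    have h1 : 0 < ((maximalIdeal R ^ N • ⊤ : Submodule R Q) : Set Q).ncard :=
      (Set.ncard_pos (Set.toFinite _)).2 ⟨0, Submodule.zero_mem _⟩
    omega

end Local

section Bounded

variable {S R : Type*} [CommRing S] [IsLocalRing S] [CommRing R] [IsLocalRing R]
variable {d : ℕ}

omit [IsLocalRing S] [IsLocalRing R] in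
/-- The submodule of combinations of the `b i` with coefficients in `K`. -/
theorem mem_map_smul_top_iff {φ : S →+* R} {N : Type*} [AddCommGroup N] [Module R N]
    {b : Fin d → N} (hb : ∀ x : N, ∃ c : Fin d → S, x = ∑ i, φ (c i) • b i) (K : Ideal S) (x : N) :
    x ∈ (K.map φ • ⊤ : Submodule R N) ↔
      ∃ c : Fin d → S, (∀ i, c i ∈ K) ∧ x = ∑ i, φ (c i) • b i := by
  constructor
  · intro hx
    refine Submodule.smul_induction_on hx ?_ ?_
    · intro r hr y _
      refine Submodule.span_induction (p := fun r _ => ∀ y : N, ∃ c : Fin d → S, (∀ i, c i ∈ K) ∧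
        r • y = ∑ i, φ (c i) • b i) ?_ ?_ ?_ ?_ hr y
      · rintro _ ⟨s, hs, rfl⟩ y
        obtain ⟨c, rfl⟩ := hb y
        refine ⟨fun i => s * c i, fun i => Ideal.mul_mem_right _ _ hs, ?_⟩
        simp [Finset.smul_sum, mul_smul]
      · intro y
        exact ⟨0, fun i => K.zero_mem, by simp⟩
      · intro r r' _ _ h h' y
        obtain ⟨c, hc, h1⟩ := h y
        obtain ⟨c', hc', h1'⟩ := h' y
        refine ⟨c + c', fun i => K.add_mem (hc i) (hc' i), ?_⟩
        simp [add_smul, h1, h1', Finset.sum_add_distrib]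
      · intro a r _ h y
        obtain ⟨c, hc, h1⟩ := h (a • y)
        refine ⟨c, hc, ?_⟩
        rw [← h1, smul_eq_mul, mul_comm, mul_smul]
    · rintro y z ⟨c, hc, rfl⟩ ⟨c', hc', rfl⟩
      refine ⟨c + c', fun i => K.add_mem (hc i) (hc' i), ?_⟩
      simp [add_smul, Finset.sum_add_distrib]
  · rintro ⟨c, hc, rfl⟩
    exact Submodule.sum_mem _ fun i _ =>
      Submodule.smul_mem_smul (Ideal.mem_map_of_mem φ (hc i)) trivial

omit [IsLocalRing S] in
/-- Uniform comparison of the `𝔪_R`-adic and `𝔪_S`-adic topologies. -/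
theorem pow_smul_top_le_map {φ : S →+* R} {N : Type*} [AddCommGroup N] [Module R N]
    {b : Fin d → N} (hb : ∀ x : N, ∃ c : Fin d → S, x = ∑ i, φ (c i) • b i) (K : Ideal S)
    [Finite (S ⧸ K)] :
    (maximalIdeal R ^ (Nat.card (Fin d → S ⧸ K)) • ⊤ : Submodule R N) ≤ K.map φ • ⊤ := by
  let Q := N ⧸ (K.map φ • ⊤ : Submodule R N)
  let g : (Fin d → S ⧸ K) → Q := fun c =>
    Submodule.Quotient.mk (∑ i, φ (Function.surjInv (Ideal.Quotient.mk_surjective (I := K)) (c i)) • b i)
  have hg : Function.Surjective g := by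
    intro x
    obtain ⟨x, rfl⟩ := Submodule.Quotient.mk_surjective _ x
    obtain ⟨c, rfl⟩ := hb x
    refine ⟨fun i => Ideal.Quotient.mk K (c i), ?_⟩
    rw [Submodule.Quotient.eq, mem_map_smul_top_iff hb]
    refine ⟨fun i => Function.surjInv (Ideal.Quotient.mk_surjective (I := K))
      (Ideal.Quotient.mk K (c i)) - c i, fun i => ?_, ?_⟩
    · rw [← Ideal.Quotient.eq]
      exact Function.surjInv_eq _ _
    · simp [sub_smul, Finset.sum_sub_distrib]
  have : Finite Q := Finite.of_surjective g hg
  have hcard : Nat.card Q ≤ Nat.card (Fin d → S ⧸ K) := Nat.card_le_card_of_surjective g hg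
  have h1 := pow_smul_top_eq_bot_of_card_le (R := R) hcard
  have h2 : ((maximalIdeal R ^ (Nat.card (Fin d → S ⧸ K)) • ⊤ : Submodule R N).map
      (Submodule.mkQ (K.map φ • ⊤ : Submodule R N))) = ⊥ := by
    rw [Submodule.map_smul'', Submodule.map_top, Submodule.range_mkQ, h1]
  have h3 := Submodule.map_le_iff_le_comap.1 h2.le
  rwa [Submodule.comap_bot, Submodule.ker_mkQ] at h3

end Bounded

section Free

variable {S R : Type*} [CommRing S] [IsLocalRing S] [IsNoetherianRing S]
  [IsAdicComplete (maximalIdeal S) S] [Finite (ResidueField S)]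
  [CommRing R] [IsLocalRing R]
variable {d : ℕ} {M : ℕ → Type*} [∀ n, AddCommGroup (M n)] [∀ n, Module R (M n)]
variable {φ : ℕ → (S →+* R)} {Φ : S →+* R}
variable {b : ∀ n, Fin d → M n}

omit [IsLocalRing S] [IsNoetherianRing S] [IsAdicComplete (maximalIdeal S) S]
  [Finite (ResidueField S)] in
theorem sum_smul_mkP (hΦ : ∀ s, IsStd (maximalIdeal R) (fun n => φ n s) (Φ s)) (c : Fin d → S) :
    ∑ i, Φ (c i) • mkP R (fun n => b n i) = mkP R (fun n => ∑ i, φ n (c i) • b n i) := by
  rw [mkP_sum Finset.univ (fun i n => φ n (c i) • b n i)]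
  exact Finset.sum_congr rfl fun i _ => (mkP_smul_seq' (hΦ _) _).symm

/-- The classes of `b · i` generate the patched module over `S`. -/
theorem exists_eq_sum_smul_mkP (hφ : ∀ n, IsLocalHom (φ n))
    (hΦ : ∀ s, IsStd (maximalIdeal R) (fun n => φ n s) (Φ s))
    (hb : ∀ n, ∀ x : M n, ∃ c : Fin d → S, x = ∑ i, φ n (c i) • b n i) (x : PMod R M) :
    ∃ c : Fin d → S, x = ∑ i, Φ (c i) • mkP R (fun n => b n i) := by
  obtain ⟨x, rfl⟩ := mkP_surjective x
  choose c hc using fun n => hb n (x n)
  choose e he using fun i => exists_isStd (I := maximalIdeal S) (M := S)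
    (finite_quotient_pow S) (fun n => c n i)
  refine ⟨e, ?_⟩
  rw [sum_smul_mkP hΦ, mkP_eq_mkP]
  intro k
  have h1 : ∀ᶠ n in (UU : Filter ℕ), ∀ i, c n i - e i ∈ maximalIdeal S ^ k := by
    rw [Filter.eventually_all]
    intro i
    exact (isStd_iff_ring.1 (he i)) k
  filter_upwards [h1] with n hn
  rw [hc n, ← Finset.sum_sub_distrib]
  refine Submodule.sum_mem _ fun i _ => ?_
  rw [← sub_smul, ← map_sub]
  refine Submodule.smul_mem_smul ?_ trivial
  have := hφ n
  have h2 : (maximalIdeal S ^ k).map (φ n) ≤ maximalIdeal R ^ k := by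
    rw [Ideal.map_pow]
    exact Ideal.pow_right_mono (((IsLocalRing.local_hom_TFAE (φ n)).out 0 2).1 this) k
  exact h2 (Ideal.mem_map_of_mem _ (hn i))

/-- Linear independence of the classes of the `b · i`. -/
theorem eq_zero_of_sum_smul_mkP_eq_zero 
    (hΦ : ∀ s, IsStd (maximalIdeal R) (fun n => φ n s) (Φ s))
    (hb : ∀ n, ∀ x : M n, ∃ c : Fin d → S, x = ∑ i, φ n (c i) • b n i)
    {J : ℕ → Ideal S} (hJ : ∀ k, ∀ᶠ n in (UU : Filter ℕ), J n ≤ maximalIdeal S ^ k)
    (hrel : ∀ n, ∀ c : Fin d → S, ∑ i, φ n (c i) • b n i = 0 → ∀ i, c i ∈ J n)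
    {c : Fin d → S} (hc : ∑ i, Φ (c i) • mkP R (fun n => b n i) = 0) : c = 0 := by
  rw [sum_smul_mkP hΦ, mkP_eq_zero] at hc
  funext i
  refine IsHausdorff.haus (I := maximalIdeal S) inferInstance _ fun k => ?_
  rw [SModEq.sub_mem, sub_zero, smul_eq_mul, Ideal.mul_top]
  have hfin : Finite (S ⧸ maximalIdeal S ^ k) :=
    (IsLocalRing.finite_quotient_iff (I := maximalIdeal S ^ k)).2 ⟨k, le_rfl⟩
  obtain ⟨n, h1, h2⟩ := ((hc (Nat.card (Fin d → S ⧸ maximalIdeal S ^ k))).and (hJ k)).exists
  have h3 := pow_smul_top_le_map (hb n) (maximalIdeal S ^ k) h1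
  rw [mem_map_smul_top_iff (hb n)] at h3
  obtain ⟨e, he, h4⟩ := h3
  have h5 : ∑ i, φ n (c i - e i) • b n i = 0 := by
    simp only [map_sub, sub_smul, Finset.sum_sub_distrib]
    rw [← h4, sub_self]
  have h6 := h2 (hrel n _ h5 i)
  have := Ideal.add_mem _ h6 (he i)
  simpa using this

end Free

end Fermat.Agent.Patch
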