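/-
The map from the patched module to the bottom level.
-/
import Fermat.Agent.Patch.Free
import Fermat.Prelude.Thm_IsAdicComplete_of_module_finite

set_option autoImplicit false

namespace Fermat.Agent.Patch

open Filter IsLocalRing

section Bottom

variable {R R₀ : Type*} [CommRing R] [IsLocalRing R] 
  [CommRing R₀] [IsLocalRing R₀] [IsNoetherianRing R₀] [IsAdicComplete (maximalIdeal R₀) R₀]
  [Finite (ResidueField R₀)]
variable {M : ℕ → Type*} [∀ n, AddCommGroup (M n)] [∀ n, Module R (M n)]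
variable {M₀ : Type*} [AddCommGroup M₀] [Module R₀ M₀] [Module.Finite R₀ M₀]

omit [IsLocalRing R] [IsLocalRing R₀] [IsNoetherianRing R₀] [IsAdicComplete (maximalIdeal R₀) R₀]
  [Finite (ResidueField R₀)] [Module.Finite R₀ M₀] in
theorem map_pow_smul_top_le {K : Ideal R} {K₀ : Ideal R₀} {N : Type*} [AddCommGroup N] [Module R N]
    {ψ : R →+* R₀} {π : N →+ M₀} (hsmul : ∀ (f : R) (x : N), π (f • x) = ψ f • π x)
    (hK : K.map ψ ≤ K₀) {x : N} (hx : x ∈ (K • ⊤ : Submodule R N)) :
    π x ∈ (K₀ • ⊤ : Submodule R₀ M₀) := by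
  refine Submodule.smul_induction_on hx ?_ ?_
  · intro r hr y _
    rw [hsmul]
    exact Submodule.smul_mem_smul (hK (Ideal.mem_map_of_mem _ hr)) trivial
  · intro y z hy hz
    rw [map_add]
    exact Submodule.add_mem _ hy hz

omit [IsLocalRing R] [IsLocalRing R₀] [IsNoetherianRing R₀] [IsAdicComplete (maximalIdeal R₀) R₀]
  [Finite (ResidueField R₀)] [Module.Finite R₀ M₀] in
theorem mem_sup_of_map_mem_semilinear {K : Ideal R} {N : Type*} [AddCommGroup N] [Module R N]
    {ψ : R →+* R₀} (hψ : Function.Surjective ψ)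
    {π : N →+ M₀} (hsmul : ∀ (f : R) (x : N), π (f • x) = ψ f • π x)
    (hπ : Function.Surjective π) {x : N} (hx : π x ∈ (K.map ψ • ⊤ : Submodule R₀ M₀)) :
    ∃ u v : N, π u = 0 ∧ v ∈ (K • ⊤ : Submodule R N) ∧ x = u + v := by
  have key : ∀ y ∈ (K.map ψ • ⊤ : Submodule R₀ M₀), ∃ v ∈ (K • ⊤ : Submodule R N), π v = y := by
    intro y hy
    refine Submodule.smul_induction_on hy ?_ ?_
    · intro r hr m _
      obtain ⟨s, hs, rfl⟩ := (Ideal.mem_map_iff_of_surjective ψ hψ).1 hr
      obtain ⟨z, rfl⟩ := hπ m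
      exact ⟨s • z, Submodule.smul_mem_smul hs trivial, hsmul _ _⟩
    · rintro y z ⟨v, hv, rfl⟩ ⟨w, hw, rfl⟩
      exact ⟨v + w, Submodule.add_mem _ hv hw, map_add _ _ _⟩
  obtain ⟨v, hv, hvx⟩ := key _ hx
  exact ⟨x - v, v, by rw [map_sub, hvx, sub_self], hv, by abel⟩

theorem finite_quotient_pow_smul_top (R₀ : Type*) [CommRing R₀] [IsLocalRing R₀]
    [IsNoetherianRing R₀] [Finite (ResidueField R₀)] (M₀ : Type*) [AddCommGroup M₀] [Module R₀ M₀]
    [Module.Finite R₀ M₀] (k : ℕ) : Finite (M₀ ⧸ (maximalIdeal R₀ ^ k • ⊤ : Submodule R₀ M₀)) :=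
  finite_quotient_smul_top _ ((IsLocalRing.finite_quotient_iff (I := maximalIdeal R₀ ^ k)).2
    ⟨k, le_rfl⟩)

variable (ψ : ℕ → (R →+* R₀)) (π : ∀ n, M n →+ M₀)

/-- The standard part of `n ↦ π n (x n)`. -/
theorem exists_isStd_bottom (x : ∀ n, M n) :
    ∃ m : M₀, IsStd (maximalIdeal R₀) (fun n => π n (x n)) m := by
  have : IsAdicComplete (maximalIdeal R₀) M₀ := IsAdicComplete.of_module_finite _ _
  exact exists_isStd (finite_quotient_pow_smul_top R₀ M₀) _

variable {ψ π}

omit [IsNoetherianRing R₀] [IsAdicComplete (maximalIdeal R₀) R₀] [Finite (ResidueField R₀)]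
  [Module.Finite R₀ M₀] in
theorem isStd_bottom_zero (hψ : ∀ n, Function.Surjective (ψ n))
    (hsmul : ∀ n (f : R) (x : M n), π n (f • x) = ψ n f • π n x)
    {x : ∀ n, M n} (hx : mkP R x = 0) : IsStd (maximalIdeal R₀) (fun n => π n (x n)) 0 := by
  intro k
  rw [mkP_eq_zero] at hx
  filter_upwards [hx k] with n hn
  rw [sub_zero]
  refine map_pow_smul_top_le (hsmul n) ?_ hn
  rw [Ideal.map_pow]
  refine Ideal.pow_right_mono ?_ k
  have h1 : IsLocalHom (ψ n) := IsLocalHom.of_surjective (ψ n) (hψ n)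
  exact ((IsLocalRing.local_hom_TFAE (ψ n)).out 0 2).1 h1

/-- The map from the patched module to the bottom level. -/
noncomputable def bottomMap (hψ : ∀ n, Function.Surjective (ψ n))
    (hsmul : ∀ n (f : R) (x : M n), π n (f • x) = ψ n f • π n x) : PMod R M →+ M₀ where
  toFun := Quotient.lift (fun x => (exists_isStd_bottom (R₀ := R₀) π x).choose) (by
    intro x y hxy
    have h : mkP R x = mkP R y := Quotient.sound hxy
    rw [← sub_eq_zero, ← mkP_sub] at h
    have h1 := isStd_bottom_zero hψ hsmul h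
    have h2 := (exists_isStd_bottom (R₀ := R₀) π x).choose_spec.sub (exists_isStd_bottom (R₀ := R₀) π y).choose_spec
    have hc : IsAdicComplete (maximalIdeal R₀) M₀ := IsAdicComplete.of_module_finite _ _
    have h3 := h2.unique (y := 0) (by simpa using h1)
    exact sub_eq_zero.1 h3)
  map_zero' := by
    have hc : IsAdicComplete (maximalIdeal R₀) M₀ := IsAdicComplete.of_module_finite _ _
    refine (exists_isStd_bottom (R₀ := R₀) π (0 : ∀ n, M n)).choose_spec.unique ?_
    simpa using isStd_const (I := maximalIdeal R₀) (0 : M₀)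
  map_add' x y := by
    have hc : IsAdicComplete (maximalIdeal R₀) M₀ := IsAdicComplete.of_module_finite _ _
    obtain ⟨x, rfl⟩ := mkP_surjective x
    obtain ⟨y, rfl⟩ := mkP_surjective y
    refine (exists_isStd_bottom (R₀ := R₀) π (x + y)).choose_spec.unique ?_
    have hxy : (fun n => π n ((x + y) n)) = fun n => π n (x n) + π n (y n) := by
      funext n
      exact map_add (π n) (x n) (y n)
    rw [hxy]
    exact (exists_isStd_bottom (R₀ := R₀) π x).choose_spec.add
      (exists_isStd_bottom (R₀ := R₀) π y).choose_spec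

theorem bottomMap_spec (hψ : ∀ n, Function.Surjective (ψ n))
    (hsmul : ∀ n (f : R) (x : M n), π n (f • x) = ψ n f • π n x) (x : ∀ n, M n) :
    IsStd (maximalIdeal R₀) (fun n => π n (x n)) (bottomMap hψ hsmul (mkP R x)) :=
  (exists_isStd_bottom (R₀ := R₀) π x).choose_spec

theorem bottomMap_eq (hψ : ∀ n, Function.Surjective (ψ n))
    (hsmul : ∀ n (f : R) (x : M n), π n (f • x) = ψ n f • π n x) {x : ∀ n, M n} {m : M₀}
    (h : IsStd (maximalIdeal R₀) (fun n => π n (x n)) m) : bottomMap hψ hsmul (mkP R x) = m := by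
  have hc : IsAdicComplete (maximalIdeal R₀) M₀ := IsAdicComplete.of_module_finite _ _
  exact (bottomMap_spec hψ hsmul x).unique h

theorem bottomMap_surjective (hψ : ∀ n, Function.Surjective (ψ n))
    (hsmul : ∀ n (f : R) (x : M n), π n (f • x) = ψ n f • π n x)
    (hπ : ∀ n, Function.Surjective (π n)) : Function.Surjective (bottomMap hψ hsmul) := by
  intro m
  choose x hx using fun n => hπ n m
  exact ⟨mkP R x, bottomMap_eq hψ hsmul (by simpa [hx] using isStd_const m)⟩

theorem bottomMap_smul (hψ : ∀ n, Function.Surjective (ψ n))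
    (hsmul : ∀ n (f : R) (x : M n), π n (f • x) = ψ n f • π n x) {Ψ : R →+* R₀}
    (hΨ : ∀ f, IsStd (maximalIdeal R₀) (fun n => ψ n f) (Ψ f)) (f : R) (x : PMod R M) :
    bottomMap hψ hsmul (f • x) = Ψ f • bottomMap hψ hsmul x := by
  obtain ⟨x, rfl⟩ := mkP_surjective x
  rw [mkP_smul]
  refine bottomMap_eq hψ hsmul ?_
  simp only [hsmul]
  exact (hΨ f).smul (bottomMap_spec hψ hsmul x)

/-- Kernel of the map to the bottom level. -/
theorem bottomMap_eq_zero_iff (hψ : ∀ n, Function.Surjective (ψ n))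
    (hsmul : ∀ n (f : R) (x : M n), π n (f • x) = ψ n f • π n x)
    (hπ : ∀ n, Function.Surjective (π n))
    {ι : Type*} [Fintype ι] {a : ι → ℕ → R} {c : ι → R}
    (hac : ∀ i, IsStd (maximalIdeal R) (a i) (c i))
    (hker : ∀ n, ∀ x : M n, π n x = 0 ↔
      x ∈ (Ideal.span (Set.range fun i => a i n) • ⊤ : Submodule R (M n))) (x : PMod R M) :
    bottomMap hψ hsmul x = 0 ↔ x ∈ (Ideal.span (Set.range c) • ⊤ : Submodule R (PMod R M)) := by
  -- use the abstract quotient modules
  let L : ℕ → Type _ := fun n => M n ⧸ (Ideal.span (Set.range fun i => a i n) • ⊤ :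
    Submodule R (M n))
  let f : ∀ n, M n →ₗ[R] L n := fun n => Submodule.mkQ _
  have hf : ∀ n, Function.Surjective (f n) := fun n => Submodule.mkQ_surjective _
  have hfk : ∀ n, ∀ x : M n, f n x = 0 ↔
      x ∈ (Ideal.span (Set.range fun i => a i n) • ⊤ : Submodule R (M n)) := fun n x => by
    change Submodule.mkQ _ x = 0 ↔ _
    rw [Submodule.mkQ_apply, Submodule.Quotient.mk_eq_zero]
  rw [← ker_mapP_eq hac hf hfk, mapP_eq_zero_iff hf]
  constructor
  · intro h
    obtain ⟨x, rfl⟩ := mkP_surjective x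
    have h1 := bottomMap_spec hψ hsmul x
    rw [h] at h1
    obtain ⟨u, hu, hxu⟩ := exists_mem_of_forall_mem_sup (K := fun n => LinearMap.ker (f n))
      (x := x) (by
        intro k
        filter_upwards [h1 k] with n hn
        rw [sub_zero] at hn
        have h2 : (maximalIdeal R ^ k).map (ψ n) = maximalIdeal R₀ ^ k := by
          rw [Ideal.map_pow]
          congr 1
          exact IsLocalRing.map_maximalIdeal_of_surjective (ψ n) (hψ n)
        rw [← h2] at hn
        obtain ⟨u, v, hu, hv, huv⟩ := mem_sup_of_map_mem_semilinear (hψ n) (hsmul n) (hπ n) hn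
        rw [huv]
        refine Submodule.add_mem_sup ?_ hv
        rw [LinearMap.mem_ker, hfk, ← hker]
        exact hu)
    exact ⟨u, hu, hxu⟩
  · rintro ⟨u, hu, rfl⟩
    refine bottomMap_eq hψ hsmul ?_
    have h3 : (fun n => π n (u n)) = fun _ => 0 := by
      funext n
      rw [hker, ← hfk]
      exact hu n
    rw [h3]
    exact isStd_const _

omit [IsNoetherianRing R₀] [Module.Finite R₀ M₀] [Finite (ResidueField R₀)] in
/-- The limit of surjective maps is surjective. -/
theorem surjective_of_isStd [IsNoetherianRing R] [IsAdicComplete (maximalIdeal R) R]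
    [Finite (ResidueField R)] (hψ : ∀ n, Function.Surjective (ψ n)) {Ψ : R →+* R₀}
    (hΨ : ∀ f, IsStd (maximalIdeal R₀) (fun n => ψ n f) (Ψ f)) : Function.Surjective Ψ := by
  intro y
  choose x hx using fun n => hψ n y
  obtain ⟨z, hz⟩ := exists_isStd (I := maximalIdeal R) (M := R) (finite_quotient_pow R) x
  refine ⟨z, ?_⟩
  refine (hΨ z).unique (I := maximalIdeal R₀) ?_
  rw [isStd_iff_ring] at hz ⊢
  intro k
  filter_upwards [hz k] with n hn
  have h1 : IsLocalHom (ψ n) := IsLocalHom.of_surjective (ψ n) (hψ n)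
  have h2 : (maximalIdeal R ^ k).map (ψ n) ≤ maximalIdeal R₀ ^ k := by
    rw [Ideal.map_pow]
    exact Ideal.pow_right_mono (((IsLocalRing.local_hom_TFAE (ψ n)).out 0 2).1 h1) k
  have h3 := h2 (Ideal.mem_map_of_mem _ hn)
  rw [map_sub, hx] at h3
  rw [← neg_sub]
  exact (Ideal.neg_mem_iff _).2 h3

end Bottom

end Fermat.Agent.Patch
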