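/-
Support and dimension arguments for modules which are free over a "ring of diamond operators" `S`
mapping to the ring `R` acting.
-/
import Mathlib

set_option autoImplicit false
set_option linter.style.haveILetI false

namespace Fermat.Agent.Patch

open IsLocalRing

section Dim

theorem ringKrullDim_quotient_succ_le {R : Type*} [CommRing R] {I P₀ P : Ideal R} [P₀.IsPrime]
    (hI : I ≤ P₀) (hP : P₀ < P) : ringKrullDim (R ⧸ P) + 1 ≤ ringKrullDim (R ⧸ I) := by
  obtain ⟨r, hr, hr0⟩ := SetLike.exists_of_lt hP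
  have h1 : ringKrullDim (R ⧸ P) + 1 ≤ ringKrullDim (R ⧸ P₀) := by
    refine ringKrullDim_succ_le_of_surjective (Ideal.Quotient.factor hP.le)
      (Ideal.Quotient.factor_surjective hP.le) (r := Ideal.Quotient.mk P₀ r) ?_ ?_
    · rw [mem_nonZeroDivisors_iff_ne_zero, Ne, Ideal.Quotient.eq_zero_iff_mem]
      exact hr0
    · rw [Ideal.Quotient.factor_mk, Ideal.Quotient.eq_zero_iff_mem]
      exact hr
  exact h1.trans (ringKrullDim_le_of_surjective (Ideal.Quotient.factor hI)
    (Ideal.Quotient.factor_surjective hI))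

/-- An injective integral extension has at least the dimension of the base. -/
theorem ringKrullDim_le_of_isIntegral {S T : Type*} [CommRing S] [CommRing T] [Algebra S T]
    [Algebra.IsIntegral S T] (hinj : Function.Injective (algebraMap S T)) :
    ringKrullDim S ≤ ringKrullDim T := by
  rw [ringKrullDim, ringKrullDim, Order.krullDim, Order.krullDim]
  refine iSup_le fun l => ?_
  obtain ⟨Q, hQ, hQl⟩ := Ideal.exists_ideal_over_prime_of_isIntegral (S := T)
    (RelSeries.head l).asIdeal ⊥ (by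
      have : Ideal.comap (algebraMap S T) ⊥ = ⊥ := by
        rw [← RingHom.ker_eq_comap_bot, (RingHom.injective_iff_ker_eq_bot _).1 hinj]
      rw [this]
      exact bot_le)
  have hQ' : Q.IsPrime := hQl.1
  have : Q.LiesOver (RelSeries.head l).asIdeal := ⟨hQl.2.symm⟩
  obtain ⟨L, hL, -⟩ := Ideal.exists_ltSeries_of_hasGoingUp l Q
  rw [← hL]
  exact le_iSup (fun p : LTSeries (PrimeSpectrum T) => ((p.length : ℕ∞) : WithBot ℕ∞)) L

end Dim

section FreeVia

variable {S R : Type*} [CommRing S] [CommRing R] {M : Type*} [AddCommGroup M] [Module R M] {d : ℕ}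

/-- `b` is a basis of `M` over `S`, where `S` acts through `Φ : S → R`. -/
structure IsFreeVia (Φ : S →+* R) (b : Fin d → M) : Prop where
  span : ∀ x : M, ∃ c : Fin d → S, x = ∑ i, Φ (c i) • b i
  indep : ∀ c : Fin d → S, ∑ i, Φ (c i) • b i = 0 → c = 0

variable {Φ : S →+* R} {b : Fin d → M}

theorem IsFreeVia.finite (h : IsFreeVia Φ b) : Module.Finite R M := by
  classical
  refine ⟨⟨Finset.univ.image b, ?_⟩⟩
  rw [eq_top_iff]
  intro x _
  obtain ⟨c, rfl⟩ := h.span x
  refine Submodule.sum_mem _ fun i _ => Submodule.smul_mem _ _ (Submodule.subset_span ?_)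
  simp

theorem IsFreeVia.eq_zero_of_smul [IsDomain S] (h : IsFreeVia Φ b) {s : S} (hs : s ≠ 0) {x : M}
    (hx : Φ s • x = 0) : x = 0 := by
  obtain ⟨c, rfl⟩ := h.span x
  rw [Finset.smul_sum] at hx
  have h1 : (fun i => s * c i) = 0 := h.indep _ (by
    simpa [mul_smul] using hx)
  have h2 : c = 0 := by
    funext i
    have := congrFun h1 i
    simpa [hs] using this
  simp [h2]

theorem IsFreeVia.nontrivial [Nontrivial S] (h : IsFreeVia Φ b) (hd : 0 < d) : Nontrivial M := by
  refine ⟨b ⟨0, hd⟩, 0, fun h0 => ?_⟩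
  have h1 := h.indep (Pi.single ⟨0, hd⟩ 1) (by
    rw [Finset.sum_eq_single (⟨0, hd⟩ : Fin d)]
    · simp [h0]
    · intro j _ hj
      simp [hj]
    · simp)
  have := congrFun h1 ⟨0, hd⟩
  simp at this

variable [IsDomain S] [IsNoetherianRing S] [IsNoetherianRing R]

omit [IsNoetherianRing S] in
theorem IsFreeVia.comap_eq_bot (h : IsFreeVia Φ b) {P : Ideal R} (hP : IsAssociatedPrime P M) :
    P.comap Φ = ⊥ := by
  rw [isAssociatedPrime_iff] at hP
  obtain ⟨hP, x, hx⟩ := hP
  rw [eq_bot_iff]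
  intro s hs
  rw [Ideal.mem_comap, hx, Submodule.mem_colon_singleton, Submodule.mem_bot] at hs
  by_contra hs0
  have hx0 := h.eq_zero_of_smul hs0 hs
  refine hP.ne_top ?_
  rw [hx, hx0, Ideal.eq_top_iff_one, Submodule.mem_colon_singleton]
  simp

theorem IsFreeVia.isIntegral (h : IsFreeVia Φ b) {P : Ideal R} (hP : IsAssociatedPrime P M) :
    letI := ((Ideal.Quotient.mk P).comp Φ).toAlgebra
    Module.Finite S (R ⧸ P) := by
  classical
  letI alg := ((Ideal.Quotient.mk P).comp Φ).toAlgebra
  letI modM : Module S M := Module.compHom M Φ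
  have hsm : ∀ (s : S) (x : M), s • x = Φ s • x := fun _ _ => rfl
  have hfin : Module.Finite S M := by
    refine ⟨⟨Finset.univ.image b, ?_⟩⟩
    rw [eq_top_iff]
    intro x _
    obtain ⟨c, rfl⟩ := h.span x
    refine Submodule.sum_mem _ fun i _ => ?_
    rw [← hsm]
    exact Submodule.smul_mem _ _ (Submodule.subset_span (by simp))
  obtain ⟨-, f, hf⟩ := (isAssociatedPrime_iff_exists_injective_linearMap (I := P) (M := M)).1 hP
  let g : (R ⧸ P) →ₗ[S] M :=
    { toFun := f
      map_add' := map_add f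
      map_smul' := by
        intro s x
        obtain ⟨x, rfl⟩ := Ideal.Quotient.mk_surjective x
        change f (Ideal.Quotient.mk P (Φ s) * Ideal.Quotient.mk P x) = Φ s • f (Ideal.Quotient.mk P x)
        rw [← map_smul]
        rfl }
  exact Module.Finite.of_injective g hf

theorem IsFreeVia.ringKrullDim_le (h : IsFreeVia Φ b) {P : Ideal R} (hP : IsAssociatedPrime P M) :
    ringKrullDim S ≤ ringKrullDim (R ⧸ P) := by
  letI := ((Ideal.Quotient.mk P).comp Φ).toAlgebra
  have h1 : Module.Finite S (R ⧸ P) := h.isIntegral hP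
  refine ringKrullDim_le_of_isIntegral (S := S) (T := R ⧸ P) ?_
  rw [RingHom.injective_iff_ker_eq_bot, ← h.comap_eq_bot hP]
  change RingHom.ker ((Ideal.Quotient.mk P).comp Φ) = _
  rw [← RingHom.comap_ker, Ideal.mk_ker]

/-- Lying over for associated primes of `M`. -/
theorem IsFreeVia.exists_comap_eq (h : IsFreeVia Φ b) {P : Ideal R} (hP : IsAssociatedPrime P M)
    (𝔞 : Ideal S) [𝔞.IsPrime] :
    ∃ 𝔮 : Ideal R, 𝔮.IsPrime ∧ P ≤ 𝔮 ∧ 𝔮.comap Φ = 𝔞 := by
  letI := ((Ideal.Quotient.mk P).comp Φ).toAlgebra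
  have h1 : Module.Finite S (R ⧸ P) := h.isIntegral hP
  obtain ⟨Q, -, hQ, hQc⟩ := Ideal.exists_ideal_over_prime_of_isIntegral (S := R ⧸ P) 𝔞 ⊥ (by
    have : Ideal.comap (algebraMap S (R ⧸ P)) ⊥ = ⊥ := by
      rw [← h.comap_eq_bot hP, ← RingHom.ker_eq_comap_bot]
      change RingHom.ker ((Ideal.Quotient.mk P).comp Φ) = _
      rw [← RingHom.comap_ker, Ideal.mk_ker]
    rw [this]
    exact bot_le)
  refine ⟨Q.comap (Ideal.Quotient.mk P), inferInstance, ?_, ?_⟩
  · intro x hx
    rw [Ideal.mem_comap, Ideal.Quotient.eq_zero_iff_mem.2 hx]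
    exact Q.zero_mem
  · rw [Ideal.comap_comap]
    exact hQc

end FreeVia

section Support

variable {R : Type*} [CommRing R] {M : Type*} [AddCommGroup M] [Module R M]

theorem annihilator_le_of_isAssociatedPrime {P : Ideal R} (hP : IsAssociatedPrime P M) :
    Module.annihilator R M ≤ P := by
  rw [← Submodule.annihilator_top]
  exact hP.annihilator_le

/-- every prime in the support of a finite module contains an associated prime -/
theorem exists_isAssociatedPrime_le [IsNoetherianRing R] [Module.Finite R M] {p : Ideal R}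
    [p.IsPrime] (h : Module.annihilator R M ≤ p) : ∃ P, IsAssociatedPrime P M ∧ P ≤ p := by
  obtain ⟨P, hP, hPp⟩ := Ideal.exists_minimalPrimes_le h
  exact ⟨P, Module.associatedPrimes.minimalPrimes_annihilator_subset_associatedPrimes R M hP, hPp⟩

/-- `Supp(M/KM) = Supp M ∩ V(K)`, one inclusion in terms of annihilators. -/
theorem mem_of_smul_mem_smul_top [Module.Finite R M] {𝔮 K : Ideal R} [h𝔮 : 𝔮.IsPrime]
    (h : Module.annihilator R M ≤ 𝔮) (hK : K ≤ 𝔮) {r : R}
    (hr : ∀ x : M, r • x ∈ (K • ⊤ : Submodule R M)) : r ∈ 𝔮 := by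
  have h1 : (⟨𝔮, h𝔮⟩ : PrimeSpectrum R) ∈ Module.support R (M ⧸ (K • ⊤ : Submodule R M)) := by
    rw [Module.support_quotient, Module.support_eq_zeroLocus]
    exact ⟨h, hK⟩
  have h2 := Module.annihilator_le_of_mem_support h1
  refine h2 ?_
  rw [Module.mem_annihilator]
  intro x
  obtain ⟨x, rfl⟩ := Submodule.Quotient.mk_surjective _ x
  rw [← Submodule.Quotient.mk_smul, Submodule.Quotient.mk_eq_zero]
  exact hr x

/-- Transfer of the support between two modules with the same reduction modulo an element. -/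
theorem annihilator_le_of_common_quotient {M' Mb : Type*} [AddCommGroup M'] [Module R M']
    [AddCommGroup Mb] [Module R Mb] [Module.Finite R M'] {lam : R}
    {f : M →ₗ[R] Mb} {g : M' →ₗ[R] Mb} (hf : Function.Surjective f)
    (hkg : ∀ x, g x = 0 → x ∈ (Ideal.span {lam} • ⊤ : Submodule R M'))
    {p : Ideal R} [hp : p.IsPrime] (hlam : lam ∈ p) (h : Module.annihilator R M' ≤ p) :
    Module.annihilator R M ≤ p := by
  intro r hr
  refine mem_of_smul_mem_smul_top h ((Ideal.span_singleton_le_iff_mem p).2 hlam) (r := r) ?_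
  intro x
  refine hkg _ ?_
  rw [map_smul]
  obtain ⟨y, hy⟩ := hf (g x)
  rw [← hy, ← map_smul, Module.mem_annihilator.1 hr, map_zero]

end Support

end Fermat.Agent.Patch
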