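/-
The master support theorem of patching (Taylor's Ihara avoidance, unframed form).
-/
import Fermat.Agent.Patch.Bottom
import Fermat.Agent.Patch.Support

set_option autoImplicit false

namespace Fermat.Agent.Patch

open Filter IsLocalRing

/-- A sequence of `R`-modules `M n`, the `n`-th one being free of rank `d` over `S / J n`, where `S`
acts through local homomorphisms `φ n : S → R`, and `J n → 0`. -/
structure LevelSeq (S R : Type*) [CommRing S] [IsLocalRing S] [CommRing R] [IsLocalRing R]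
    (M : ℕ → Type*) [∀ n, AddCommGroup (M n)] [∀ n, Module R (M n)] (d : ℕ) where
  φ : ℕ → (S →+* R)
  isLocalHom : ∀ n, IsLocalHom (φ n)
  b : ∀ n, Fin d → M n
  J : ℕ → Ideal S
  tendsto : ∀ k, ∀ᶠ n in atTop, J n ≤ maximalIdeal S ^ k
  span : ∀ n, ∀ x : M n, ∃ c : Fin d → S, x = ∑ i, φ n (c i) • b n i
  rel : ∀ n, ∀ c : Fin d → S, ∑ i, φ n (c i) • b n i = 0 → ∀ i, c i ∈ J n

section

variable {S R : Type*} [CommRing S] [IsLocalRing S] [IsNoetherianRing S]
  [IsAdicComplete (maximalIdeal S) S] [Finite (ResidueField S)]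
  [CommRing R] [IsLocalRing R] [IsNoetherianRing R] [IsAdicComplete (maximalIdeal R) R]
  [Finite (ResidueField R)]
  {M : ℕ → Type*} [∀ n, AddCommGroup (M n)] [∀ n, Module R (M n)] {d : ℕ}

omit [IsNoetherianRing S] [IsAdicComplete (maximalIdeal S) S] [Finite (ResidueField S)] in
/-- The limit of the maps `φ n`. -/
noncomputable def LevelSeq.Φ (L : LevelSeq S R M d) : S →+* R :=
  stdRingHom (maximalIdeal R) (finite_quotient_pow R) L.φ

omit [IsNoetherianRing S] [IsAdicComplete (maximalIdeal S) S] [Finite (ResidueField S)] in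
theorem LevelSeq.isStd_Φ (L : LevelSeq S R M d) (s : S) :
    IsStd (maximalIdeal R) (fun n => L.φ n s) (L.Φ s) :=
  stdRingHom_spec _ _ _ _

omit [IsNoetherianRing S] [IsAdicComplete (maximalIdeal S) S] [Finite (ResidueField S)] in
theorem LevelSeq.Φ_eq (L : LevelSeq S R M d) {s : S} {r : R} (h : ∀ n, L.φ n s = r) :
    L.Φ s = r :=
  stdRingHom_eq_const _ _ _ _ _ h

/-- The patched module is free over `S`. -/
theorem LevelSeq.isFreeVia (L : LevelSeq S R M d) :
    IsFreeVia L.Φ (fun i => (mkP R (fun n => L.b n i) : PMod R M)) where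
  span := exists_eq_sum_smul_mkP L.isLocalHom L.isStd_Φ L.span
  indep := fun _ hc => eq_zero_of_sum_smul_mkP_eq_zero L.isStd_Φ L.span
    (fun k => eventually_UU_of_atTop (L.tendsto k)) L.rel hc

end

/-- The data at the bottom level: `M n / (y) = M₀`, where `M₀` is a module over `R₀` and
`ψ n : R → R₀` is surjective. -/
structure BottomSeq {S R : Type*} [CommRing S] [IsLocalRing S] [CommRing R] [IsLocalRing R]
    {M : ℕ → Type*} [∀ n, AddCommGroup (M n)] [∀ n, Module R (M n)] {d : ℕ}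
    (L : LevelSeq S R M d) (R₀ : Type*) [CommRing R₀] (M₀ : Type*) [AddCommGroup M₀] [Module R₀ M₀]
    {ι : Type*} (y : ι → S) where
  ψ : ℕ → (R →+* R₀)
  ψ_surjective : ∀ n, Function.Surjective (ψ n)
  ψ_φ : ∀ n i, ψ n (L.φ n (y i)) = 0
  π : ∀ n, M n →+ M₀
  π_smul : ∀ n (f : R) (x : M n), π n (f • x) = ψ n f • π n x
  π_surjective : ∀ n, Function.Surjective (π n)
  ker_π : ∀ n, ∀ x : M n, π n x = 0 ↔
    x ∈ (Ideal.span (Set.range fun i => L.φ n (y i)) • ⊤ : Submodule R (M n))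

section

variable {S R : Type*} [CommRing S] [IsLocalRing S] [IsNoetherianRing S] [IsDomain S]
  [IsAdicComplete (maximalIdeal S) S] [Finite (ResidueField S)]
  [CommRing R] [IsLocalRing R] [IsNoetherianRing R] [IsAdicComplete (maximalIdeal R) R]
  [Finite (ResidueField R)]

/-- dimension bookkeeping: a prime `P₀` with `I ≤ P₀ ≤ P`, `dim R/I ≤ dim S ≤ dim R/P` equals `P`. -/
theorem eq_of_ringKrullDim_le (S : Type*) [CommRing S] [IsLocalRing S] [IsNoetherianRing S]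
    {R : Type*} [CommRing R] {I P₀ P : Ideal R} (hP₀ : P₀.IsPrime)
    (hIP : I ≤ P₀) (hPP : P₀ ≤ P) (h1 : ringKrullDim (R ⧸ I) ≤ ringKrullDim S)
    (h2 : ringKrullDim S ≤ ringKrullDim (R ⧸ P)) : P = P₀ := by
  have hDtop : ringKrullDim S ≠ ⊤ := ringKrullDim_ne_top
  have hDbot : ringKrullDim S ≠ ⊥ := ringKrullDim_ne_bot
  by_contra hne
  have hlt : P₀ < P := lt_of_le_of_ne hPP (Ne.symm hne)
  have h3 := ringKrullDim_quotient_succ_le hIP hlt
  have h4 : ringKrullDim S + 1 ≤ ringKrullDim S :=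
    (add_le_add_left h2 1).trans (h3.trans h1)
  have h5 : ∃ k : ℕ, ringKrullDim S = k := by
    obtain ⟨k, hk⟩ := WithBot.ne_bot_iff_exists.1 hDbot
    rw [← hk] at hDtop ⊢
    have hk' : k ≠ ⊤ := fun h => hDtop (by rw [h]; rfl)
    obtain ⟨m, rfl⟩ := ENat.ne_top_iff_exists.1 hk'
    exact ⟨m, rfl⟩
  obtain ⟨k, hk⟩ := h5
  rw [hk] at h4
  have : k + 1 ≤ k := by exact_mod_cast h4
  omega

/-- `lam` is not contained in any associated prime of the patched module. -/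
theorem LevelSeq.lam_notMem {M : ℕ → Type*} [∀ n, AddCommGroup (M n)] [∀ n, Module R (M n)]
    {d : ℕ} (L : LevelSeq S R M d) {lam : R} {lamS : S} (hlamS : lamS ≠ 0)
    (hlam : ∀ n, L.φ n lamS = lam) {P : Ideal R} (hP : IsAssociatedPrime P (PMod R M)) :
    lam ∉ P := by
  intro h
  have h1 : lamS ∈ P.comap L.Φ := by
    rw [Ideal.mem_comap, L.Φ_eq hlam]
    exact h
  rw [L.isFreeVia.comap_eq_bot hP] at h1
  exact hlamS h1

/-- The associated primes of the patched module are among the given primes `Pc c`. -/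
theorem LevelSeq.exists_eq_of_isAssociatedPrime {M : ℕ → Type*} [∀ n, AddCommGroup (M n)]
    [∀ n, Module R (M n)] {d : ℕ} (L : LevelSeq S R M d) {lam : R} {lamS : S} (hlamS : lamS ≠ 0)
    (hlam : ∀ n, L.φ n lamS = lam) {I : Ideal R} (hI : ∀ n, I ≤ Module.annihilator R (M n))
    (hdim : ringKrullDim (R ⧸ I) ≤ ringKrullDim S) {C : Type*} {Pc : C → Ideal R}
    (hPc : ∀ c, (Pc c).IsPrime) (hIPc : ∀ c, I ≤ Pc c)
    (hcov : ∀ P : Ideal R, P.IsPrime → I ≤ P → lam ∉ P → ∃ c, Pc c ≤ P)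
    {P : Ideal R} (hP : IsAssociatedPrime P (PMod R M)) : ∃ c, P = Pc c := by
  obtain ⟨c, hc⟩ := hcov P hP.isPrime
    ((le_annihilator_PMod hI).trans (Fermat.Agent.Patch.annihilator_le_of_isAssociatedPrime hP))
    (L.lam_notMem hlamS hlam hP)
  exact ⟨c, eq_of_ringKrullDim_le S (hPc c) (hIPc c) hc hdim (L.isFreeVia.ringKrullDim_le hP)⟩

/-- Base case: if the patched module is nonzero, some `Pc c` is associated to it. -/
theorem LevelSeq.exists_isAssociatedPrime {M : ℕ → Type*} [∀ n, AddCommGroup (M n)]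
    [∀ n, Module R (M n)] {d : ℕ} (L : LevelSeq S R M d) (hd : 0 < d) {lam : R} {lamS : S}
    (hlamS : lamS ≠ 0)
    (hlam : ∀ n, L.φ n lamS = lam) {I : Ideal R} (hI : ∀ n, I ≤ Module.annihilator R (M n))
    (hdim : ringKrullDim (R ⧸ I) ≤ ringKrullDim S) {C : Type*} {Pc : C → Ideal R}
    (hPc : ∀ c, (Pc c).IsPrime) (hIPc : ∀ c, I ≤ Pc c)
    (hcov : ∀ P : Ideal R, P.IsPrime → I ≤ P → lam ∉ P → ∃ c, Pc c ≤ P) :
    ∃ c, IsAssociatedPrime (Pc c) (PMod R M) := by
  have hnt : Nontrivial (PMod R M) := L.isFreeVia.nontrivial hd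
  obtain ⟨P, hP⟩ := associatedPrimes.nonempty R (PMod R M)
  obtain ⟨c, hc⟩ := L.exists_eq_of_isAssociatedPrime hlamS hlam hI hdim hPc hIPc hcov hP
  exact ⟨c, hc ▸ hP⟩

/-- **Support of the patched modules.**  `M¹` and `Mχ` are two sequences of levels with common
reduction modulo `lam`.  `Ichi` kills `Mχ`, `I1` kills `M¹`, both `V(Ichi)` and `V(I1)` have dimension
at most `dim S`.  If (chi) every prime `P ≥ Ichi` with `lam ∉ P` contains one of the primes `Q a`,
(one) every prime `P ≥ I1` with `lam ∉ P` contains one of the primes `Pc c`, (pt) for the given `c₀`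
there is a prime `q ∋ lam` containing all the `Q a`, and containing no `Pc c` except possibly
`Pc c₀`, then `Pc c₀` is an associated prime of the patched module of `M¹`. -/
theorem isAssociatedPrime_of_patching
    {M1 Mchi Mb : ℕ → Type*} [∀ n, AddCommGroup (M1 n)] [∀ n, Module R (M1 n)]
    [∀ n, AddCommGroup (Mchi n)] [∀ n, Module R (Mchi n)]
    [∀ n, AddCommGroup (Mb n)] [∀ n, Module R (Mb n)]
    {d1 dchi : ℕ} (L1 : LevelSeq S R M1 d1) (Lchi : LevelSeq S R Mchi dchi) (hd : 0 < dchi)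
    {lam : R} {lamS : S} (hlamS : lamS ≠ 0) (hlam1 : ∀ n, L1.φ n lamS = lam)
    (hlamchi : ∀ n, Lchi.φ n lamS = lam)
    (f : ∀ n, M1 n →ₗ[R] Mb n) (hf : ∀ n, Function.Surjective (f n))
    (g : ∀ n, Mchi n →ₗ[R] Mb n) (hg : ∀ n, Function.Surjective (g n))
    (hkg : ∀ n x, g n x = 0 ↔ x ∈ (Ideal.span {lam} • ⊤ : Submodule R (Mchi n)))
    {I1 Ichi : Ideal R} (hI1 : ∀ n, I1 ≤ Module.annihilator R (M1 n))
    (hIchi : ∀ n, Ichi ≤ Module.annihilator R (Mchi n))
    (hdim1 : ringKrullDim (R ⧸ I1) ≤ ringKrullDim S)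
    (hdimchi : ringKrullDim (R ⧸ Ichi) ≤ ringKrullDim S)
    {A C : Type*} {Q : A → Ideal R} (hQ : ∀ a, (Q a).IsPrime) (hIQ : ∀ a, Ichi ≤ Q a)
    (hchi : ∀ P : Ideal R, P.IsPrime → Ichi ≤ P → lam ∉ P → ∃ a, Q a ≤ P)
    {Pc : C → Ideal R} (hPc : ∀ c, (Pc c).IsPrime) (hIPc : ∀ c, I1 ≤ Pc c)
    (hone : ∀ P : Ideal R, P.IsPrime → I1 ≤ P → lam ∉ P → ∃ c, Pc c ≤ P)
    {c₀ : C} {q : Ideal R} (hq : q.IsPrime) (hlamq : lam ∈ q) (hQq : ∀ a, Q a ≤ q)
    (hPq : ∀ c, Pc c ≤ q → c = c₀) :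
    IsAssociatedPrime (Pc c₀) (PMod R M1) := by
  have F1 := L1.isFreeVia
  have Fchi := Lchi.isFreeVia
  have hfin1 : Module.Finite R (PMod R M1) := F1.finite
  have hfinchi : Module.Finite R (PMod R Mchi) := Fchi.finite
  have hnt : Nontrivial (PMod R Mchi) := Fchi.nontrivial hd
  -- the chi side
  obtain ⟨P, hP⟩ := associatedPrimes.nonempty R (PMod R Mchi)
  have hPass : IsAssociatedPrime P (PMod R Mchi) := hP
  obtain ⟨a, hPQ⟩ := Lchi.exists_eq_of_isAssociatedPrime hlamS hlamchi hIchi hdimchi hQ hIQ hchi hPass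
  have hannq : Module.annihilator R (PMod R Mchi) ≤ q :=
    (annihilator_le_of_isAssociatedPrime hPass).trans (hPQ.le.trans (hQq a))
  -- transfer
  have hker : ∀ x, mapP g x = 0 → x ∈ (Ideal.span {lam} • ⊤ : Submodule R (PMod R Mchi)) := by
    intro x hx
    have h1 := (ker_mapP_eq (ι := Unit) (a := fun _ _ => lam) (c := fun _ => lam)
      (fun _ => isStd_const lam) hg (by
        intro n x
        rw [hkg n x]
        simp) x).1 hx
    simpa using h1
  have hann1q : Module.annihilator R (PMod R M1) ≤ q :=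
    annihilator_le_of_common_quotient (mapP_surjective hf) hker hlamq hannq
  obtain ⟨P1, hP1, hP1q⟩ := exists_isAssociatedPrime_le hann1q
  obtain ⟨c, hPc1⟩ := L1.exists_eq_of_isAssociatedPrime hlamS hlam1 hI1 hdim1 hPc hIPc hone hP1
  have hcc : c = c₀ := hPq c (hPc1 ▸ hP1q)
  rw [← hcc, ← hPc1]
  exact hP1

/-! ### Consequences at the bottom level -/

section Bottom

variable {M1 : ℕ → Type*} [∀ n, AddCommGroup (M1 n)] [∀ n, Module R (M1 n)] {d1 : ℕ}
  {L1 : LevelSeq S R M1 d1}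
  {R₀ : Type*} [CommRing R₀] [IsLocalRing R₀] [IsNoetherianRing R₀]
  [IsAdicComplete (maximalIdeal R₀) R₀] [Finite (ResidueField R₀)]
  {M₀ : Type*} [AddCommGroup M₀] [Module R₀ M₀] [Module.Finite R₀ M₀]
  {ι : Type*} [Fintype ι] {y : ι → S}

omit [IsNoetherianRing S] [IsDomain S] [IsAdicComplete (maximalIdeal S) S]
  [Finite (ResidueField S)] [IsNoetherianRing R] [IsAdicComplete (maximalIdeal R) R]
  [Finite (ResidueField R)] [Module.Finite R₀ M₀] [Fintype ι] in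
/-- The limit of the maps `ψ n`. -/
noncomputable def BottomSeq.Ψ (B : BottomSeq L1 R₀ M₀ y) : R →+* R₀ :=
  stdRingHom (maximalIdeal R₀) (finite_quotient_pow R₀) B.ψ

omit [IsNoetherianRing S] [IsDomain S] [IsAdicComplete (maximalIdeal S) S]
  [Finite (ResidueField S)] [IsNoetherianRing R] [IsAdicComplete (maximalIdeal R) R]
  [Finite (ResidueField R)] [Module.Finite R₀ M₀] [Fintype ι] in
theorem BottomSeq.isStd_Ψ (B : BottomSeq L1 R₀ M₀ y) (f : R) :
    IsStd (maximalIdeal R₀) (fun n => B.ψ n f) (B.Ψ f) :=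
  stdRingHom_spec _ _ _ _

omit [IsNoetherianRing S] [IsDomain S] [IsAdicComplete (maximalIdeal S) S]
  [Finite (ResidueField S)] [IsNoetherianRing R] [IsAdicComplete (maximalIdeal R) R]
  [Finite (ResidueField R)] [Module.Finite R₀ M₀] [Fintype ι] in
theorem BottomSeq.Ψ_eq (B : BottomSeq L1 R₀ M₀ y) {f : R} {r : R₀} (h : ∀ n, B.ψ n f = r) :
    B.Ψ f = r :=
  stdRingHom_eq_const _ _ _ _ _ h

omit [IsNoetherianRing S] [IsDomain S] [IsAdicComplete (maximalIdeal S) S]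
  [Finite (ResidueField S)] [Module.Finite R₀ M₀] [Fintype ι] in
theorem BottomSeq.Ψ_surjective (B : BottomSeq L1 R₀ M₀ y) : Function.Surjective B.Ψ :=
  surjective_of_isStd B.ψ_surjective B.isStd_Ψ

omit [IsNoetherianRing S] [IsDomain S] [IsAdicComplete (maximalIdeal S) S]
  [Finite (ResidueField S)] [Module.Finite R₀ M₀] [Fintype ι] in
theorem BottomSeq.Ψ_Φ (B : BottomSeq L1 R₀ M₀ y) (i : ι) : B.Ψ (L1.Φ (y i)) = 0 := by
  refine (B.isStd_Ψ (L1.Φ (y i))).unique ?_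
  have h1 := L1.isStd_Φ (y i)
  rw [isStd_iff_ring] at h1 ⊢
  intro k
  filter_upwards [h1 k] with n hn
  have h1 : IsLocalHom (B.ψ n) := IsLocalHom.of_surjective (B.ψ n) (B.ψ_surjective n)
  have h2 : (maximalIdeal R ^ k).map (B.ψ n) ≤ maximalIdeal R₀ ^ k := by
    rw [Ideal.map_pow]
    exact Ideal.pow_right_mono (((IsLocalRing.local_hom_TFAE (B.ψ n)).out 0 2).1 h1) k
  have h3 := h2 (Ideal.mem_map_of_mem _ hn)
  rw [map_sub, B.ψ_φ, zero_sub] at h3
  rw [sub_zero]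
  exact (Ideal.neg_mem_iff _).1 h3

omit [IsNoetherianRing S] [IsDomain S] [IsAdicComplete (maximalIdeal S) S]
  [Finite (ResidueField S)] in
/-- The patched module modulo `(y)` is `M₀`. -/
theorem BottomSeq.exists_map (B : BottomSeq L1 R₀ M₀ y) :
    ∃ pr : PMod R M1 →+ M₀, Function.Surjective pr ∧ (∀ (f : R) x, pr (f • x) = B.Ψ f • pr x) ∧
      ∀ x, pr x = 0 ↔
        x ∈ (Ideal.span (Set.range fun i => L1.Φ (y i)) • ⊤ : Submodule R (PMod R M1)) :=
  ⟨bottomMap B.ψ_surjective B.π_smul,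
    bottomMap_surjective B.ψ_surjective B.π_smul B.π_surjective,
    bottomMap_smul B.ψ_surjective B.π_smul B.isStd_Ψ,
    bottomMap_eq_zero_iff B.ψ_surjective B.π_smul B.π_surjective (a := fun i n => L1.φ n (y i))
      (fun i => L1.isStd_Φ (y i)) B.ker_π⟩

/-- primes of the support of the patched module containing `(y)` are in the support of `M₀` -/
theorem BottomSeq.mem_of_smul_eq_zero (B : BottomSeq L1 R₀ M₀ y) {𝔮 : Ideal R} (h𝔮 : 𝔮.IsPrime)
    (hann : Module.annihilator R (PMod R M1) ≤ 𝔮) (hy : ∀ i, L1.Φ (y i) ∈ 𝔮) {r : R}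
    (hr : ∀ m : M₀, B.Ψ r • m = 0) : r ∈ 𝔮 := by
  have hfin1 : Module.Finite R (PMod R M1) := L1.isFreeVia.finite
  obtain ⟨pr, -, hsm, hk⟩ := B.exists_map
  refine mem_of_smul_mem_smul_top (K := Ideal.span (Set.range fun i => L1.Φ (y i))) hann ?_
    (r := r) ?_
  · rw [Ideal.span_le]
    rintro _ ⟨i, rfl⟩
    exact hy i
  · intro x
    rw [← hk, hsm, hr]

/-- **(i)** Going up: an associated prime `P` of the patched module is contained in a prime `𝔓`
of characteristic zero (`lam ∉ 𝔓`), which lies in the support of `M₀`. -/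
theorem BottomSeq.exists_prime_of_isAssociatedPrime (B : BottomSeq L1 R₀ M₀ y)
    (hy : (Ideal.span (Set.range y)).IsPrime) {P : Ideal R} (hP : IsAssociatedPrime P (PMod R M1)) :
    ∃ 𝔓 : Ideal R, 𝔓.IsPrime ∧ P ≤ 𝔓 ∧ 𝔓.comap L1.Φ = Ideal.span (Set.range y) ∧
      ∀ r, (∀ m : M₀, B.Ψ r • m = 0) → r ∈ 𝔓 := by
  obtain ⟨𝔓, h𝔓, hP𝔓, hc⟩ := L1.isFreeVia.exists_comap_eq hP (Ideal.span (Set.range y))
  refine ⟨𝔓, h𝔓, hP𝔓, hc, fun r hr => B.mem_of_smul_eq_zero h𝔓
    ((annihilator_le_of_isAssociatedPrime hP).trans hP𝔓) (fun i => ?_) hr⟩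
  rw [← Ideal.mem_comap, hc]
  exact Ideal.subset_span ⟨i, rfl⟩

/-- **(ii)** A prime `𝔭₀` of `R₀` whose preimage in `R` contains an associated prime of the patched
module is in the support of `M₀`. -/
theorem BottomSeq.annihilator_le_of_isAssociatedPrime (B : BottomSeq L1 R₀ M₀ y)
    {P : Ideal R} (hP : IsAssociatedPrime P (PMod R M1)) {𝔭₀ : Ideal R₀} (h𝔭₀ : 𝔭₀.IsPrime)
    (hle : P ≤ 𝔭₀.comap B.Ψ) : Module.annihilator R₀ M₀ ≤ 𝔭₀ := by
  intro r hr
  obtain ⟨r, rfl⟩ := B.Ψ_surjective r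
  have h1 : r ∈ 𝔭₀.comap B.Ψ := B.mem_of_smul_eq_zero (𝔮 := 𝔭₀.comap B.Ψ) inferInstance
    ((Fermat.Agent.Patch.annihilator_le_of_isAssociatedPrime hP).trans hle) (fun i => by
      rw [Ideal.mem_comap, B.Ψ_Φ]
      exact 𝔭₀.zero_mem) (fun m => Module.mem_annihilator.1 hr m)
  exact h1

end Bottom

end

end Fermat.Agent.Patch
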