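/-
"Patched Ihara lemma": passing from the unramified component to the Steinberg component.
-/
import Fermat.Agent.Patch.Main

set_option autoImplicit false
set_option linter.style.haveILetI false

namespace Fermat.Agent.Patch

open IsLocalRing TensorProduct

section Split

/-- A map of finite free modules over a local ring which is injective modulo the maximal ideal is
split injective. -/
theorem exists_leftInverse_of_injective_mod {S N N' : Type*} [CommRing S] [IsLocalRing S]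
    [AddCommGroup N] [Module S N] [AddCommGroup N'] [Module S N'] [Module.Finite S N]
    [Module.Finite S N'] [Module.Free S N'] (l : N →ₗ[S] N')
    (hinj : ∀ x, l x ∈ (maximalIdeal S • ⊤ : Submodule S N') → x ∈ (maximalIdeal S • ⊤ : Submodule S N)) :
    ∃ l' : N' →ₗ[S] N, l' ∘ₗ l = LinearMap.id := by
  rw [IsLocalRing.split_injective_iff_lTensor_residueField_injective]
  rw [injective_iff_map_eq_zero]
  intro t ht
  have hex : ∀ t : (S ⧸ maximalIdeal S) ⊗[S] N, ∃ x : N, t = (1 : S ⧸ maximalIdeal S) ⊗ₜ[S] x := by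
    intro t
    obtain ⟨x, hx⟩ := Submodule.Quotient.mk_surjective _
      (TensorProduct.quotTensorEquivQuotSMul N (maximalIdeal S) t)
    refine ⟨x, ?_⟩
    have h2 := congrArg (TensorProduct.quotTensorEquivQuotSMul N (maximalIdeal S)).symm hx
    rw [LinearEquiv.symm_apply_apply, TensorProduct.quotTensorEquivQuotSMul_symm_mk] at h2
    exact h2.symm
  obtain ⟨x, hx⟩ := hex t
  obtain rfl : t = (1 : ResidueField S) ⊗ₜ[S] x := hx
  rw [LinearMap.lTensor_tmul] at ht
  have h1 : TensorProduct.quotTensorEquivQuotSMul N' (maximalIdeal S)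
      ((1 : S ⧸ maximalIdeal S) ⊗ₜ[S] l x) = 0 := by
    have : ((1 : S ⧸ maximalIdeal S) ⊗ₜ[S] l x : (S ⧸ maximalIdeal S) ⊗[S] N') = 0 := ht
    rw [this, map_zero]
  rw [TensorProduct.quotTensorEquivQuotSMul_mk_one_tmul, Submodule.Quotient.mk_eq_zero] at h1
  have h2 := hinj x h1
  have h3 : TensorProduct.quotTensorEquivQuotSMul N (maximalIdeal S)
      ((1 : S ⧸ maximalIdeal S) ⊗ₜ[S] x) = 0 := by
    rw [TensorProduct.quotTensorEquivQuotSMul_mk_one_tmul, Submodule.Quotient.mk_eq_zero]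
    exact h2
  exact (LinearEquiv.map_eq_zero_iff _).1 h3

variable {S R : Type*} [CommRing S] [CommRing R] {N N' : Type*} [AddCommGroup N] [Module R N]
  [AddCommGroup N'] [Module R N'] {d d' : ℕ} {Φ : S →+* R} {b : Fin d → N} {b' : Fin d' → N'}

theorem IsFreeVia.free (h : IsFreeVia Φ b) :
    letI : Module S N := Module.compHom N Φ
    Module.Free S N ∧ Module.Finite S N := by
  letI : Module S N := Module.compHom N Φ
  have hsm : ∀ (s : S) (x : N), s • x = Φ s • x := fun _ _ => rfl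
  have hli : LinearIndependent S b := by
    rw [Fintype.linearIndependent_iff]
    intro g hg
    exact congrFun (h.indep g (by simpa [hsm] using hg))
  have hsp : ⊤ ≤ Submodule.span S (Set.range b) := by
    intro x _
    obtain ⟨c, rfl⟩ := h.span x
    refine Submodule.sum_mem _ fun i _ => ?_
    rw [← hsm]
    exact Submodule.smul_mem _ _ (Submodule.subset_span ⟨i, rfl⟩)
  exact ⟨Module.Free.of_basis (Module.Basis.mk hli hsp),
    Module.Finite.of_basis (Module.Basis.mk hli hsp)⟩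

theorem smul_top_compHom_iff (K : Ideal S) (x : N) :
    (letI : Module S N := Module.compHom N Φ
    x ∈ (K • ⊤ : Submodule S N)) ↔ x ∈ (K.map Φ • ⊤ : Submodule R N) := by
  letI : Module S N := Module.compHom N Φ
  have hsm : ∀ (s : S) (x : N), s • x = Φ s • x := fun _ _ => rfl
  constructor
  · intro hx
    refine Submodule.smul_induction_on (p := fun x => x ∈ (K.map Φ • ⊤ : Submodule R N)) hx ?_ ?_
    · intro s hs y _
      rw [hsm]
      exact Submodule.smul_mem_smul (Ideal.mem_map_of_mem _ hs) trivial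
    · intro y z hy hz
      exact Submodule.add_mem _ hy hz
  · intro hx
    refine Submodule.smul_induction_on hx ?_ ?_
    · intro r hr y _
      refine Submodule.span_induction (p := fun r _ => ∀ y : N, r • y ∈ (K • ⊤ : Submodule S N))
        ?_ ?_ ?_ ?_ hr y
      · rintro _ ⟨s, hs, rfl⟩ y
        rw [← hsm]
        exact Submodule.smul_mem_smul hs trivial
      · intro y
        rw [zero_smul]
        exact Submodule.zero_mem _
      · intro r r' _ _ h h' y
        rw [add_smul]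
        exact Submodule.add_mem _ (h y) (h' y)
      · intro a r _ h y
        rw [smul_eq_mul, mul_comm, mul_smul]
        exact h (a • y)
    · intro y z hy hz
      exact Submodule.add_mem _ hy hz

/-- The cokernel of a map that is injective modulo `𝔪_S` is torsion free over `S`. -/
theorem mem_range_of_smul_mem_range [IsLocalRing S] [IsDomain S] (hb : IsFreeVia Φ b)
    (hb' : IsFreeVia Φ b') (i : N →ₗ[R] N')
    (hinj : ∀ x, i x ∈ ((maximalIdeal S).map Φ • ⊤ : Submodule R N') →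
      x ∈ ((maximalIdeal S).map Φ • ⊤ : Submodule R N))
    {s : S} (hs : s ≠ 0) {z : N'} (hz : ∃ w, Φ s • z = i w) : ∃ w, z = i w := by
  letI modN : Module S N := Module.compHom N Φ
  letI modN' : Module S N' := Module.compHom N' Φ
  have hsm : ∀ (s : S) (x : N), s • x = Φ s • x := fun _ _ => rfl
  have hsm' : ∀ (s : S) (x : N'), s • x = Φ s • x := fun _ _ => rfl
  obtain ⟨hfr, hfi⟩ := hb.free
  obtain ⟨hfr', hfi'⟩ := hb'.free
  let l : N →ₗ[S] N' :=
    { toFun := i
      map_add' := map_add i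
      map_smul' := fun s x => map_smul i (Φ s) x }
  obtain ⟨l', hl'⟩ := exists_leftInverse_of_injective_mod l (fun x hx => by
    rw [smul_top_compHom_iff (Φ := Φ)] at hx ⊢
    exact hinj x hx)
  obtain ⟨w, hw⟩ := hz
  refine ⟨l' z, ?_⟩
  have h1 : Φ s • (z - i (l' z)) = 0 := by
    rw [smul_sub, hw]
    have h2 : Φ s • i (l' z) = i w := by
      rw [← map_smul, ← hsm, ← map_smul l', hsm', hw]
      congr 1
      exact LinearMap.congr_fun hl' w
    rw [h2, sub_self]
  exact sub_eq_zero.1 (hb'.eq_zero_of_smul hs h1)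

end Split

section Ihara

variable {S R : Type*} [CommRing S] [IsLocalRing S] [IsDomain S] [IsNoetherianRing S]
  [CommRing R] [IsNoetherianRing R] {M M' : Type*} [AddCommGroup M]
  [Module R M] [AddCommGroup M'] [Module R M'] {d d' : ℕ} {Φ : S →+* R} {b : Fin d → M}
  {b' : Fin d' → M'}

omit [IsLocalRing S] in
/-- Incomparability: if `P₂ ≤ P₁` are primes of `R` with `P₂` associated to a module free over `S` and
`P₁ ∩ S = 0`, then `P₁ = P₂`. -/
theorem IsFreeVia.eq_of_le_of_comap_eq_bot (hb : IsFreeVia Φ b) {P₁ P₂ : Ideal R}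
    (hP₂ : IsAssociatedPrime P₂ M) (h : P₂ ≤ P₁) (hc : P₁.comap Φ = ⊥) : P₁ = P₂ := by
  letI := ((Ideal.Quotient.mk P₂).comp Φ).toAlgebra
  have h1 : Module.Finite S (R ⧸ P₂) := hb.isIntegral hP₂
  have h2 : P₂.IsPrime := hP₂.isPrime
  have h3 : (P₁.map (Ideal.Quotient.mk P₂)).comap (algebraMap S (R ⧸ P₂)) = ⊥ := by
    change (P₁.map (Ideal.Quotient.mk P₂)).comap ((Ideal.Quotient.mk P₂).comp Φ) = ⊥
    rw [← Ideal.comap_comap, Ideal.comap_map_of_surjective _ Ideal.Quotient.mk_surjective,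
      ← RingHom.ker_eq_comap_bot, Ideal.mk_ker, sup_eq_left.2 h, hc]
  have h4 := Ideal.eq_bot_of_comap_eq_bot h3
  rw [Ideal.map_eq_bot_iff_le_ker, Ideal.mk_ker] at h4
  exact le_antisymm h4 h

omit [IsDomain S] [IsNoetherianRing S] [IsNoetherianRing R] in
/-- If `i : M → M'` is injective modulo `𝔪_S`, then it is injective; in particular every
associated prime of `M` is an associated prime of `M'`. -/
theorem isAssociatedPrime_of_injective_mod (hb : IsFreeVia Φ b) (hb' : IsFreeVia Φ b')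
    (i : M →ₗ[R] M')
    (hinj : ∀ x, i x ∈ ((maximalIdeal S).map Φ • ⊤ : Submodule R M') →
      x ∈ ((maximalIdeal S).map Φ • ⊤ : Submodule R M))
    {P : Ideal R} (hP : IsAssociatedPrime P M) : IsAssociatedPrime P M' := by
  refine hP.map_of_injective i ?_
  letI modN : Module S M := Module.compHom M Φ
  letI modN' : Module S M' := Module.compHom M' Φ
  obtain ⟨hfr, hfi⟩ := hb.free
  obtain ⟨hfr', hfi'⟩ := hb'.free
  let l : M →ₗ[S] M' :=
    { toFun := i
      map_add' := map_add i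
      map_smul' := fun s x => map_smul i (Φ s) x }
  obtain ⟨l', hl'⟩ := exists_leftInverse_of_injective_mod l (fun x hx => by
    rw [smul_top_compHom_iff (Φ := Φ)] at hx ⊢
    exact hinj x hx)
  intro x y hxy
  have h1 := LinearMap.congr_fun hl' x
  have h2 := LinearMap.congr_fun hl' y
  rw [LinearMap.comp_apply, LinearMap.id_apply] at h1 h2
  rw [← h1, ← h2]
  exact congrArg l' hxy

/-- **Patched Ihara lemma**, abstract form.  `i = (i₁, i₂) : M² → M'` is injective modulo `𝔪_S`,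
`a ∉ 𝔭` kills the cokernel of `j = (j₁, j₂) : M' → M²`, `j ∘ i` is the matrix `u`, and `e` kills the
cokernel of `i`.  If `P` is associated to `M`, `𝔭 ≥ P` contains `det u` and the only associated primes
of `M'` inside `𝔭` are `P` and `P'`, where `e ∉ P`, then `P'` is associated to `M'`. -/
theorem isAssociatedPrime_of_ihara' (hb : IsFreeVia Φ b) (hb' : IsFreeVia Φ b')
    {i1 i2 : M →ₗ[R] M'} {j1 j2 : M' →ₗ[R] M} {u11 u12 u21 u22 e a : R}
    (h11 : ∀ x, j1 (i1 x) = u11 • x) (h12 : ∀ x, j1 (i2 x) = u12 • x)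
    (h21 : ∀ x, j2 (i1 x) = u21 • x) (h22 : ∀ x, j2 (i2 x) = u22 • x)
    (hinj : ∀ x y, i1 x + i2 y ∈ ((maximalIdeal S).map Φ • ⊤ : Submodule R M') →
      x ∈ ((maximalIdeal S).map Φ • ⊤ : Submodule R M) ∧
      y ∈ ((maximalIdeal S).map Φ • ⊤ : Submodule R M))
    (hsurj : ∀ x y, ∃ z, j1 z = a • x ∧ j2 z = a • y)
    (hcok : ∀ z, ∃ x y, e • z = i1 x + i2 y)
    {P P' : Ideal R} (hP : IsAssociatedPrime P M) (heP : e ∉ P)
    {𝔭 : Ideal R} (h𝔭 : 𝔭.IsPrime) (ha𝔭 : a ∉ 𝔭) (hP𝔭 : P ≤ 𝔭) (hd𝔭 : u11 * u22 - u12 * u21 ∈ 𝔭)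
    (huniq : ∀ P₁, IsAssociatedPrime P₁ M' → P₁ ≤ 𝔭 → P₁ = P ∨ P₁ = P') :
    IsAssociatedPrime P' M' := by
  have hfM : Module.Finite R M := hb.finite
  have hfM' : Module.Finite R M' := hb'.finite
  by_contra hcon
  set D := u11 * u22 - u12 * u21 with hD
  -- associated primes of `M'` inside `𝔭` equal `P`
  have hu' : ∀ P₁, IsAssociatedPrime P₁ M' → P₁ ≤ 𝔭 → P₁ = P := by
    intro P₁ h1 h2
    rcases huniq P₁ h1 h2 with h | h
    · exact h
    · exact absurd (h ▸ h1) hcon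
  -- the cokernel of `i`
  let i : (M × M) →ₗ[R] M' := LinearMap.coprod i1 i2
  let C := M' ⧸ LinearMap.range i
  have hi : ∀ x y, i (x, y) = i1 x + i2 y := fun x y => LinearMap.coprod_apply _ _ _
  -- freeness of `M × M`
  have hb2 : ∃ (e2 : ℕ) (b2 : Fin e2 → M × M), IsFreeVia Φ b2 := by
    refine ⟨d + d, Fin.append (fun k => (b k, 0)) (fun k => (0, b k)), ?_, ?_⟩
    · rintro ⟨x, y⟩
      obtain ⟨c, rfl⟩ := hb.span x
      obtain ⟨c', rfl⟩ := hb.span y
      refine ⟨Fin.append c c', ?_⟩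
      rw [Fin.sum_univ_add]
      simp only [Fin.append_left, Fin.append_right, Prod.smul_mk, smul_zero]
      rw [Prod.ext_iff]
      simp [Prod.fst_sum, Prod.snd_sum]
    · intro c hc
      rw [Fin.sum_univ_add] at hc
      simp only [Fin.append_left, Fin.append_right, Prod.smul_mk, smul_zero] at hc
      have h1 := hb.indep (fun k => c (Fin.castAdd d k)) (by
        have := congrArg Prod.fst hc
        simpa [Prod.fst_sum] using this)
      have h2 := hb.indep (fun k => c (Fin.natAdd d k)) (by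
        have := congrArg Prod.snd hc
        simpa [Prod.snd_sum] using this)
      funext k
      refine Fin.addCases (fun k => congrFun h1 k) (fun k => congrFun h2 k) k
  obtain ⟨e2, b2, hb2⟩ := hb2
  have hmemprod : ∀ (J : Ideal R) (x y : M), x ∈ (J • ⊤ : Submodule R M) →
      y ∈ (J • ⊤ : Submodule R M) → (x, y) ∈ (J • ⊤ : Submodule R (M × M)) := by
    intro J x y hx hy
    have h1 := map_mem_pow_smul (LinearMap.inl R M M) J hx
    have h2 := map_mem_pow_smul (LinearMap.inr R M M) J hy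
    have := Submodule.add_mem _ h1 h2
    simpa using this
  have htf : ∀ {s : S}, s ≠ 0 → ∀ z : M', (∃ w, Φ s • z = i w) → ∃ w, z = i w := by
    intro s hs z hz
    refine mem_range_of_smul_mem_range hb2 hb' i ?_ hs hz
    rintro ⟨x, y⟩ hxy
    rw [hi] at hxy
    obtain ⟨h1, h2⟩ := hinj x y hxy
    exact hmemprod _ x y h1 h2
  have hC : ¬ Module.annihilator R C ≤ 𝔭 := by
    intro hle
    have hfC : Module.Finite R C := inferInstance
    obtain ⟨P₁, hP₁, hP₁𝔭⟩ := exists_isAssociatedPrime_le (M := C) hle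
    have hP₁prime := hP₁.isPrime
    -- `P₁ ∩ S = 0`
    have hc : P₁.comap Φ = ⊥ := by
      rw [isAssociatedPrime_iff] at hP₁
      obtain ⟨hP₁, x, hx⟩ := hP₁
      obtain ⟨z, rfl⟩ := Submodule.Quotient.mk_surjective _ x
      rw [eq_bot_iff]
      intro t ht
      by_contra ht0
      rw [Ideal.mem_comap, hx, Submodule.mem_colon_singleton, Submodule.mem_bot,
        ← Submodule.Quotient.mk_smul, Submodule.Quotient.mk_eq_zero] at ht
      obtain ⟨w, hw⟩ := ht
      obtain ⟨w', hw'⟩ := htf ht0 z ⟨w, hw.symm⟩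
      have h0 : (Submodule.Quotient.mk z : C) = 0 := by
        rw [Submodule.Quotient.mk_eq_zero, hw']
        exact ⟨w', rfl⟩
      refine hP₁.ne_top ?_
      rw [hx, Ideal.eq_top_iff_one, Submodule.mem_colon_singleton, Submodule.mem_bot, one_smul]
      exact h0
    have hann : Module.annihilator R M' ≤ P₁ := by
      refine le_trans ?_ (annihilator_le_of_isAssociatedPrime hP₁)
      intro r hr
      rw [Module.mem_annihilator]
      intro x
      obtain ⟨z, rfl⟩ := Submodule.Quotient.mk_surjective _ x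
      rw [← Submodule.Quotient.mk_smul, Module.mem_annihilator.1 hr, Submodule.Quotient.mk_zero]
    obtain ⟨P₂, hP₂, hle2⟩ := exists_isAssociatedPrime_le (M := M') (p := P₁) hann
    have h12 : P₁ = P₂ := hb'.eq_of_le_of_comap_eq_bot hP₂ hle2 hc
    have h3 : P₁ = P := hu' P₁ (h12 ▸ hP₂) hP₁𝔭
    have h4 : e ∈ P₁ := by
      refine annihilator_le_of_isAssociatedPrime hP₁ ?_
      rw [Module.mem_annihilator]
      intro x
      obtain ⟨z, rfl⟩ := Submodule.Quotient.mk_surjective _ x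
      rw [← Submodule.Quotient.mk_smul, Submodule.Quotient.mk_eq_zero]
      obtain ⟨x, y, hw⟩ := hcok z
      rw [hw, ← hi]
      exact ⟨(x, y), rfl⟩
    rw [h3] at h4
    exact heP h4
  obtain ⟨t₀, htC, ht₀𝔭⟩ := SetLike.not_le_iff_exists.1 hC
  have ht₀ : ∀ z : M', ∃ w, t₀ • z = i w := by
    intro z
    have h1 : t₀ • (Submodule.Quotient.mk z : C) = 0 := Module.mem_annihilator.1 htC _
    rw [← Submodule.Quotient.mk_smul, Submodule.Quotient.mk_eq_zero] at h1
    obtain ⟨w, hw⟩ := h1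
    exact ⟨w, hw.symm⟩
  obtain ⟨t, ht, ht𝔭⟩ : ∃ t, t = t₀ * a ∧ t ∉ 𝔭 :=
    ⟨t₀ * a, rfl, fun h => (h𝔭.mem_or_mem h).elim ht₀𝔭 ha𝔭⟩
  -- hence `t • M² ⊆ u M²`
  have hu : ∀ x y : M, ∃ x' y' : M, t • x = u11 • x' + u12 • y' ∧ t • y = u21 • x' + u22 • y' := by
    intro x y
    obtain ⟨z, hz1, hz2⟩ := hsurj x y
    obtain ⟨⟨x', y'⟩, hw⟩ := ht₀ z
    refine ⟨x', y', ?_, ?_⟩
    · rw [ht, mul_smul, ← hz1, ← map_smul, hw, hi, map_add, h11, h12]
    · rw [ht, mul_smul, ← hz2, ← map_smul, hw, hi, map_add, h21, h22]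
  have hannM : Module.annihilator R M ≤ 𝔭 :=
    (annihilator_le_of_isAssociatedPrime hP).trans hP𝔭
  have hDle : Ideal.span {D} ≤ 𝔭 := (Ideal.span_singleton_le_iff_mem 𝔭).2 hd𝔭
  have hDmem : ∀ x : M, D • x ∈ (Ideal.span {D} • ⊤ : Submodule R M) := fun x =>
    Submodule.smul_mem_smul (Ideal.mem_span_singleton_self D) trivial
  -- adjugate
  have e22 : t * u22 ∈ 𝔭 := mem_of_smul_mem_smul_top hannM hDle fun x => by
    obtain ⟨x', y', h1, h2⟩ := hu x 0
    have : (t * u22) • x = D • x' := by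
      rw [mul_comm, mul_smul, h1, hD]
      have h3 : u21 • x' + u22 • y' = 0 := by rw [← h2, smul_zero]
      have h4 : u12 • (u21 • x' + u22 • y') = 0 := by rw [h3, smul_zero]
      calc u22 • (u11 • x' + u12 • y') = (u11 * u22 - u12 * u21) • x' +
            u12 • (u21 • x' + u22 • y') := by module
        _ = _ := by rw [h4, add_zero]
    rw [this]
    exact hDmem x'
  have e21 : t * u21 ∈ 𝔭 := mem_of_smul_mem_smul_top hannM hDle fun x => by
    obtain ⟨x', y', h1, h2⟩ := hu x 0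
    have : (t * u21) • x = D • (-y') := by
      rw [mul_comm, mul_smul, h1, hD]
      have h3 : u21 • x' + u22 • y' = 0 := by rw [← h2, smul_zero]
      have h4 : u11 • (u21 • x' + u22 • y') = 0 := by rw [h3, smul_zero]
      calc u21 • (u11 • x' + u12 • y') = (u11 * u22 - u12 * u21) • (-y') +
            u11 • (u21 • x' + u22 • y') := by module
        _ = _ := by rw [h4, add_zero]
    rw [this]
    exact hDmem _
  have e12 : t * u12 ∈ 𝔭 := mem_of_smul_mem_smul_top hannM hDle fun y => by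
    obtain ⟨x', y', h1, h2⟩ := hu 0 y
    have : (t * u12) • y = D • (-x') := by
      rw [mul_comm, mul_smul, h2, hD]
      have h3 : u11 • x' + u12 • y' = 0 := by rw [← h1, smul_zero]
      have h4 : u22 • (u11 • x' + u12 • y') = 0 := by rw [h3, smul_zero]
      calc u12 • (u21 • x' + u22 • y') = (u11 * u22 - u12 * u21) • (-x') +
            u22 • (u11 • x' + u12 • y') := by module
        _ = _ := by rw [h4, add_zero]
    rw [this]
    exact hDmem _
  have e11 : t * u11 ∈ 𝔭 := mem_of_smul_mem_smul_top hannM hDle fun y => by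
    obtain ⟨x', y', h1, h2⟩ := hu 0 y
    have : (t * u11) • y = D • y' := by
      rw [mul_comm, mul_smul, h2, hD]
      have h3 : u11 • x' + u12 • y' = 0 := by rw [← h1, smul_zero]
      have h4 : u21 • (u11 • x' + u12 • y') = 0 := by rw [h3, smul_zero]
      calc u11 • (u21 • x' + u22 • y') = (u11 * u22 - u12 * u21) • y' +
            u21 • (u11 • x' + u12 • y') := by module
        _ = _ := by rw [h4, add_zero]
    rw [this]
    exact hDmem _
  have m11 := (h𝔭.mem_or_mem e11).resolve_left ht𝔭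
  have m12 := (h𝔭.mem_or_mem e12).resolve_left ht𝔭
  exact ht𝔭 (mem_of_smul_mem_smul_top hannM (le_refl 𝔭) fun x => by
    obtain ⟨x', y', h1, -⟩ := hu x 0
    rw [h1]
    exact Submodule.add_mem _ (Submodule.smul_mem_smul m11 trivial)
      (Submodule.smul_mem_smul m12 trivial))

/-- **Patched Ihara lemma**, abstract form.  `i = (i₁, i₂) : M² → M'` is injective modulo `𝔪_S`,
`j = (j₁, j₂) : M' → M²` is surjective, `j ∘ i` is the matrix `u`, and `e` kills the cokernel of `i`. -/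
theorem isAssociatedPrime_of_ihara (hb : IsFreeVia Φ b) (hb' : IsFreeVia Φ b')
    {i1 i2 : M →ₗ[R] M'} {j1 j2 : M' →ₗ[R] M} {u11 u12 u21 u22 e : R}
    (h11 : ∀ x, j1 (i1 x) = u11 • x) (h12 : ∀ x, j1 (i2 x) = u12 • x)
    (h21 : ∀ x, j2 (i1 x) = u21 • x) (h22 : ∀ x, j2 (i2 x) = u22 • x)
    (hinj : ∀ x y, i1 x + i2 y ∈ ((maximalIdeal S).map Φ • ⊤ : Submodule R M') →
      x ∈ ((maximalIdeal S).map Φ • ⊤ : Submodule R M) ∧
      y ∈ ((maximalIdeal S).map Φ • ⊤ : Submodule R M))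
    (hsurj : ∀ x y, ∃ z, j1 z = x ∧ j2 z = y)
    (hcok : ∀ z, ∃ x y, e • z = i1 x + i2 y)
    {P P' : Ideal R} (hP : IsAssociatedPrime P M) (heP : e ∉ P)
    {𝔭 : Ideal R} (h𝔭 : 𝔭.IsPrime) (hP𝔭 : P ≤ 𝔭) (hd𝔭 : u11 * u22 - u12 * u21 ∈ 𝔭)
    (huniq : ∀ P₁, IsAssociatedPrime P₁ M' → P₁ ≤ 𝔭 → P₁ = P ∨ P₁ = P') :
    IsAssociatedPrime P' M' :=
  isAssociatedPrime_of_ihara' hb hb' (a := 1) h11 h12 h21 h22 hinj
    (fun x y => by simpa only [one_smul] using hsurj x y) hcok hP heP h𝔭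
    (fun h => h𝔭.ne_top ((Ideal.eq_top_iff_one _).2 h)) hP𝔭 hd𝔭 huniq

/-- If `τ` kills `ker j`, then `τ * det u` kills `coker i`. -/
theorem exists_eq_of_ker {R M M' : Type*} [CommRing R] [AddCommGroup M] [Module R M]
    [AddCommGroup M'] [Module R M']
    {i1 i2 : M →ₗ[R] M'} {j1 j2 : M' →ₗ[R] M} {u11 u12 u21 u22 τ : R}
    (h11 : ∀ x, j1 (i1 x) = u11 • x) (h12 : ∀ x, j1 (i2 x) = u12 • x)
    (h21 : ∀ x, j2 (i1 x) = u21 • x) (h22 : ∀ x, j2 (i2 x) = u22 • x)
    (hker : ∀ z, j1 z = 0 → j2 z = 0 → τ • z = 0) (z : M') :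
    ∃ x y, (τ * (u11 * u22 - u12 * u21)) • z = i1 x + i2 y := by
  refine ⟨τ • (u22 • j1 z - u12 • j2 z), τ • (u11 • j2 z - u21 • j1 z), ?_⟩
  set z' := (u11 * u22 - u12 * u21) • z -
    (i1 (u22 • j1 z - u12 • j2 z) + i2 (u11 • j2 z - u21 • j1 z)) with hz'
  have h1 : j1 z' = 0 := by
    rw [hz', map_sub, map_add, h11, h12, map_smul]
    module
  have h2 : j2 z' = 0 := by
    rw [hz', map_sub, map_add, h21, h22, map_smul]
    module
  have h3 := hker z' h1 h2
  rw [hz', smul_sub, sub_eq_zero] at h3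
  rw [mul_smul, h3, map_smul, map_smul, smul_add]

/-- Variant: `τ` kills `ker j`. -/
theorem isAssociatedPrime_of_ihara_ker (hb : IsFreeVia Φ b) (hb' : IsFreeVia Φ b')
    {i1 i2 : M →ₗ[R] M'} {j1 j2 : M' →ₗ[R] M} {u11 u12 u21 u22 τ a : R}
    (h11 : ∀ x, j1 (i1 x) = u11 • x) (h12 : ∀ x, j1 (i2 x) = u12 • x)
    (h21 : ∀ x, j2 (i1 x) = u21 • x) (h22 : ∀ x, j2 (i2 x) = u22 • x)
    (hinj : ∀ x y, i1 x + i2 y ∈ ((maximalIdeal S).map Φ • ⊤ : Submodule R M') →
      x ∈ ((maximalIdeal S).map Φ • ⊤ : Submodule R M) ∧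
      y ∈ ((maximalIdeal S).map Φ • ⊤ : Submodule R M))
    (hsurj : ∀ x y, ∃ z, j1 z = a • x ∧ j2 z = a • y)
    (hker : ∀ z, j1 z = 0 → j2 z = 0 → τ • z = 0)
    {P P' : Ideal R} (hP : IsAssociatedPrime P M) (hτP : τ ∉ P)
    (hdP : u11 * u22 - u12 * u21 ∉ P)
    {𝔭 : Ideal R} (h𝔭 : 𝔭.IsPrime) (ha𝔭 : a ∉ 𝔭) (hP𝔭 : P ≤ 𝔭) (hd𝔭 : u11 * u22 - u12 * u21 ∈ 𝔭)
    (huniq : ∀ P₁, IsAssociatedPrime P₁ M' → P₁ ≤ 𝔭 → P₁ = P ∨ P₁ = P') :
    IsAssociatedPrime P' M' :=
  isAssociatedPrime_of_ihara' hb hb' (a := a) (e := τ * (u11 * u22 - u12 * u21)) h11 h12 h21 h22 hinj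
    hsurj (exists_eq_of_ker h11 h12 h21 h22 hker) hP
    (fun h => (hP.isPrime.mem_or_mem h).elim hτP hdP) h𝔭 ha𝔭 hP𝔭 hd𝔭 huniq

end Ihara

end Fermat.Agent.Patch
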