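/-
The patched Ihara lemma for sequences of levels.
-/
import Fermat.Agent.Patch.Ihara

set_option autoImplicit false

namespace Fermat.Agent.Patch

open Filter IsLocalRing

section

variable {S R : Type*} [CommRing S] [IsLocalRing S] [IsNoetherianRing S]
  [IsAdicComplete (maximalIdeal S) S] [Finite (ResidueField S)]
  [CommRing R] [IsLocalRing R] [IsNoetherianRing R] [IsAdicComplete (maximalIdeal R) R]
  [Finite (ResidueField R)]
  {M : ℕ → Type*} [∀ n, AddCommGroup (M n)] [∀ n, Module R (M n)] {d : ℕ}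

/-- Membership in `𝔪_S • P(M)` can be checked at the finite levels. -/
theorem LevelSeq.mkP_mem_map_smul_top_iff (L : LevelSeq S R M d) (K : Ideal S)
    (hK : IsLocalRing.maximalIdeal S ^ 1 ≤ K) (x : ∀ n, M n) :
    mkP R x ∈ (K.map L.Φ • ⊤ : Submodule R (PMod R M)) ↔
      ∀ᶠ n in (UU : Filter ℕ), x n ∈ (K.map (L.φ n) • ⊤ : Submodule R (M n)) := by
  have hfin : Finite (S ⧸ K) :=
    (IsLocalRing.finite_quotient_iff (I := K)).2 ⟨1, hK⟩
  constructor
  · intro hx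
    rw [mem_map_smul_top_iff L.isFreeVia.span] at hx
    obtain ⟨c, hc, hx⟩ := hx
    rw [sum_smul_mkP L.isStd_Φ, mkP_eq_mkP] at hx
    filter_upwards [hx (Nat.card (Fin d → S ⧸ K))] with n hn
    have h1 := pow_smul_top_le_map (L.span n) K hn
    have h2 : ∑ i, L.φ n (c i) • L.b n i ∈ (K.map (L.φ n) • ⊤ : Submodule R (M n)) :=
      (mem_map_smul_top_iff (L.span n) K _).2 ⟨c, hc, rfl⟩
    simpa using Submodule.add_mem _ h1 h2
  · intro hx
    have h1 : ∀ n, ∃ c : Fin d → S, (x n ∈ (K.map (L.φ n) • ⊤ : Submodule R (M n)) →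
        ∀ i, c i ∈ K) ∧ x n = ∑ i, L.φ n (c i) • L.b n i := by
      intro n
      by_cases h : x n ∈ (K.map (L.φ n) • ⊤ : Submodule R (M n))
      · obtain ⟨c, hc, hxc⟩ := (mem_map_smul_top_iff (L.span n) K _).1 h
        exact ⟨c, fun _ => hc, hxc⟩
      · obtain ⟨c, hxc⟩ := L.span n (x n)
        exact ⟨c, fun h' => absurd h' h, hxc⟩
    choose c hcK hc using h1
    choose e he using fun i => exists_isStd (I := maximalIdeal S) (M := S)
      (finite_quotient_pow S) (fun n => c n i)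
    rw [mem_map_smul_top_iff L.isFreeVia.span]
    refine ⟨e, fun i => ?_, ?_⟩
    · have h2 := isStd_iff_ring.1 (he i) 1
      obtain ⟨n, hn1, hn2⟩ := (h2.and hx).exists
      have h3 := hcK n hn2 i
      have h4 := K.sub_mem h3 (hK hn1)
      simpa using h4
    · rw [sum_smul_mkP L.isStd_Φ, mkP_eq_mkP]
      intro k
      have h1 : ∀ᶠ n in (UU : Filter ℕ), ∀ i, c n i - e i ∈ maximalIdeal S ^ k := by
        rw [Filter.eventually_all]
        intro i
        exact (isStd_iff_ring.1 (he i)) k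
      filter_upwards [h1] with n hn
      rw [hc n, ← Finset.sum_sub_distrib]
      refine Submodule.sum_mem _ fun i _ => ?_
      rw [← sub_smul, ← map_sub]
      refine Submodule.smul_mem_smul ?_ trivial
      have := L.isLocalHom n
      have h2 : (maximalIdeal S ^ k).map (L.φ n) ≤ maximalIdeal R ^ k := by
        rw [Ideal.map_pow]
        exact Ideal.pow_right_mono (((IsLocalRing.local_hom_TFAE (L.φ n)).out 0 2).1 this) k
      exact h2 (Ideal.mem_map_of_mem _ (hn i))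

variable [IsDomain S] {M' : ℕ → Type*} [∀ n, AddCommGroup (M' n)] [∀ n, Module R (M' n)] {d' : ℕ}

/-- **Patched Ihara lemma.**  `M n` = level without `v`, `M' n` = level with `v`, both patched with
the same maps `φ n : S → R`;  `(i₁, i₂) : M n² → M' n` injective modulo `𝔪_S`, `(j₁, j₂)` surjective,
`j ∘ i = (u)`, and `e` kills the cokernel of `i` (the `v`-new quotient).  Then a prime `P'` of the
Steinberg component is associated to the patched `M'`, as soon as there is a prime `𝔭` containing `P`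
and `det u`, such that the only associated primes of the patched `M'` inside `𝔭` are `P` and `P'`. -/
theorem isAssociatedPrime_of_patched_ihara (L : LevelSeq S R M d) (L' : LevelSeq S R M' d')
    (hφ : ∀ n, L'.φ n = L.φ n)
    (i1 i2 : ∀ n, M n →ₗ[R] M' n) (j1 j2 : ∀ n, M' n →ₗ[R] M n) {u11 u12 u21 u22 e : R}
    (h11 : ∀ n x, j1 n (i1 n x) = u11 • x) (h12 : ∀ n x, j1 n (i2 n x) = u12 • x)
    (h21 : ∀ n x, j2 n (i1 n x) = u21 • x) (h22 : ∀ n x, j2 n (i2 n x) = u22 • x)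
    (hinj : ∀ n x y, i1 n x + i2 n y ∈ ((maximalIdeal S).map (L.φ n) • ⊤ : Submodule R (M' n)) →
      x ∈ ((maximalIdeal S).map (L.φ n) • ⊤ : Submodule R (M n)) ∧
      y ∈ ((maximalIdeal S).map (L.φ n) • ⊤ : Submodule R (M n)))
    (hsurj : ∀ n x y, ∃ z, j1 n z = x ∧ j2 n z = y)
    (hcok : ∀ n z, ∃ x y, e • z = i1 n x + i2 n y)
    {P P' : Ideal R} (hP : IsAssociatedPrime P (PMod R M)) (heP : e ∉ P)
    {𝔭 : Ideal R} (h𝔭 : 𝔭.IsPrime) (hP𝔭 : P ≤ 𝔭) (hd𝔭 : u11 * u22 - u12 * u21 ∈ 𝔭)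
    (huniq : ∀ P₁, IsAssociatedPrime P₁ (PMod R M') → P₁ ≤ 𝔭 → P₁ = P ∨ P₁ = P') :
    IsAssociatedPrime P' (PMod R M') := by
  have hΦ : L'.Φ = L.Φ := by
    unfold LevelSeq.Φ
    rw [show L'.φ = L.φ from funext hφ]
  have hb' := L'.isFreeVia
  rw [hΦ] at hb'
  refine isAssociatedPrime_of_ihara L.isFreeVia hb' (i1 := mapP i1) (i2 := mapP i2)
    (j1 := mapP j1) (j2 := mapP j2) (u11 := u11) (u12 := u12) (u21 := u21) (u22 := u22) (e := e)
    ?_ ?_ ?_ ?_ ?_ ?_ ?_ hP heP h𝔭 hP𝔭 hd𝔭 huniq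
  · intro x
    obtain ⟨x, rfl⟩ := mkP_surjective x
    rw [mapP_mkP, mapP_mkP, mkP_smul]
    simp only [h11]
  · intro x
    obtain ⟨x, rfl⟩ := mkP_surjective x
    rw [mapP_mkP, mapP_mkP, mkP_smul]
    simp only [h12]
  · intro x
    obtain ⟨x, rfl⟩ := mkP_surjective x
    rw [mapP_mkP, mapP_mkP, mkP_smul]
    simp only [h21]
  · intro x
    obtain ⟨x, rfl⟩ := mkP_surjective x
    rw [mapP_mkP, mapP_mkP, mkP_smul]
    simp only [h22]
  · intro x y hxy
    obtain ⟨x, rfl⟩ := mkP_surjective x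
    obtain ⟨y, rfl⟩ := mkP_surjective y
    rw [mapP_mkP, mapP_mkP, ← mkP_add', ← hΦ,
      L'.mkP_mem_map_smul_top_iff (maximalIdeal S) (by rw [pow_one])] at hxy
    rw [L.mkP_mem_map_smul_top_iff (maximalIdeal S) (by rw [pow_one]),
      L.mkP_mem_map_smul_top_iff (maximalIdeal S) (by rw [pow_one])]
    constructor
    · filter_upwards [hxy] with n hn
      rw [hφ] at hn
      exact (hinj n _ _ hn).1
    · filter_upwards [hxy] with n hn
      rw [hφ] at hn
      exact (hinj n _ _ hn).2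
  · intro x y
    obtain ⟨x, rfl⟩ := mkP_surjective x
    obtain ⟨y, rfl⟩ := mkP_surjective y
    choose z hz1 hz2 using fun n => hsurj n (x n) (y n)
    exact ⟨mkP R z, by rw [mapP_mkP]; simp only [hz1], by rw [mapP_mkP]; simp only [hz2]⟩
  · intro z
    obtain ⟨z, rfl⟩ := mkP_surjective z
    choose x y hxy using fun n => hcok n (z n)
    refine ⟨mkP R x, mkP R y, ?_⟩
    rw [mapP_mkP, mapP_mkP, ← mkP_add', mkP_smul]
    simp only [hxy]

/-- **Patched Ihara lemma**, general form: the cokernel of `j n` only has to be killed by some `a n`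
which stays away from `𝔭` (e.g. `a n = 1` if `j n` is surjective), and `τ` kills `ker (j n)`. -/
theorem isAssociatedPrime_of_patched_ihara_ker (L : LevelSeq S R M d) (L' : LevelSeq S R M' d')
    (hφ : ∀ n, L'.φ n = L.φ n)
    (i1 i2 : ∀ n, M n →ₗ[R] M' n) (j1 j2 : ∀ n, M' n →ₗ[R] M n) {u11 u12 u21 u22 τ : R}
    (h11 : ∀ n x, j1 n (i1 n x) = u11 • x) (h12 : ∀ n x, j1 n (i2 n x) = u12 • x)
    (h21 : ∀ n x, j2 n (i1 n x) = u21 • x) (h22 : ∀ n x, j2 n (i2 n x) = u22 • x)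
    (hinj : ∀ n x y, i1 n x + i2 n y ∈ ((maximalIdeal S).map (L.φ n) • ⊤ : Submodule R (M' n)) →
      x ∈ ((maximalIdeal S).map (L.φ n) • ⊤ : Submodule R (M n)) ∧
      y ∈ ((maximalIdeal S).map (L.φ n) • ⊤ : Submodule R (M n)))
    {𝔞 : Ideal R} {k : ℕ} (hk : maximalIdeal R ^ k ≤ 𝔞)
    (hsurj : ∀ n, ∃ a ∉ 𝔞, ∀ x y, ∃ z, j1 n z = a • x ∧ j2 n z = a • y)
    (hker : ∀ n z, j1 n z = 0 → j2 n z = 0 → τ • z = 0)
    {P P' : Ideal R} (hP : IsAssociatedPrime P (PMod R M)) (hτP : τ ∉ P)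
    (hdP : u11 * u22 - u12 * u21 ∉ P)
    {𝔭 : Ideal R} (h𝔭 : 𝔭.IsPrime) (h𝔞 : 𝔭 ≤ 𝔞) (hP𝔭 : P ≤ 𝔭)
    (hd𝔭 : u11 * u22 - u12 * u21 ∈ 𝔭)
    (huniq : ∀ P₁, IsAssociatedPrime P₁ (PMod R M') → P₁ ≤ 𝔭 → P₁ = P ∨ P₁ = P') :
    IsAssociatedPrime P' (PMod R M') := by
  have hΦ : L'.Φ = L.Φ := by
    unfold LevelSeq.Φ
    rw [show L'.φ = L.φ from funext hφ]
  have hb' := L'.isFreeVia
  rw [hΦ] at hb'
  choose a ha𝔞 ha using hsurj
  obtain ⟨A, hA⟩ := exists_isStd (I := maximalIdeal R) (M := R) (finite_quotient_pow R) a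
  have hA𝔭 : A ∉ 𝔭 := by
    intro h
    obtain ⟨n, hn⟩ := ((isStd_iff_ring.1 hA) k).exists
    exact ha𝔞 n ((Submodule.sub_mem_iff_left 𝔞 (h𝔞 h)).1 (hk hn))
  refine isAssociatedPrime_of_ihara' L.isFreeVia hb' (i1 := mapP i1) (i2 := mapP i2)
    (j1 := mapP j1) (j2 := mapP j2) (u11 := u11) (u12 := u12) (u21 := u21) (u22 := u22)
    (e := τ * (u11 * u22 - u12 * u21)) (a := A)
    ?_ ?_ ?_ ?_ ?_ ?_ ?_ hP (fun h => (hP.isPrime.mem_or_mem h).elim hτP hdP) h𝔭 hA𝔭 hP𝔭 hd𝔭 huniq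
  · intro x
    obtain ⟨x, rfl⟩ := mkP_surjective x
    rw [mapP_mkP, mapP_mkP, mkP_smul]
    simp only [h11]
  · intro x
    obtain ⟨x, rfl⟩ := mkP_surjective x
    rw [mapP_mkP, mapP_mkP, mkP_smul]
    simp only [h12]
  · intro x
    obtain ⟨x, rfl⟩ := mkP_surjective x
    rw [mapP_mkP, mapP_mkP, mkP_smul]
    simp only [h21]
  · intro x
    obtain ⟨x, rfl⟩ := mkP_surjective x
    rw [mapP_mkP, mapP_mkP, mkP_smul]
    simp only [h22]
  · intro x y hxy
    obtain ⟨x, rfl⟩ := mkP_surjective x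
    obtain ⟨y, rfl⟩ := mkP_surjective y
    rw [mapP_mkP, mapP_mkP, ← mkP_add', ← hΦ,
      L'.mkP_mem_map_smul_top_iff (maximalIdeal S) (by rw [pow_one])] at hxy
    rw [L.mkP_mem_map_smul_top_iff (maximalIdeal S) (by rw [pow_one]),
      L.mkP_mem_map_smul_top_iff (maximalIdeal S) (by rw [pow_one])]
    constructor
    · filter_upwards [hxy] with n hn
      rw [hφ] at hn
      exact (hinj n _ _ hn).1
    · filter_upwards [hxy] with n hn
      rw [hφ] at hn
      exact (hinj n _ _ hn).2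
  · intro x y
    obtain ⟨x, rfl⟩ := mkP_surjective x
    obtain ⟨y, rfl⟩ := mkP_surjective y
    choose z hz1 hz2 using fun n => ha n (x n) (y n)
    refine ⟨mkP R z, ?_, ?_⟩
    · rw [mapP_mkP, ← mkP_smul_seq' hA]
      simp only [hz1]
    · rw [mapP_mkP, ← mkP_smul_seq' hA]
      simp only [hz2]
  · intro z
    obtain ⟨z, rfl⟩ := mkP_surjective z
    choose x y hxy using fun n => exists_eq_of_ker (h11 n) (h12 n) (h21 n) (h22 n) (hker n) (z n)
    refine ⟨mkP R x, mkP R y, ?_⟩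
    rw [mapP_mkP, mapP_mkP, ← mkP_add', mkP_smul]
    simp only [hxy]

omit [IsDomain S] in
/-- The associated primes of the patched `M` are associated primes of the patched `M'`, if there are
maps `i n : M n → M' n` injective modulo `𝔪_S`. -/
theorem isAssociatedPrime_of_patched_injective (L : LevelSeq S R M d) (L' : LevelSeq S R M' d')
    (hφ : ∀ n, L'.φ n = L.φ n) (i : ∀ n, M n →ₗ[R] M' n)
    (hinj : ∀ n x, i n x ∈ ((maximalIdeal S).map (L.φ n) • ⊤ : Submodule R (M' n)) →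
      x ∈ ((maximalIdeal S).map (L.φ n) • ⊤ : Submodule R (M n)))
    {P : Ideal R} (hP : IsAssociatedPrime P (PMod R M)) : IsAssociatedPrime P (PMod R M') := by
  have hΦ : L'.Φ = L.Φ := by
    unfold LevelSeq.Φ
    rw [show L'.φ = L.φ from funext hφ]
  have hb' := L'.isFreeVia
  rw [hΦ] at hb'
  refine isAssociatedPrime_of_injective_mod L.isFreeVia hb' (mapP i) (fun x hx => ?_) hP
  obtain ⟨x, rfl⟩ := mkP_surjective x
  rw [mapP_mkP, ← hΦ, L'.mkP_mem_map_smul_top_iff (maximalIdeal S) (by rw [pow_one])] at hx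
  rw [L.mkP_mem_map_smul_top_iff (maximalIdeal S) (by rw [pow_one])]
  filter_upwards [hx] with n hn
  rw [hφ] at hn
  exact hinj n _ hn

end

section FromBottom

/-! ### Reduction of the hypotheses to the bottom level -/

variable {S R : Type*} [CommRing S] [IsLocalRing S] [CommRing R] [IsLocalRing R]
  {N N' : Type*} [AddCommGroup N] [Module R N] [AddCommGroup N'] [Module R N']
  {R₀ : Type*} [CommRing R₀] {N₀ N₀' : Type*} [AddCommGroup N₀] [Module R₀ N₀] [AddCommGroup N₀']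
  [Module R₀ N₀'] {φ : S →+* R} {ψ : R →+* R₀} {ι : Type*} {y : ι → S}

omit [IsLocalRing R] in
/-- injectivity modulo `𝔪_S` can be checked at the bottom level -/
theorem injective_mod_of_bottom
    {π : N →+ N₀} {π' : N' →+ N₀'} (hψ : Function.Surjective ψ)
    (hπs : ∀ (f : R) x, π (f • x) = ψ f • π x) (hπs' : ∀ (f : R) x, π' (f • x) = ψ f • π' x)
    (hπ : Function.Surjective π) (hyS : ∀ i, y i ∈ maximalIdeal S)
    (hker : ∀ x, π x = 0 ↔ x ∈ (Ideal.span (Set.range fun i => φ (y i)) • ⊤ : Submodule R N))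
    {i1 i2 : N → N'} {I1 I2 : N₀ → N₀'} (hi1 : ∀ x, π' (i1 x) = I1 (π x))
    (hi2 : ∀ x, π' (i2 x) = I2 (π x))
    (hbot : ∀ x y, I1 x + I2 y ∈ (((maximalIdeal S).map φ).map ψ • ⊤ : Submodule R₀ N₀') →
      x ∈ (((maximalIdeal S).map φ).map ψ • ⊤ : Submodule R₀ N₀) ∧
      y ∈ (((maximalIdeal S).map φ).map ψ • ⊤ : Submodule R₀ N₀))
    (x y : N) (hxy : i1 x + i2 y ∈ ((maximalIdeal S).map φ • ⊤ : Submodule R N')) :
    x ∈ ((maximalIdeal S).map φ • ⊤ : Submodule R N) ∧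
      y ∈ ((maximalIdeal S).map φ • ⊤ : Submodule R N) := by
  have h1 : π' (i1 x + i2 y) ∈ (((maximalIdeal S).map φ).map ψ • ⊤ : Submodule R₀ N₀') :=
    map_pow_smul_top_le hπs' le_rfl hxy
  rw [map_add, hi1, hi2] at h1
  have key : ∀ z : N, π z ∈ (((maximalIdeal S).map φ).map ψ • ⊤ : Submodule R₀ N₀) →
      z ∈ ((maximalIdeal S).map φ • ⊤ : Submodule R N) := by
    intro z hz
    obtain ⟨u, v, hu, hv, rfl⟩ := mem_sup_of_map_mem_semilinear hψ hπs hπ hz
    refine Submodule.add_mem _ ?_ hv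
    have h2 := (hker u).1 hu
    refine Submodule.smul_mono_left ?_ h2
    rw [Ideal.span_le]
    rintro _ ⟨i, rfl⟩
    exact Ideal.mem_map_of_mem _ (hyS i)
  obtain ⟨h2, h3⟩ := hbot _ _ h1
  exact ⟨key x h2, key y h3⟩

/-- surjectivity can be checked at the bottom level (Nakayama) -/
theorem surjective_of_bottom [Module.Finite R N] [hφ : IsLocalHom φ]
    {π : N →+ N₀} {π' : N' →+ N₀'} 
    (hπ' : Function.Surjective π') (hyS : ∀ i, y i ∈ maximalIdeal S)
    (hker : ∀ x, π x = 0 ↔ x ∈ (Ideal.span (Set.range fun i => φ (y i)) • ⊤ : Submodule R N))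
    {j1 j2 : N' →ₗ[R] N} {J1 J2 : N₀' → N₀} (hj1 : ∀ x, π (j1 x) = J1 (π' x))
    (hj2 : ∀ x, π (j2 x) = J2 (π' x)) (hbot : ∀ x y, ∃ z, J1 z = x ∧ J2 z = y) (x x' : N) :
    ∃ z, j1 z = x ∧ j2 z = x' := by
  have hle : Ideal.span (Set.range fun i => φ (y i)) ≤ maximalIdeal R := by
    rw [Ideal.span_le]
    rintro _ ⟨i, rfl⟩
    have hmap : (maximalIdeal S).map φ ≤ maximalIdeal R :=
      ((IsLocalRing.local_hom_TFAE φ).out 0 2).1 hφ
    exact hmap (Ideal.mem_map_of_mem _ (hyS i))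
  have h1 : (⊤ : Submodule R (N × N)) ≤ LinearMap.range (LinearMap.prod j1 j2) ⊔
      (maximalIdeal R • ⊤ : Submodule R (N × N)) := by
    rintro ⟨x, y⟩ -
    obtain ⟨z₀, hz1, hz2⟩ := hbot (π x) (π y)
    obtain ⟨z, rfl⟩ := hπ' z₀
    have h2 : x - j1 z ∈ (maximalIdeal R • ⊤ : Submodule R N) :=
      Submodule.smul_mono_left hle ((hker _).1 (by rw [map_sub, hj1, hz1, sub_self]))
    have h3 : y - j2 z ∈ (maximalIdeal R • ⊤ : Submodule R N) :=
      Submodule.smul_mono_left hle ((hker _).1 (by rw [map_sub, hj2, hz2, sub_self]))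
    have h4 : (x, y) = (j1 z, j2 z) + ((x - j1 z, 0) + (0, y - j2 z)) := by
      ext <;> simp
    rw [h4]
    refine Submodule.add_mem_sup ⟨z, rfl⟩ ?_
    have h5 := map_mem_pow_smul (LinearMap.inl R N N) _ h2
    have h6 := map_mem_pow_smul (LinearMap.inr R N N) _ h3
    exact Submodule.add_mem _ h5 h6
  have h2 : LinearMap.range (LinearMap.prod j1 j2) = ⊤ := by
    have h3 := Submodule.le_of_le_smul_of_le_jacobson_bot (I := maximalIdeal R)
      (N := LinearMap.range (LinearMap.prod j1 j2)) (N' := ⊤) Module.Finite.fg_top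
      (IsLocalRing.maximalIdeal_le_jacobson _) h1
    exact top_le_iff.1 h3
  obtain ⟨z, hz⟩ := LinearMap.range_eq_top.1 h2 (x, x')
  exact ⟨z, congrArg Prod.fst hz, congrArg Prod.snd hz⟩

end FromBottom

end Fermat.Agent.Patch
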