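/-
The master support theorem over `Λ = 𝒪[[σ]]`, `S∞ = 𝒪[[y₁, …, y_r]]`.
-/
import Fermat.Agent.Patch.Main
import Fermat.Agent.Patch.PowerSeries

set_option autoImplicit false

namespace Fermat.Agent.Patch

open Filter IsLocalRing Fermat.Agent.S53rep

section Tools

/-- Any `𝒪`-algebra homomorphism from a power series ring over `𝒪` to a local `𝒪`-algebra with the
same residue field is local. -/
theorem isLocalHom_of_mvPowerSeries {𝒪 R : Type*} {σ : Type*} [CommRing 𝒪] [IsLocalRing 𝒪]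
    [CommRing R] [IsLocalRing R] [Algebra 𝒪 R] [IsLocalHom (algebraMap 𝒪 R)]
    (hres : Function.Surjective (residue R ∘ algebraMap 𝒪 R))
    (φ : MvPowerSeries σ 𝒪 →ₐ[𝒪] R) : IsLocalHom (φ : MvPowerSeries σ 𝒪 →+* R) := by
  refine ⟨fun f hf => ?_⟩
  by_contra hnu
  have hfm : f ∈ maximalIdeal (MvPowerSeries σ 𝒪) := hnu
  -- choose `a : 𝒪` with `residue (algebraMap a) = - residue (φ f)⁻¹`
  obtain ⟨u, hu⟩ := hf
  obtain ⟨a, ha⟩ := hres (- residue R ↑u⁻¹)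
  have h1 : IsUnit (1 + MvPowerSeries.C a * f : MvPowerSeries σ 𝒪) := by
    have h2 : MvPowerSeries.C a * f ∈ maximalIdeal (MvPowerSeries σ 𝒪) :=
      Ideal.mul_mem_left _ _ hfm
    by_contra h3
    have h4 : (1 + MvPowerSeries.C a * f : MvPowerSeries σ 𝒪) ∈
        maximalIdeal (MvPowerSeries σ 𝒪) := h3
    have h5 := Ideal.sub_mem _ h4 h2
    rw [add_sub_cancel_right] at h5
    exact (Ideal.ne_top_iff_one _).1 (Ideal.IsPrime.ne_top inferInstance) h5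
  have h2 : IsUnit (φ (1 + MvPowerSeries.C a * f)) := h1.map φ
  have h3 : φ (1 + MvPowerSeries.C a * f) = 1 + algebraMap 𝒪 R a * u := by
    rw [map_add, map_one, map_mul]
    congr 2
    · exact φ.commutes a
    · exact hu.symm
  have h4 : residue R (φ (1 + MvPowerSeries.C a * f)) = 0 := by
    rw [h3, map_add, map_one, map_mul]
    have : residue R (algebraMap 𝒪 R a) = - residue R ↑u⁻¹ := ha
    rw [this, neg_mul, ← map_mul, Units.inv_mul, map_one, add_neg_cancel]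
  exact (residue_ne_zero_iff_isUnit _).2 h2 h4

/-- `(1 + x)^{p^n} - 1 ∈ 𝔪^{n+1}` for `x, p ∈ 𝔪`. -/
theorem one_add_pow_sub_one_mem {S : Type*} [CommRing S] (I : Ideal S) {p : ℕ} (hp : p.Prime)
    (hpI : (p : S) ∈ I) {x : S} (hx : x ∈ I) (n : ℕ) : (1 + x) ^ (p ^ n) - 1 ∈ I ^ (n + 1) := by
  induction n with
  | zero => simpa using hx
  | succ n ih =>
    set y := (1 + x) ^ (p ^ n) - 1 with hy
    have h1 : (1 + x) ^ (p ^ (n + 1)) - 1 = (y + 1) ^ p - 1 := by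
      rw [hy, sub_add_cancel, ← pow_mul, pow_succ]
    rw [h1]
    obtain ⟨z, hz⟩ := exists_add_pow_prime_eq hp y 1
    rw [hz]
    have h2 : y ^ p ∈ I ^ (n + 1 + 1) := by
      have h3 : y ^ 2 ∈ I ^ (n + 1 + 1) := by
        have h4 : y ^ 2 ∈ I ^ ((n + 1) * 2) := by
          rw [pow_mul]
          exact Ideal.pow_mem_pow ih 2
        exact Ideal.pow_le_pow_right (by omega) h4
      obtain ⟨k, hk⟩ := Nat.exists_eq_add_of_le hp.two_le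
      have h5 : y ^ p = y ^ 2 * y ^ k := by rw [hk, pow_add]
      rw [h5]
      exact Ideal.mul_mem_right _ _ h3
    have h3 : (p : S) * y * 1 * z ∈ I ^ (n + 1 + 1) := by
      have h4 : (p : S) * y ∈ I ^ (n + 1 + 1) := by
        rw [pow_succ' I (n + 1)]
        exact Ideal.mul_mem_mul hpI ih
      rw [mul_one]
      exact Ideal.mul_mem_right _ _ h4
    have h4 : y ^ p + 1 ^ p + p * y * 1 * z - 1 = y ^ p + p * y * 1 * z := by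
      rw [one_pow]; ring
    rw [h4]
    exact Ideal.add_mem _ h2 h3

end Tools

section Master

variable {𝒪 : Type*} [CommRing 𝒪] [IsDomain 𝒪] [IsDiscreteValuationRing 𝒪]
  [IsAdicComplete (maximalIdeal 𝒪) 𝒪] [Finite (ResidueField 𝒪)] {r : ℕ} {σ : Type*} [Finite σ]

omit [IsAdicComplete (maximalIdeal 𝒪) 𝒪] [Finite (ResidueField 𝒪)] in
/-- Constructor for `LevelSeq` over power series rings. The level ideal `J n` is any ideal inside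
`((1 + y_i)^{p^n} - 1)`. -/
noncomputable def LevelSeq.ofAlgHom {M : ℕ → Type*} [∀ n, AddCommGroup (M n)]
    [∀ n, Module (MvPowerSeries σ 𝒪) (M n)] {d : ℕ} {p : ℕ} (hp : p.Prime)
    (hp𝒪 : (p : 𝒪) ∈ maximalIdeal 𝒪)
    (φ : ℕ → (MvPowerSeries (Fin r) 𝒪 →ₐ[𝒪] MvPowerSeries σ 𝒪))
    (b : ∀ n, Fin d → M n)
    (span : ∀ n, ∀ x : M n, ∃ c : Fin d → MvPowerSeries (Fin r) 𝒪, x = ∑ i, φ n (c i) • b n i)
    (rel : ∀ n, ∀ c : Fin d → MvPowerSeries (Fin r) 𝒪, ∑ i, φ n (c i) • b n i = 0 →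
      ∀ i, c i ∈ Ideal.span (Set.range fun j : Fin r =>
      ((1 + MvPowerSeries.X j) ^ (p ^ n) - 1 : MvPowerSeries (Fin r) 𝒪))) :
    LevelSeq (MvPowerSeries (Fin r) 𝒪) (MvPowerSeries σ 𝒪) M d where
  φ n := (φ n : MvPowerSeries (Fin r) 𝒪 →+* MvPowerSeries σ 𝒪)
  isLocalHom n := by
    have h1 : IsLocalHom (algebraMap 𝒪 (MvPowerSeries σ 𝒪)) := by
      refine ⟨fun a ha => ?_⟩
      have := ha.map (MvPowerSeries.constantCoeff (σ := σ) (R := 𝒪))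
      rwa [MvPowerSeries.algebraMap_apply, MvPowerSeries.constantCoeff_C] at this
    refine isLocalHom_of_mvPowerSeries (fun x => ?_) (φ n)
    obtain ⟨x, rfl⟩ := residue_surjective x
    refine ⟨MvPowerSeries.constantCoeff x, ?_⟩
    rw [Function.comp_apply, ← sub_eq_zero, ← map_sub, residue_eq_zero_iff,
      mem_maximalIdeal_mvPowerSeries_iff]
    simp [MvPowerSeries.algebraMap_apply]
  b := b
  J n := Ideal.span (Set.range fun j : Fin r =>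
      ((1 + MvPowerSeries.X j) ^ (p ^ n) - 1 : MvPowerSeries (Fin r) 𝒪))
  tendsto k := by
    filter_upwards [eventually_ge_atTop k] with n hn
    rw [Ideal.span_le]
    rintro _ ⟨j, rfl⟩
    refine Ideal.pow_le_pow_right (hn.trans (Nat.le_succ n)) ?_
    refine one_add_pow_sub_one_mem _ hp ?_ ?_ n
    · rw [mem_maximalIdeal_mvPowerSeries_iff]
      simpa using hp𝒪
    · exact X_mem_maximalIdeal j
  span := span
  rel := rel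

variable {M1 Mchi Mb : ℕ → Type*} [∀ n, AddCommGroup (M1 n)]
  [∀ n, Module (MvPowerSeries σ 𝒪) (M1 n)] [∀ n, AddCommGroup (Mchi n)]
  [∀ n, Module (MvPowerSeries σ 𝒪) (Mchi n)]
  [∀ n, AddCommGroup (Mb n)] [∀ n, Module (MvPowerSeries σ 𝒪) (Mb n)]
  {d1 dchi : ℕ}
  {R₀ : Type*} [CommRing R₀] [IsLocalRing R₀] [IsNoetherianRing R₀]
  [IsAdicComplete (maximalIdeal R₀) R₀] [Finite (ResidueField R₀)]
  {M₀ : Type*} [AddCommGroup M₀] [Module R₀ M₀] [Module.Finite R₀ M₀]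

/-- **Master support theorem** (over `Λ = 𝒪[[σ]]`). -/
theorem master
    (L1 : LevelSeq (MvPowerSeries (Fin r) 𝒪) (MvPowerSeries σ 𝒪) M1 d1)
    (Lchi : LevelSeq (MvPowerSeries (Fin r) 𝒪) (MvPowerSeries σ 𝒪) Mchi dchi) (hd : 0 < dchi)
    (hO1 : ∀ n c, L1.φ n (MvPowerSeries.C c) = MvPowerSeries.C c)
    (hOchi : ∀ n c, Lchi.φ n (MvPowerSeries.C c) = MvPowerSeries.C c)
    (B : BottomSeq L1 R₀ M₀ (MvPowerSeries.X : Fin r → MvPowerSeries (Fin r) 𝒪))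
    {ϖ : 𝒪} (hϖ : ϖ ≠ 0)
    (f : ∀ n, M1 n →ₗ[MvPowerSeries σ 𝒪] Mb n) (hf : ∀ n, Function.Surjective (f n))
    (g : ∀ n, Mchi n →ₗ[MvPowerSeries σ 𝒪] Mb n) (hg : ∀ n, Function.Surjective (g n))
    (hkg : ∀ n x, g n x = 0 ↔ x ∈ (Ideal.span {(MvPowerSeries.C ϖ : MvPowerSeries σ 𝒪)} • ⊤ :
      Submodule (MvPowerSeries σ 𝒪) (Mchi n)))
    {I1 Ichi : Ideal (MvPowerSeries σ 𝒪)}
    (hI1 : ∀ n, I1 ≤ Module.annihilator (MvPowerSeries σ 𝒪) (M1 n))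
    (hIchi : ∀ n, Ichi ≤ Module.annihilator (MvPowerSeries σ 𝒪) (Mchi n))
    (hdim1 : ringKrullDim (MvPowerSeries σ 𝒪 ⧸ I1) ≤ (r + 1 : ℕ))
    (hdimchi : ringKrullDim (MvPowerSeries σ 𝒪 ⧸ Ichi) ≤ (r + 1 : ℕ))
    {A C : Type*} {Q : A → Ideal (MvPowerSeries σ 𝒪)} (hQ : ∀ a, (Q a).IsPrime)
    (hIQ : ∀ a, Ichi ≤ Q a)
    (hchi : ∀ P : Ideal (MvPowerSeries σ 𝒪), P.IsPrime → Ichi ≤ P → MvPowerSeries.C ϖ ∉ P →
      ∃ a, Q a ≤ P)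
    {Pc : C → Ideal (MvPowerSeries σ 𝒪)} (hPc : ∀ c, (Pc c).IsPrime) (hIPc : ∀ c, I1 ≤ Pc c)
    (hone : ∀ P : Ideal (MvPowerSeries σ 𝒪), P.IsPrime → I1 ≤ P → MvPowerSeries.C ϖ ∉ P →
      ∃ c, Pc c ≤ P) :
    -- (i) level lowering on the component `c₀`
    (∀ c₀ : C, (∃ q : Ideal (MvPowerSeries σ 𝒪), q.IsPrime ∧ MvPowerSeries.C ϖ ∈ q ∧
        (∀ a, Q a ≤ q) ∧ ∀ c, Pc c ≤ q → c = c₀) →
      ∃ 𝔓 : Ideal (MvPowerSeries σ 𝒪), 𝔓.IsPrime ∧ Pc c₀ ≤ 𝔓 ∧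
        (∀ c : 𝒪, MvPowerSeries.C c ∈ 𝔓 → c = 0) ∧
        ∀ f, (∀ m : M₀, B.Ψ f • m = 0) → f ∈ 𝔓) ∧
    -- (ii) support on the component `c₀`
    (∀ c₀ : C, (∃ q : Ideal (MvPowerSeries σ 𝒪), q.IsPrime ∧ MvPowerSeries.C ϖ ∈ q ∧
        (∀ a, Q a ≤ q) ∧ ∀ c, Pc c ≤ q → c = c₀) →
      ∀ 𝔭₀ : Ideal R₀, 𝔭₀.IsPrime → Pc c₀ ≤ 𝔭₀.comap B.Ψ → Module.annihilator R₀ M₀ ≤ 𝔭₀) ∧
    -- (iii) full support
    ((∀ c₀ : C, ∃ q : Ideal (MvPowerSeries σ 𝒪), q.IsPrime ∧ MvPowerSeries.C ϖ ∈ q ∧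
        (∀ a, Q a ≤ q) ∧ ∀ c, Pc c ≤ q → c = c₀) →
      ∀ 𝔭₀ : Ideal R₀, 𝔭₀.IsPrime → I1 ≤ 𝔭₀.comap B.Ψ → MvPowerSeries.C ϖ ∉ 𝔭₀.comap B.Ψ →
        Module.annihilator R₀ M₀ ≤ 𝔭₀) := by
  have hc1 := isAdicComplete_mvPowerSeries (σ := Fin r) (𝒪 := 𝒪)
  have hc2 := isAdicComplete_mvPowerSeries (σ := σ) (𝒪 := 𝒪)
  have hf1 := finite_residueField_mvPowerSeries (Fin r) 𝒪
  have hf2 := finite_residueField_mvPowerSeries σ 𝒪
  have hdom : IsDomain (MvPowerSeries (Fin r) 𝒪) := NoZeroDivisors.to_isDomain _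
  have hS : ((r + 1 : ℕ) : WithBot ℕ∞) ≤ ringKrullDim (MvPowerSeries (Fin r) 𝒪) :=
    le_ringKrullDim_mvPowerSeries_fin 𝒪 r
  have key : ∀ c₀ : C, (∃ q : Ideal (MvPowerSeries σ 𝒪), q.IsPrime ∧ MvPowerSeries.C ϖ ∈ q ∧
        (∀ a, Q a ≤ q) ∧ ∀ c, Pc c ≤ q → c = c₀) →
      IsAssociatedPrime (Pc c₀) (PMod (MvPowerSeries σ 𝒪) M1) := by
    rintro c₀ ⟨q, hq, hϖq, hQq, hPq⟩
    refine isAssociatedPrime_of_patching L1 Lchi hd (lam := MvPowerSeries.C ϖ)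
      (lamS := MvPowerSeries.C ϖ) ?_ (fun n => hO1 n ϖ) (fun n => hOchi n ϖ) f hf g hg hkg
      hI1 hIchi (hdim1.trans hS) (hdimchi.trans hS) hQ hIQ hchi hPc hIPc hone hq hϖq hQq hPq
    intro h
    apply hϖ
    have := congrArg (MvPowerSeries.constantCoeff (σ := Fin r) (R := 𝒪)) h
    simpa using this
  have h2 : ∀ c₀ : C, (∃ q : Ideal (MvPowerSeries σ 𝒪), q.IsPrime ∧ MvPowerSeries.C ϖ ∈ q ∧
        (∀ a, Q a ≤ q) ∧ ∀ c, Pc c ≤ q → c = c₀) →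
      ∀ 𝔭₀ : Ideal R₀, 𝔭₀.IsPrime → Pc c₀ ≤ 𝔭₀.comap B.Ψ → Module.annihilator R₀ M₀ ≤ 𝔭₀ :=
    fun c₀ hc 𝔭₀ h𝔭₀ hle => B.annihilator_le_of_isAssociatedPrime (key c₀ hc) h𝔭₀ hle
  refine ⟨fun c₀ hc => ?_, h2, fun hall 𝔭₀ h𝔭₀ hI hϖ𝔭 => ?_⟩
  · obtain ⟨𝔓, h𝔓, hle, hcomap, hann⟩ := B.exists_prime_of_isAssociatedPrime
      isPrime_span_range_X (key c₀ hc)
    refine ⟨𝔓, h𝔓, hle, fun c hc => ?_, hann⟩
    have h1 : (MvPowerSeries.C c : MvPowerSeries (Fin r) 𝒪) ∈ 𝔓.comap L1.Φ := by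
      rw [Ideal.mem_comap, L1.Φ_eq (fun n => hO1 n c)]
      exact hc
    rw [hcomap] at h1
    exact C_mem_span_range_X_iff.1 h1
  · obtain ⟨c, hc⟩ := hone (𝔭₀.comap B.Ψ) inferInstance hI hϖ𝔭
    exact h2 c (hall c) 𝔭₀ h𝔭₀ hc

end Master

end Fermat.Agent.Patch
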