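/-
Climbing from the minimal level to the full level with the patched Ihara lemma, over
`Λ = 𝒪[[σ]]`, `S∞ = 𝒪[[y₁, …, y_r]]`.
-/
import Fermat.Agent.Patch.Master
import Fermat.Agent.Patch.IharaPatched

set_option autoImplicit false

namespace Fermat.Agent.Patch

open Filter IsLocalRing Fermat.Agent.S53rep

variable {𝒪 : Type*} [CommRing 𝒪] [IsDomain 𝒪] [IsDiscreteValuationRing 𝒪]
  [IsAdicComplete (maximalIdeal 𝒪) 𝒪] [Finite (ResidueField 𝒪)] {r : ℕ} {σ : Type*} [Finite σ]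
  {M M' : ℕ → Type*} [∀ n, AddCommGroup (M n)] [∀ n, Module (MvPowerSeries σ 𝒪) (M n)]
  [∀ n, AddCommGroup (M' n)] [∀ n, Module (MvPowerSeries σ 𝒪) (M' n)] {d d' : ℕ}

/-- **Base of the climb**: if the patched module is nonzero, one of the `Pc c` is associated to it. -/
theorem climb_base (L : LevelSeq (MvPowerSeries (Fin r) 𝒪) (MvPowerSeries σ 𝒪) M d) (hd : 0 < d)
    (hO : ∀ n c, L.φ n (MvPowerSeries.C c) = MvPowerSeries.C c) {ϖ : 𝒪} (hϖ : ϖ ≠ 0)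
    {I : Ideal (MvPowerSeries σ 𝒪)} (hI : ∀ n, I ≤ Module.annihilator (MvPowerSeries σ 𝒪) (M n))
    (hdim : ringKrullDim (MvPowerSeries σ 𝒪 ⧸ I) ≤ (r + 1 : ℕ))
    {C : Type*} {Pc : C → Ideal (MvPowerSeries σ 𝒪)} (hPc : ∀ c, (Pc c).IsPrime)
    (hIPc : ∀ c, I ≤ Pc c)
    (hcov : ∀ P : Ideal (MvPowerSeries σ 𝒪), P.IsPrime → I ≤ P → MvPowerSeries.C ϖ ∉ P →
      ∃ c, Pc c ≤ P) :
    ∃ c, IsAssociatedPrime (Pc c) (PMod (MvPowerSeries σ 𝒪) M) := by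
  have hc1 := isAdicComplete_mvPowerSeries (σ := Fin r) (𝒪 := 𝒪)
  have hc2 := isAdicComplete_mvPowerSeries (σ := σ) (𝒪 := 𝒪)
  have hf1 := finite_residueField_mvPowerSeries (Fin r) 𝒪
  have hf2 := finite_residueField_mvPowerSeries σ 𝒪
  have hdom : IsDomain (MvPowerSeries (Fin r) 𝒪) := NoZeroDivisors.to_isDomain _
  have hS : ((r + 1 : ℕ) : WithBot ℕ∞) ≤ ringKrullDim (MvPowerSeries (Fin r) 𝒪) :=
    le_ringKrullDim_mvPowerSeries_fin 𝒪 r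
  refine L.exists_isAssociatedPrime hd (lamS := MvPowerSeries.C ϖ) ?_ (fun n => hO n ϖ) hI
    (hdim.trans hS) hPc hIPc hcov
  intro h
  apply hϖ
  simpa using congrArg (MvPowerSeries.constantCoeff (σ := Fin r) (R := 𝒪)) h

/-- **One step of the climb (patched Ihara).** -/
theorem climb_step (L : LevelSeq (MvPowerSeries (Fin r) 𝒪) (MvPowerSeries σ 𝒪) M d)
    (L' : LevelSeq (MvPowerSeries (Fin r) 𝒪) (MvPowerSeries σ 𝒪) M' d')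
    (hφ : ∀ n, L'.φ n = L.φ n)
    (hO : ∀ n c, L.φ n (MvPowerSeries.C c) = MvPowerSeries.C c) {ϖ : 𝒪} (hϖ : ϖ ≠ 0)
    (i1 i2 : ∀ n, M n →ₗ[MvPowerSeries σ 𝒪] M' n) (j1 j2 : ∀ n, M' n →ₗ[MvPowerSeries σ 𝒪] M n)
    {u11 u12 u21 u22 e : MvPowerSeries σ 𝒪}
    (h11 : ∀ n x, j1 n (i1 n x) = u11 • x) (h12 : ∀ n x, j1 n (i2 n x) = u12 • x)
    (h21 : ∀ n x, j2 n (i1 n x) = u21 • x) (h22 : ∀ n x, j2 n (i2 n x) = u22 • x)
    (hinj : ∀ n x y, i1 n x + i2 n y ∈ ((maximalIdeal (MvPowerSeries (Fin r) 𝒪)).map (L.φ n) • ⊤ :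
        Submodule (MvPowerSeries σ 𝒪) (M' n)) →
      x ∈ ((maximalIdeal (MvPowerSeries (Fin r) 𝒪)).map (L.φ n) • ⊤ :
        Submodule (MvPowerSeries σ 𝒪) (M n)) ∧
      y ∈ ((maximalIdeal (MvPowerSeries (Fin r) 𝒪)).map (L.φ n) • ⊤ :
        Submodule (MvPowerSeries σ 𝒪) (M n)))
    (hsurj : ∀ n x y, ∃ z, j1 n z = x ∧ j2 n z = y)
    (hcok : ∀ n z, ∃ x y, e • z = i1 n x + i2 n y)
    {I' : Ideal (MvPowerSeries σ 𝒪)}
    (hI' : ∀ n, I' ≤ Module.annihilator (MvPowerSeries σ 𝒪) (M' n))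
    (hdim' : ringKrullDim (MvPowerSeries σ 𝒪 ⧸ I') ≤ (r + 1 : ℕ))
    {C : Type*} {Pc : C → Ideal (MvPowerSeries σ 𝒪)} (hPc : ∀ c, (Pc c).IsPrime)
    (hIPc : ∀ c, I' ≤ Pc c)
    (hcov : ∀ P : Ideal (MvPowerSeries σ 𝒪), P.IsPrime → I' ≤ P → MvPowerSeries.C ϖ ∉ P →
      ∃ c, Pc c ≤ P)
    {P : Ideal (MvPowerSeries σ 𝒪)} (hP : IsAssociatedPrime P (PMod (MvPowerSeries σ 𝒪) M))
    (heP : e ∉ P) {𝔭 : Ideal (MvPowerSeries σ 𝒪)} (h𝔭 : 𝔭.IsPrime) (hP𝔭 : P ≤ 𝔭)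
    (hd𝔭 : u11 * u22 - u12 * u21 ∈ 𝔭) {c₀ : C}
    (huniq : ∀ c, Pc c ≤ 𝔭 → Pc c = P ∨ c = c₀) :
    IsAssociatedPrime P (PMod (MvPowerSeries σ 𝒪) M') ∧
      IsAssociatedPrime (Pc c₀) (PMod (MvPowerSeries σ 𝒪) M') := by
  have hc1 := isAdicComplete_mvPowerSeries (σ := Fin r) (𝒪 := 𝒪)
  have hc2 := isAdicComplete_mvPowerSeries (σ := σ) (𝒪 := 𝒪)
  have hf1 := finite_residueField_mvPowerSeries (Fin r) 𝒪
  have hf2 := finite_residueField_mvPowerSeries σ 𝒪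
  have hdom : IsDomain (MvPowerSeries (Fin r) 𝒪) := NoZeroDivisors.to_isDomain _
  have hS : ((r + 1 : ℕ) : WithBot ℕ∞) ≤ ringKrullDim (MvPowerSeries (Fin r) 𝒪) :=
    le_ringKrullDim_mvPowerSeries_fin 𝒪 r
  have hne : (MvPowerSeries.C ϖ : MvPowerSeries (Fin r) 𝒪) ≠ 0 := by
    intro h
    apply hϖ
    simpa using congrArg (MvPowerSeries.constantCoeff (σ := Fin r) (R := 𝒪)) h
  refine ⟨isAssociatedPrime_of_patched_injective L L' hφ i1 (fun n x hx => ?_) hP,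
    isAssociatedPrime_of_patched_ihara L L' hφ i1 i2 j1 j2 h11 h12 h21 h22 hinj hsurj hcok hP heP
    h𝔭 hP𝔭 hd𝔭 fun P₁ hP₁ hP₁𝔭 => ?_⟩
  · exact (hinj n x 0 (by rwa [map_zero, add_zero])).1
  · obtain ⟨c, rfl⟩ := L'.exists_eq_of_isAssociatedPrime hne (fun n => by rw [hφ]; exact hO n ϖ)
      hI' (hdim'.trans hS) hPc hIPc hcov hP₁
    rcases huniq c hP₁𝔭 with h | h
    · exact Or.inl h
    · exact Or.inr (by rw [h])

variable {R₀ : Type*} [CommRing R₀] [IsLocalRing R₀] [IsNoetherianRing R₀]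
  [IsAdicComplete (maximalIdeal R₀) R₀] [Finite (ResidueField R₀)]
  {M₀ : Type*} [AddCommGroup M₀] [Module R₀ M₀] [Module.Finite R₀ M₀]

/-- **End of the climb**: if all the components `Pc c` are associated to the patched module, then
every prime of characteristic zero of `R₀` is in the support of `M₀`. -/
theorem climb_end (L : LevelSeq (MvPowerSeries (Fin r) 𝒪) (MvPowerSeries σ 𝒪) M d)
    (B : BottomSeq L R₀ M₀ (MvPowerSeries.X : Fin r → MvPowerSeries (Fin r) 𝒪)) {ϖ : 𝒪}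
    {I : Ideal (MvPowerSeries σ 𝒪)} {C : Type*} {Pc : C → Ideal (MvPowerSeries σ 𝒪)}
    (hcov : ∀ P : Ideal (MvPowerSeries σ 𝒪), P.IsPrime → I ≤ P → MvPowerSeries.C ϖ ∉ P →
      ∃ c, Pc c ≤ P)
    (hass : ∀ c, IsAssociatedPrime (Pc c) (PMod (MvPowerSeries σ 𝒪) M))
    {𝔭₀ : Ideal R₀} (h𝔭₀ : 𝔭₀.IsPrime)
    (hI : haveI := isAdicComplete_mvPowerSeries (σ := σ) (𝒪 := 𝒪)
      haveI := finite_residueField_mvPowerSeries σ 𝒪
      I ≤ 𝔭₀.comap B.Ψ)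
    (hϖ𝔭 : MvPowerSeries.C ϖ ∉ 𝔭₀.comap B.Ψ) : Module.annihilator R₀ M₀ ≤ 𝔭₀ := by
  have hc1 := isAdicComplete_mvPowerSeries (σ := Fin r) (𝒪 := 𝒪)
  have hc2 := isAdicComplete_mvPowerSeries (σ := σ) (𝒪 := 𝒪)
  have hf1 := finite_residueField_mvPowerSeries (Fin r) 𝒪
  have hf2 := finite_residueField_mvPowerSeries σ 𝒪
  have hdom : IsDomain (MvPowerSeries (Fin r) 𝒪) := NoZeroDivisors.to_isDomain _
  obtain ⟨c, hc⟩ := hcov (𝔭₀.comap B.Ψ) inferInstance hI hϖ𝔭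
  exact B.annihilator_le_of_isAssociatedPrime (hass c) h𝔭₀ hc

end Fermat.Agent.Patch
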