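/-
From modules over the group rings `𝒪[Δ_n]` to `LevelSeq`s over `S∞ = 𝒪[[y₁, …, y_r]]`.
-/
import Fermat.Agent.Patch.Master
import Fermat.Agent.RT.GroupRing

set_option autoImplicit false

namespace Fermat.Agent.Patch

open Filter IsLocalRing Fermat.Agent.S53rep Fermat.Agent.RT

section Approx

variable {σ : Type*} [Finite σ] {𝒪 : Type*} [CommRing 𝒪] [IsLocalRing 𝒪]

/-- polynomials are dense in power series -/
theorem exists_polynomial_sub_mem (f : MvPowerSeries σ 𝒪) (k : ℕ) :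
    ∃ P : MvPolynomial σ 𝒪,
      f - (P : MvPowerSeries σ 𝒪) ∈ maximalIdeal (MvPowerSeries σ 𝒪) ^ k := by
  classical
  let n : σ →₀ ℕ := Finsupp.equivFunOnFinite.symm fun _ => k
  refine ⟨MvPowerSeries.trunc' 𝒪 n f, ?_⟩
  have h1 : f - ((MvPowerSeries.trunc' 𝒪 n f : MvPolynomial σ 𝒪) : MvPowerSeries σ 𝒪) ∈
      Ideal.span (Set.range (MvPowerSeries.X : σ → MvPowerSeries σ 𝒪)) ^ k := by
    refine mem_span_X_pow_of_coeff_eq_zero fun α hα => ?_
    have hle : α ≤ n := by
      intro i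
      have h2 : α i ≤ α.degree := Finsupp.le_degree i α
      exact (h2.trans hα.le)
    rw [map_sub, MvPolynomial.coeff_coe, MvPowerSeries.coeff_trunc', if_pos hle, sub_self]
  refine Ideal.pow_right_mono ?_ k h1
  rw [Ideal.span_le]
  rintro _ ⟨i, rfl⟩
  exact X_mem_maximalIdeal i

end Approx

section OneLevel

variable {𝒪 : Type*} [CommRing 𝒪] [IsLocalRing 𝒪] {Δ : Type*} [CommGroup Δ] [Finite Δ] {r : ℕ}
  {g : Fin r → Δ} {R : Type*} [CommRing R] {φ : MvPowerSeries (Fin r) 𝒪 →+* R}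
  {N : Type*} [AddCommGroup N] [Module R N] [Module (MonoidAlgebra 𝒪 Δ) N]

omit [IsLocalRing 𝒪] in
/-- every element of the group ring acts through `S∞` -/
theorem exists_smul_eq_groupRing (hg : Subgroup.closure (Set.range g) = ⊤)
    (hC : ∀ (c : 𝒪) (x : N), φ (MvPowerSeries.C c) • x = algebraMap 𝒪 (MonoidAlgebra 𝒪 Δ) c • x)
    (hX : ∀ i (x : N), φ (MvPowerSeries.X i) • x = (gr 𝒪 Δ (g i) - 1) • x)
    (a : MonoidAlgebra 𝒪 Δ) : ∃ s, ∀ x : N, φ s • x = a • x := by
  induction a using MonoidAlgebra.induction_on with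
  | of δ =>
    have hδ : δ ∈ Subgroup.closure (Set.range g) := hg ▸ trivial
    change ∃ s, ∀ x : N, φ s • x = gr 𝒪 Δ δ • x
    induction hδ using Subgroup.closure_induction with
    | mem x hx =>
      obtain ⟨i, rfl⟩ := hx
      refine ⟨1 + MvPowerSeries.X i, fun x => ?_⟩
      rw [map_add, map_one, add_smul, hX, sub_smul, one_smul, one_smul]
      abel
    | one => exact ⟨1, fun x => by rw [map_one, gr_one, one_smul, one_smul]⟩
    | mul x y _ _ hx hy =>
      obtain ⟨s, hs⟩ := hx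
      obtain ⟨t, ht⟩ := hy
      exact ⟨s * t, fun x => by rw [map_mul, mul_smul, ht, hs, gr_mul, mul_smul]⟩
    | inv x _ hx =>
      obtain ⟨s, hs⟩ := hx
      refine ⟨s ^ (orderOf x - 1), fun y => ?_⟩
      have h1 : x⁻¹ = x ^ (orderOf x - 1) := by
        rw [eq_comm, ← mul_eq_one_iff_eq_inv, ← pow_succ, Nat.sub_add_cancel (orderOf_pos x),
          pow_orderOf_eq_one]
      rw [h1, gr_pow, map_pow]
      generalize orderOf x - 1 = m
      induction m generalizing y with
      | zero => simp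
      | succ m ih => rw [pow_succ, pow_succ, mul_smul, mul_smul, hs, ih]
  | add a b ha hb =>
    obtain ⟨s, hs⟩ := ha
    obtain ⟨t, ht⟩ := hb
    exact ⟨s + t, fun x => by rw [map_add, add_smul, add_smul, hs, ht]⟩
  | smul c a ha =>
    obtain ⟨s, hs⟩ := ha
    exact ⟨MvPowerSeries.C c * s, fun x => by
      rw [map_mul, mul_smul, hC, hs, Algebra.smul_def, mul_smul]⟩

omit [IsLocalRing 𝒪] in
theorem smul_comm_groupRing (hg : Subgroup.closure (Set.range g) = ⊤)
    (hC : ∀ (c : 𝒪) (x : N), φ (MvPowerSeries.C c) • x = algebraMap 𝒪 (MonoidAlgebra 𝒪 Δ) c • x)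
    (hX : ∀ i (x : N), φ (MvPowerSeries.X i) • x = (gr 𝒪 Δ (g i) - 1) • x)
    (a : MonoidAlgebra 𝒪 Δ) (f : R) (x : N) : f • a • x = a • f • x := by
  obtain ⟨s, hs⟩ := exists_smul_eq_groupRing hg hC hX a
  rw [← hs, ← hs, smul_comm]

omit [IsLocalRing 𝒪] [Finite Δ] in
theorem polynomial_smul_eq_aeval
    (hC : ∀ (c : 𝒪) (x : N), φ (MvPowerSeries.C c) • x = algebraMap 𝒪 (MonoidAlgebra 𝒪 Δ) c • x)
    (hX : ∀ i (x : N), φ (MvPowerSeries.X i) • x = (gr 𝒪 Δ (g i) - 1) • x)
    (P : MvPolynomial (Fin r) 𝒪) (x : N) :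
    φ (P : MvPowerSeries (Fin r) 𝒪) • x =
      MvPolynomial.aeval (fun i => gr 𝒪 Δ (g i) - 1) P • x := by
  induction P using MvPolynomial.induction_on generalizing x with
  | C c =>
    rw [MvPolynomial.coe_C, hC, MvPolynomial.aeval_C]
  | add P Q hP hQ =>
    rw [MvPolynomial.coe_add, map_add, add_smul, hP, hQ, map_add, add_smul]
  | mul_X P i hP =>
    rw [MvPolynomial.coe_mul, map_mul, MvPolynomial.coe_X, mul_smul, hX, hP, map_mul,
      MvPolynomial.aeval_X, mul_smul]

/-- `𝔪_S^k` acts inside `𝔐^k`. -/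
theorem smul_mem_pow_groupRing (hg : Subgroup.closure (Set.range g) = ⊤)
    (hC : ∀ (c : 𝒪) (x : N), φ (MvPowerSeries.C c) • x = algebraMap 𝒪 (MonoidAlgebra 𝒪 Δ) c • x)
    (hX : ∀ i (x : N), φ (MvPowerSeries.X i) • x = (gr 𝒪 Δ (g i) - 1) • x) (k : ℕ)
    {s : MvPowerSeries (Fin r) 𝒪} (hs : s ∈ maximalIdeal (MvPowerSeries (Fin r) 𝒪) ^ k) (x : N) :
    φ s • x ∈ (RingHom.ker (resAug 𝒪 Δ) ^ k • ⊤ : Submodule (MonoidAlgebra 𝒪 Δ) N) := by
  have hmem : ∀ i, gr 𝒪 Δ (g i) - 1 ∈ RingHom.ker (resAug 𝒪 Δ) := fun i => by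
    rw [mem_ker_resAug, map_sub, aug_gr, map_one, sub_self]
    exact Ideal.zero_mem _
  have h1 : ∀ a ∈ maximalIdeal (MvPowerSeries (Fin r) 𝒪), ∀ x : N,
      φ a • x ∈ (RingHom.ker (resAug 𝒪 Δ) • ⊤ : Submodule (MonoidAlgebra 𝒪 Δ) N) := by
    intro a ha x
    have ha' : a - MvPowerSeries.C (MvPowerSeries.constantCoeff a) ∈
        Ideal.span (Set.range (MvPowerSeries.X : Fin r → MvPowerSeries (Fin r) 𝒪)) := by
      rw [span_range_X_eq_ker, RingHom.mem_ker, map_sub, MvPowerSeries.constantCoeff_C, sub_self]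
    rw [Ideal.mem_span_range_iff_exists_fun] at ha'
    obtain ⟨t, ht⟩ := ha'
    have h2 : a = MvPowerSeries.C (MvPowerSeries.constantCoeff a) +
        ∑ i, t i * MvPowerSeries.X i := by rw [ht]; ring
    rw [h2, map_add, add_smul, map_sum, Finset.sum_smul, hC]
    refine Submodule.add_mem _ (Submodule.smul_mem_smul ?_ trivial)
      (Submodule.sum_mem _ fun i _ => ?_)
    · rw [mem_ker_resAug, AlgHom.commutes]
      exact (mem_maximalIdeal_mvPowerSeries_iff a).1 ha
    · rw [mul_comm, map_mul, mul_smul, hX]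
      exact Submodule.smul_mem_smul (hmem i) trivial
  induction k generalizing s x with
  | zero =>
    rw [pow_zero, Ideal.one_eq_top, Submodule.top_smul]
    trivial
  | succ k ih =>
    rw [pow_succ'] at hs
    induction hs using Submodule.mul_induction_on' generalizing x with
    | mem_mul_mem a ha b hb =>
      rw [map_mul, mul_smul]
      refine Submodule.smul_induction_on (ih hb x) ?_ ?_
      · intro m hm y _
        rw [smul_comm_groupRing hg hC hX, pow_succ, Submodule.mul_smul]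
        exact Submodule.smul_mem_smul hm (h1 a ha y)
      · intro y z hy hz
        rw [smul_add]
        exact Submodule.add_mem _ hy hz
    | add a _ b _ ha hb =>
      rw [map_add, add_smul]
      exact Submodule.add_mem _ (ha x) (hb x)

/-- Relations between the elements of an `𝒪[Δ]`-basis have coefficients in `𝔪_S^k`, if
`g i ↦ 1 + y_i` defines a homomorphism `𝒪[Δ] → S / 𝔪_S^k`. -/
theorem mem_pow_of_sum_smul_basis_eq_zero (hg : Subgroup.closure (Set.range g) = ⊤)
    (hC : ∀ (c : 𝒪) (x : N), φ (MvPowerSeries.C c) • x = algebraMap 𝒪 (MonoidAlgebra 𝒪 Δ) c • x)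
    (hX : ∀ i (x : N), φ (MvPowerSeries.X i) • x = (gr 𝒪 Δ (g i) - 1) • x) {k : ℕ} {d : ℕ}
    (b : Module.Basis (Fin d) (MonoidAlgebra 𝒪 Δ) N)
    (ρ : MonoidAlgebra 𝒪 Δ →+* MvPowerSeries (Fin r) 𝒪 ⧸ maximalIdeal (MvPowerSeries (Fin r) 𝒪) ^ k)
    (hρC : ∀ c, ρ (algebraMap 𝒪 _ c) = Ideal.Quotient.mk _ (MvPowerSeries.C c))
    (hρg : ∀ i, ρ (gr 𝒪 Δ (g i)) = Ideal.Quotient.mk _ (1 + MvPowerSeries.X i))
    {c : Fin d → MvPowerSeries (Fin r) 𝒪} (hc : ∑ j, φ (c j) • b j = 0) (j : Fin d) :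
    c j ∈ maximalIdeal (MvPowerSeries (Fin r) 𝒪) ^ k := by
  choose P hP using fun j => exists_polynomial_sub_mem (c j) k
  set a : Fin d → MonoidAlgebra 𝒪 Δ := fun j =>
    MvPolynomial.aeval (fun i => gr 𝒪 Δ (g i) - 1) (P j) with ha
  have h1 : ∑ j, a j • b j ∈
      (RingHom.ker (resAug 𝒪 Δ) ^ k • ⊤ : Submodule (MonoidAlgebra 𝒪 Δ) N) := by
    have h2 : ∑ j, a j • b j = -∑ j, φ (c j - (P j : MvPowerSeries (Fin r) 𝒪)) • b j := by
      rw [eq_neg_iff_add_eq_zero, ← Finset.sum_add_distrib, ← hc]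
      refine Finset.sum_congr rfl fun j _ => ?_
      rw [ha, ← polynomial_smul_eq_aeval hC hX, ← add_smul, ← map_add]
      congr 2
      ring
    rw [h2]
    refine Submodule.neg_mem _ (Submodule.sum_mem _ fun j _ => ?_)
    exact smul_mem_pow_groupRing hg hC hX k (hP j) _
  have h3 : a j ∈ RingHom.ker (resAug 𝒪 Δ) ^ k := by
    have h4 : ∀ x ∈ (RingHom.ker (resAug 𝒪 Δ) ^ k • ⊤ : Submodule (MonoidAlgebra 𝒪 Δ) N),
        b.repr x j ∈ RingHom.ker (resAug 𝒪 Δ) ^ k := by
      intro x hx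
      refine Submodule.smul_induction_on hx ?_ ?_
      · intro m hm y _
        rw [map_smul, Finsupp.smul_apply, smul_eq_mul]
        exact Ideal.mul_mem_right _ _ hm
      · intro y z hy hz
        rw [map_add, Finsupp.add_apply]
        exact Ideal.add_mem _ hy hz
    have h5 := h4 _ h1
    rwa [map_sum, Finset.sum_congr rfl (fun i _ => by rw [map_smul, b.repr_self]),
      Finsupp.finsetSum_apply, Finset.sum_eq_single j, Finsupp.smul_apply,
      Finsupp.single_eq_same, smul_eq_mul, mul_one] at h5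
    · intro i _ hij
      rw [Finsupp.smul_apply, Finsupp.single_eq_of_ne (Ne.symm hij), smul_zero]
    · intro h; exact absurd (Finset.mem_univ j) h
  have h6 : ρ (a j) = Ideal.Quotient.mk _ (P j : MvPowerSeries (Fin r) 𝒪) := by
    have h7 : ∀ Q : MvPolynomial (Fin r) 𝒪,
        ρ (MvPolynomial.aeval (fun i => gr 𝒪 Δ (g i) - 1) Q) =
          Ideal.Quotient.mk _ (Q : MvPowerSeries (Fin r) 𝒪) := by
      intro Q
      induction Q using MvPolynomial.induction_on with
      | C c => rw [MvPolynomial.aeval_C, hρC, MvPolynomial.coe_C]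
      | add P Q hP hQ => rw [map_add, map_add, hP, hQ, MvPolynomial.coe_add, map_add]
      | mul_X P i hP =>
        rw [map_mul, map_mul, hP, MvPolynomial.aeval_X, map_sub, hρg, map_one,
          MvPolynomial.coe_mul, map_mul, MvPolynomial.coe_X, map_add, map_one]
        ring
    exact h7 (P j)
  have h8 : (RingHom.ker (resAug 𝒪 Δ) ^ k).map ρ = ⊥ := by
    have h9 : (RingHom.ker (resAug 𝒪 Δ)).map ρ ≤
        (maximalIdeal (MvPowerSeries (Fin r) 𝒪)).map (Ideal.Quotient.mk
          (maximalIdeal (MvPowerSeries (Fin r) 𝒪) ^ k)) := by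
      rw [ker_resAug_eq g hg, Ideal.map_sup, sup_le_iff]
      constructor
      · rw [Ideal.map_map, Ideal.map_le_iff_le_comap]
        intro c hc
        rw [Ideal.mem_comap, RingHom.comp_apply, hρC]
        refine Ideal.mem_map_of_mem _ ?_
        rw [mem_maximalIdeal_mvPowerSeries_iff, MvPowerSeries.constantCoeff_C]
        exact hc
      · rw [Ideal.map_le_iff_le_comap, Ideal.span_le]
        rintro _ ⟨i, rfl⟩
        rw [SetLike.mem_coe, Ideal.mem_comap, map_sub, hρg, map_one, map_add, map_one,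
          add_sub_cancel_left]
        exact Ideal.mem_map_of_mem _ (X_mem_maximalIdeal i)
    rw [eq_bot_iff, Ideal.map_pow]
    refine (Ideal.pow_right_mono h9 k).trans ?_
    rw [← Ideal.map_pow, Ideal.map_quotient_self]
  have h10 : (Ideal.Quotient.mk (maximalIdeal (MvPowerSeries (Fin r) 𝒪) ^ k))
      (P j : MvPowerSeries (Fin r) 𝒪) = 0 := by
    rw [← h6]
    have := Ideal.mem_map_of_mem ρ h3
    rw [h8] at this
    exact this
  rw [Ideal.Quotient.eq_zero_iff_mem] at h10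
  have := Ideal.add_mem _ (hP j) h10
  simpa using this

omit [Finite Δ] in
/-- Existence of the homomorphism `𝒪[Δ] → S / 𝔪_S^k`, `g i ↦ 1 + y_i`. -/
theorem exists_hom_groupRing {p : ℕ} (hp : p.Prime) (hp𝒪 : (p : 𝒪) ∈ maximalIdeal 𝒪) {n k : ℕ}
    (hk : k ≤ n + 1) (hg : Subgroup.closure (Set.range g) = ⊤)
    (hrel : ∀ e : Fin r → ℤ, ∏ i, g i ^ e i = 1 → ∀ i, ((p ^ n : ℕ) : ℤ) ∣ e i) :
    ∃ ρ : MonoidAlgebra 𝒪 Δ →+*
        MvPowerSeries (Fin r) 𝒪 ⧸ maximalIdeal (MvPowerSeries (Fin r) 𝒪) ^ k,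
      (∀ c, ρ (algebraMap 𝒪 _ c) = Ideal.Quotient.mk _ (MvPowerSeries.C c)) ∧
      ∀ i, ρ (gr 𝒪 Δ (g i)) = Ideal.Quotient.mk _ (1 + MvPowerSeries.X i) := by
  set S := MvPowerSeries (Fin r) 𝒪
  set Q := S ⧸ maximalIdeal S ^ k
  have hu : ∀ i, (Ideal.Quotient.mk (maximalIdeal S ^ k) (1 + MvPowerSeries.X i)) ^ (p ^ n) = 1 := by
    intro i
    rw [← map_pow, ← sub_eq_zero, ← map_one (Ideal.Quotient.mk (maximalIdeal S ^ k)), ← map_sub,
      Ideal.Quotient.eq_zero_iff_mem]
    refine Ideal.pow_le_pow_right hk (one_add_pow_sub_one_mem _ hp ?_ (X_mem_maximalIdeal i) n)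
    rw [mem_maximalIdeal_mvPowerSeries_iff]
    simpa using hp𝒪
  let u : Fin r → Qˣ := fun i =>
    Units.ofPowEqOne (Ideal.Quotient.mk (maximalIdeal S ^ k) (1 + MvPowerSeries.X i)) (p ^ n) (hu i)
      (pow_ne_zero _ hp.ne_zero)
  have hun : ∀ i, u i ^ (p ^ n) = 1 := fun i => Units.ext (by
    rw [Units.val_pow_eq_pow_val, Units.val_one]; exact hu i)
  let α : Multiplicative (Fin r → ℤ) →* Δ :=
    { toFun := fun e => ∏ i, g i ^ (Multiplicative.toAdd e i)
      map_one' := by simp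
      map_mul' := fun e f => by
        simp only [toAdd_mul, Pi.add_apply, zpow_add, Finset.prod_mul_distrib] }
  let β : Multiplicative (Fin r → ℤ) →* Qˣ :=
    { toFun := fun e => ∏ i, u i ^ (Multiplicative.toAdd e i)
      map_one' := by simp
      map_mul' := fun e f => by
        simp only [toAdd_mul, Pi.add_apply, zpow_add, Finset.prod_mul_distrib] }
  have hαs : ∀ i, α (Multiplicative.ofAdd (Pi.single i 1)) = g i := by
    intro i
    change ∏ j, g j ^ ((Pi.single i 1 : Fin r → ℤ) j) = g i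
    rw [Finset.prod_eq_single i]
    · simp
    · intro j _ hj
      rw [Pi.single_eq_of_ne hj, zpow_zero]
    · intro h; exact absurd (Finset.mem_univ i) h
  have hβs : ∀ i, β (Multiplicative.ofAdd (Pi.single i 1)) = u i := by
    intro i
    change ∏ j, u j ^ ((Pi.single i 1 : Fin r → ℤ) j) = u i
    rw [Finset.prod_eq_single i]
    · simp
    · intro j _ hj
      rw [Pi.single_eq_of_ne hj, zpow_zero]
    · intro h; exact absurd (Finset.mem_univ i) h
  have hα : Function.Surjective α := by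
    rw [← MonoidHom.range_eq_top, ← top_le_iff, ← hg, Subgroup.closure_le]
    rintro _ ⟨i, rfl⟩
    exact ⟨_, hαs i⟩
  have hker : α.ker ≤ β.ker := by
    intro e he
    rw [MonoidHom.mem_ker] at he ⊢
    change ∏ i, u i ^ (Multiplicative.toAdd e i) = 1
    refine Finset.prod_eq_one fun i _ => ?_
    obtain ⟨m, hm⟩ := hrel _ he i
    rw [hm, zpow_mul, zpow_natCast, hun, one_zpow]
  let F : Δ →* Qˣ := α.liftOfSurjective hα ⟨β, hker⟩
  have hF : ∀ i, F (g i) = u i := by
    intro i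
    have := MonoidHom.liftOfRightInverse_comp_apply α _ (Function.rightInverse_surjInv hα)
      ⟨β, hker⟩ (Multiplicative.ofAdd (Pi.single i 1))
    rw [hαs] at this
    exact this.trans (hβs i)
  let ρ : MonoidAlgebra 𝒪 Δ →ₐ[𝒪] Q := MonoidAlgebra.lift 𝒪 Q Δ ((Units.coeHom Q).comp F)
  refine ⟨ρ, fun c => ?_, fun i => ?_⟩
  · exact ρ.commutes c
  · change ρ (MonoidAlgebra.of 𝒪 Δ (g i)) = _
    rw [MonoidAlgebra.lift_of]
    change ((F (g i) : Qˣ) : Q) = _
    rw [hF]
    rfl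

/-- The submodule `(y) N` is the augmentation submodule. -/
theorem mem_span_range_smul_top_iff (hg : Subgroup.closure (Set.range g) = ⊤)
    (hC : ∀ (c : 𝒪) (x : N), φ (MvPowerSeries.C c) • x = algebraMap 𝒪 (MonoidAlgebra 𝒪 Δ) c • x)
    (hX : ∀ i (x : N), φ (MvPowerSeries.X i) • x = (gr 𝒪 Δ (g i) - 1) • x) (x : N) :
    x ∈ (Ideal.span (Set.range fun i => φ (MvPowerSeries.X i)) • ⊤ : Submodule R N) ↔
      x ∈ (RingHom.ker (aug 𝒪 Δ) • ⊤ : Submodule (MonoidAlgebra 𝒪 Δ) N) := by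
  rw [ker_aug_eq g hg]
  have h1 : (Ideal.span (Set.range fun i => φ (MvPowerSeries.X i)) • ⊤ : Submodule R N) =
      Submodule.span R (⋃ i, Set.range fun y : N => φ (MvPowerSeries.X i) • y) := by
    apply le_antisymm
    · rw [Submodule.smul_le]
      intro a ha y _
      induction ha using Submodule.span_induction with
      | mem a ha =>
        obtain ⟨i, rfl⟩ := ha
        exact Submodule.subset_span (Set.mem_iUnion.2 ⟨i, y, rfl⟩)
      | zero => rw [zero_smul]; exact Submodule.zero_mem _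
      | add a b _ _ ha hb => rw [add_smul]; exact Submodule.add_mem _ ha hb
      | smul c a _ ha => rw [smul_eq_mul, mul_smul]; exact Submodule.smul_mem _ _ ha
    · rw [Submodule.span_le]
      intro z hz
      obtain ⟨i, y, rfl⟩ := Set.mem_iUnion.1 hz
      exact Submodule.smul_mem_smul (Ideal.subset_span ⟨i, rfl⟩) trivial
  have h2 : (Ideal.span (Set.range fun i => gr 𝒪 Δ (g i) - 1) • ⊤ :
        Submodule (MonoidAlgebra 𝒪 Δ) N) =
      Submodule.span (MonoidAlgebra 𝒪 Δ) (⋃ i, Set.range fun y : N => (gr 𝒪 Δ (g i) - 1) • y) := by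
    apply le_antisymm
    · rw [Submodule.smul_le]
      intro a ha y _
      induction ha using Submodule.span_induction with
      | mem a ha =>
        obtain ⟨i, rfl⟩ := ha
        exact Submodule.subset_span (Set.mem_iUnion.2 ⟨i, y, rfl⟩)
      | zero => rw [zero_smul]; exact Submodule.zero_mem _
      | add a b _ _ ha hb => rw [add_smul]; exact Submodule.add_mem _ ha hb
      | smul c a _ ha => rw [smul_eq_mul, mul_smul]; exact Submodule.smul_mem _ _ ha
    · rw [Submodule.span_le]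
      intro z hz
      obtain ⟨i, y, rfl⟩ := Set.mem_iUnion.1 hz
      exact Submodule.smul_mem_smul (Ideal.subset_span ⟨i, rfl⟩) trivial
  rw [h1, h2]
  constructor
  · intro hx
    induction hx using Submodule.span_induction with
    | mem z hz =>
      obtain ⟨i, y, rfl⟩ := Set.mem_iUnion.1 hz
      refine Submodule.subset_span (Set.mem_iUnion.2 ⟨i, y, ?_⟩)
      exact (hX i y).symm
    | zero => exact Submodule.zero_mem _
    | add a b _ _ ha hb => exact Submodule.add_mem _ ha hb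
    | smul c a hm ha =>
      clear hm
      induction ha using Submodule.span_induction with
      | mem z hz =>
        obtain ⟨i, y, rfl⟩ := Set.mem_iUnion.1 hz
        refine Submodule.subset_span (Set.mem_iUnion.2 ⟨i, c • y, ?_⟩)
        exact (smul_comm_groupRing hg hC hX _ c y).symm
      | zero => rw [smul_zero]; exact Submodule.zero_mem _
      | add a b _ _ ha hb => rw [smul_add]; exact Submodule.add_mem _ ha hb
      | smul a z _ hz =>
        rw [smul_comm_groupRing hg hC hX]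
        exact Submodule.smul_mem _ _ hz
  · intro hx
    induction hx using Submodule.span_induction with
    | mem z hz =>
      obtain ⟨i, y, rfl⟩ := Set.mem_iUnion.1 hz
      refine Submodule.subset_span (Set.mem_iUnion.2 ⟨i, y, ?_⟩)
      exact hX i y
    | zero => exact Submodule.zero_mem _
    | add a b _ _ ha hb => exact Submodule.add_mem _ ha hb
    | smul a x _ hx =>
      obtain ⟨s, hs⟩ := exists_smul_eq_groupRing hg hC hX a
      rw [← hs]
      exact Submodule.smul_mem _ _ hx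

end OneLevel

section Family

variable {𝒪 : Type*} [CommRing 𝒪] [IsLocalRing 𝒪] {r : ℕ} {R : Type*} [CommRing R] [IsLocalRing R]
  [Algebra 𝒪 R] {M : ℕ → Type*} [∀ n, AddCommGroup (M n)] [∀ n, Module R (M n)] {d : ℕ}

/-- A constructor for `LevelSeq`: the relations are controlled asymptotically. -/
noncomputable def LevelSeq.ofEventually {S : Type*} [CommRing S] [IsLocalRing S]
    (φ : ℕ → (S →+* R)) (hφ : ∀ n, IsLocalHom (φ n)) (b : ∀ n, Fin d → M n)
    (span : ∀ n, ∀ x : M n, ∃ c : Fin d → S, x = ∑ i, φ n (c i) • b n i)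
    (rel : ∀ k, ∀ᶠ n in atTop, ∀ c : Fin d → S, ∑ i, φ n (c i) • b n i = 0 →
      ∀ i, c i ∈ maximalIdeal S ^ k) : LevelSeq S R M d := by
  classical
  exact
  { φ := φ
    isLocalHom := hφ
    b := b
    J := fun n => maximalIdeal S ^ (Nat.findGreatest (fun k => ∀ c : Fin d → S,
      ∑ i, φ n (c i) • b n i = 0 → ∀ i, c i ∈ maximalIdeal S ^ k) n)
    tendsto := fun k => by
      filter_upwards [rel k, eventually_ge_atTop k] with n h1 h2
      exact Ideal.pow_le_pow_right (Nat.le_findGreatest h2 h1)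
    span := span
    rel := fun n => Nat.findGreatest_spec (P := fun k => ∀ c : Fin d → S,
      ∑ i, φ n (c i) • b n i = 0 → ∀ i, c i ∈ maximalIdeal S ^ k) (Nat.zero_le n)
        (fun c _ i => by rw [pow_zero, Ideal.one_eq_top]; trivial) }

/-- **`LevelSeq` from modules over group rings.** -/
noncomputable def LevelSeq.ofGroupRing {p : ℕ} (hp : p.Prime) (hp𝒪 : (p : 𝒪) ∈ maximalIdeal 𝒪)
    (φ : ℕ → (MvPowerSeries (Fin r) 𝒪 →+* R)) (hφ : ∀ n, IsLocalHom (φ n))
    {Δ : ℕ → Type*} [∀ n, CommGroup (Δ n)] [∀ n, Finite (Δ n)] (g : ∀ n, Fin r → Δ n)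
    (hg : ∀ n, Subgroup.closure (Set.range (g n)) = ⊤)
    (hrel : ∀ n, ∀ e : Fin r → ℤ, ∏ i, g n i ^ e i = 1 → ∀ i, ((p ^ n : ℕ) : ℤ) ∣ e i)
    [∀ n, Module (MonoidAlgebra 𝒪 (Δ n)) (M n)]
    (hC : ∀ n (c : 𝒪) (x : M n),
      φ n (MvPowerSeries.C c) • x = algebraMap 𝒪 (MonoidAlgebra 𝒪 (Δ n)) c • x)
    (hX : ∀ n i (x : M n), φ n (MvPowerSeries.X i) • x = (gr 𝒪 (Δ n) (g n i) - 1) • x)
    (b : ∀ n, Module.Basis (Fin d) (MonoidAlgebra 𝒪 (Δ n)) (M n)) :
    LevelSeq (MvPowerSeries (Fin r) 𝒪) R M d :=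
  LevelSeq.ofEventually φ hφ (fun n => b n)
    (fun n x => by
      choose s hs using fun i => exists_smul_eq_groupRing (hg n) (hC n) (hX n) ((b n).repr x i)
      refine ⟨s, ?_⟩
      conv_lhs => rw [← (b n).sum_repr x]
      exact Finset.sum_congr rfl fun i _ => (hs i _).symm)
    (fun k => by
      filter_upwards [eventually_ge_atTop k] with n hn c hc i
      obtain ⟨ρ, hρC, hρg⟩ := exists_hom_groupRing hp hp𝒪 (hn.trans (Nat.le_succ n)) (hg n) (hrel n)
      exact mem_pow_of_sum_smul_basis_eq_zero (hg n) (hC n) (hX n) (b n) ρ hρC hρg hc i)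

end Family

end Fermat.Agent.Patch
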