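/-
The full climb over all the levels `S ⊆ T = ι₀ ⊕ ι₁`, using the local deformation theory of
`Fermat.Agent.LocRing`.
-/
import Fermat.Agent.Patch.Climb
import Fermat.Agent.Patch.GroupRing
import Fermat.Agent.LocRing.Test

set_option autoImplicit false

namespace Fermat.Agent.Patch

open Filter IsLocalRing Fermat.Agent.S53rep Fermat.Agent.LocRing

variable {𝒪 : Type} [CommRing 𝒪] [IsDomain 𝒪] [IsDiscreteValuationRing 𝒪]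
  [IsAdicComplete (maximalIdeal 𝒪) 𝒪] [Finite (ResidueField 𝒪)]
variable {ι₀ ι₁ κ : Type} [Fintype ι₀] [Fintype ι₁] [Fintype κ] [DecidableEq (ι₀ ⊕ ι₁)]

/-- All the data needed for the climb: for each finite set `S` of primes of `T = ι₀ ⊕ ι₁`, a sequence
of modules `M S n` (level `N S`, Taylor-Wiles level `n`) over `Λ = LamT 𝒪 ι₀ ι₁ κ`. -/
structure ClimbData (D : LocData 𝒪 ι₀ ι₁) (κ : Type) [Fintype κ] (r : ℕ)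
    (M : Finset (ι₀ ⊕ ι₁) → ℕ → Type*) [∀ S n, AddCommGroup (M S n)]
    [∀ S n, Module (LamT 𝒪 ι₀ ι₁ κ) (M S n)] (d : Finset (ι₀ ⊕ ι₁) → ℕ)
    (𝔞 : Ideal (LamT 𝒪 ι₀ ι₁ κ)) where
  /-- the level sequences -/
  L : ∀ S, LevelSeq (MvPowerSeries (Fin r) 𝒪) (LamT 𝒪 ι₀ ι₁ κ) (M S) (d S)
  /-- the common map `S∞ → Λ` -/
  φ : ℕ → (MvPowerSeries (Fin r) 𝒪 →+* LamT 𝒪 ι₀ ι₁ κ)
  L_φ : ∀ S n, (L S).φ n = φ n
  φ_C : ∀ n c, φ n (MvPowerSeries.C c) = MvPowerSeries.C c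
  /-- the local relations -/
  ann : ∀ (S : Finset (ι₀ ⊕ ι₁)) n,
    ITS κ D (S : Set (ι₀ ⊕ ι₁)) ≤ Module.annihilator (LamT 𝒪 ι₀ ι₁ κ) (M S n)
  /-- the degeneracy maps -/
  i1 : ∀ (S : Finset (ι₀ ⊕ ι₁)) (v : ι₀ ⊕ ι₁), v ∉ S →
    ∀ n, M S n →ₗ[LamT 𝒪 ι₀ ι₁ κ] M (insert v S) n
  i2 : ∀ (S : Finset (ι₀ ⊕ ι₁)) (v : ι₀ ⊕ ι₁), v ∉ S →
    ∀ n, M S n →ₗ[LamT 𝒪 ι₀ ι₁ κ] M (insert v S) n
  /-- the trace maps -/
  j1 : ∀ (S : Finset (ι₀ ⊕ ι₁)) (v : ι₀ ⊕ ι₁), v ∉ S →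
    ∀ n, M (insert v S) n →ₗ[LamT 𝒪 ι₀ ι₁ κ] M S n
  j2 : ∀ (S : Finset (ι₀ ⊕ ι₁)) (v : ι₀ ⊕ ι₁), v ∉ S →
    ∀ n, M (insert v S) n →ₗ[LamT 𝒪 ι₀ ι₁ κ] M S n
  j1_i1 : ∀ S v hv n x, j1 S v hv n (i1 S v hv n x) =
    (MvPowerSeries.C ((D.qT v : 𝒪) + 1) : LamT 𝒪 ι₀ ι₁ κ) • x
  j1_i2 : ∀ S v hv n x, j1 S v hv n (i2 S v hv n x) = trT κ D v • x
  j2_i1 : ∀ S v hv n x, j2 S v hv n (i1 S v hv n x) = trT κ D v • x
  j2_i2 : ∀ S v hv n x, j2 S v hv n (i2 S v hv n x) =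
    (MvPowerSeries.C ((D.qT v : 𝒪) + 1) : LamT 𝒪 ι₀ ι₁ κ) • x
  /-- Ihara's lemma -/
  inj : ∀ S v hv n x y, i1 S v hv n x + i2 S v hv n y ∈
      ((maximalIdeal (MvPowerSeries (Fin r) 𝒪)).map (φ n) • ⊤ :
        Submodule (LamT 𝒪 ι₀ ι₁ κ) (M (insert v S) n)) →
    x ∈ ((maximalIdeal (MvPowerSeries (Fin r) 𝒪)).map (φ n) • ⊤ :
        Submodule (LamT 𝒪 ι₀ ι₁ κ) (M S n)) ∧
    y ∈ ((maximalIdeal (MvPowerSeries (Fin r) 𝒪)).map (φ n) • ⊤ :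
        Submodule (LamT 𝒪 ι₀ ι₁ κ) (M S n))
  /-- dual of Ihara's lemma -/
  surj : ∀ S v hv n, ∃ a ∉ 𝔞, ∀ x y, ∃ z, j1 S v hv n z = a • x ∧ j2 S v hv n z = a • y
  /-- the new part -/
  new : ∀ S v hv, ∃ e : ℕ, ∀ n z, j1 S v hv n z = 0 → j2 S v hv n z = 0 →
    (trT κ D v ^ 2 - MvPowerSeries.C (((D.qT v : 𝒪) + 1) ^ 2) : LamT 𝒪 ι₀ ι₁ κ) ^ e • z = 0

variable {D : LocData 𝒪 ι₀ ι₁} {r : ℕ} {M : Finset (ι₀ ⊕ ι₁) → ℕ → Type*}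
  [∀ S n, AddCommGroup (M S n)] [∀ S n, Module (LamT 𝒪 ι₀ ι₁ κ) (M S n)]
  {d : Finset (ι₀ ⊕ ι₁) → ℕ} {𝔞 : Ideal (LamT 𝒪 ι₀ ι₁ κ)}

/-- **The climb**: every component is in the support of the patched module. -/
theorem ClimbData.isAssociatedPrime [CharZero 𝒪] (X : ClimbData D κ r M d 𝔞) (hd : 0 < d ∅)
    (hr : 3 * Fintype.card ι₀ + Fintype.card ι₁ + Fintype.card κ ≤ r)
    {k : ℕ} (hk : maximalIdeal (LamT 𝒪 ι₀ ι₁ κ) ^ k ≤ 𝔞)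
    (htest : ∀ (S : Set (ι₀ ⊕ ι₁)) (v : ι₀ ⊕ ι₁) (_ : v ∉ S) (c : CompS D S) (s : Bool)
      (c' : CompS D (insert v S)), c'.1 = Function.update c.1 v (Ty.st s) →
      ∃ 𝔭 : Ideal (LamT 𝒪 ι₀ ι₁ κ), 𝔭.IsPrime ∧ PcS D κ S c ≤ 𝔭 ∧
        MvPowerSeries.C ((D.qT v : 𝒪) + 1) * MvPowerSeries.C ((D.qT v : 𝒪) + 1) -
          trT κ D v * trT κ D v ∈ 𝔭 ∧
        (∀ c'' : CompS D (insert v S), PcS D κ (insert v S) c'' ≤ 𝔭 →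
          PcS D κ (insert v S) c'' = PcS D κ S c ∨ c'' = c') ∧ 𝔭 ≤ 𝔞)
    (S : Finset (ι₀ ⊕ ι₁)) (c : CompS D (S : Set (ι₀ ⊕ ι₁))) :
    IsAssociatedPrime (PcS D κ (S : Set (ι₀ ⊕ ι₁)) c) (PMod (LamT 𝒪 ι₀ ι₁ κ) (M S)) := by
  obtain ⟨ϖ, hϖ⟩ := IsDiscreteValuationRing.exists_irreducible 𝒪
  have hc1 := isAdicComplete_mvPowerSeries (σ := Fin r) (𝒪 := 𝒪)
  have hc2 := isAdicComplete_mvPowerSeries (σ := (((ι₀ × Bool) × Fin 2 × Fin 2) ⊕ Ka ι₁ κ)) (𝒪 := 𝒪)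
  have hf1 := finite_residueField_mvPowerSeries (Fin r) 𝒪
  have hf2 := finite_residueField_mvPowerSeries (((ι₀ × Bool) × Fin 2 × Fin 2) ⊕ Ka ι₁ κ) 𝒪
  have hdom : IsDomain (MvPowerSeries (Fin r) 𝒪) := NoZeroDivisors.to_isDomain _
  have hS : ((r + 1 : ℕ) : WithBot ℕ∞) ≤ ringKrullDim (MvPowerSeries (Fin r) 𝒪) :=
    le_ringKrullDim_mvPowerSeries_fin 𝒪 r
  have hne : (MvPowerSeries.C ϖ : MvPowerSeries (Fin r) 𝒪) ≠ 0 := by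
    intro h
    apply hϖ.ne_zero
    simpa using congrArg (MvPowerSeries.constantCoeff (σ := Fin r) (R := 𝒪)) h
  have hdim : ∀ S : Set (ι₀ ⊕ ι₁), ringKrullDim (LamT 𝒪 ι₀ ι₁ κ ⧸ ITS κ D S) ≤ (r + 1 : ℕ) := by
    intro S
    refine (ringKrullDim_ITS_le D S).trans ?_
    exact_mod_cast (by omega :
      1 + 3 * Fintype.card ι₀ + Fintype.card ι₁ + Fintype.card κ ≤ r + 1)
  refine climb_induction D (fun S c => IsAssociatedPrime (PcS D κ (S : Set (ι₀ ⊕ ι₁)) c)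
    (PMod (LamT 𝒪 ι₀ ι₁ κ) (M S))) ?_ ?_ ?_ S c
  · intro c
    obtain ⟨c', hc'⟩ := climb_base (X.L ∅) hd (fun n c => by rw [X.L_φ, X.φ_C]) hϖ.ne_zero
      (I := ITS κ D ((∅ : Finset (ι₀ ⊕ ι₁)) : Set (ι₀ ⊕ ι₁))) (X.ann ∅) (hdim _)
      (Pc := PcS D κ ((∅ : Finset (ι₀ ⊕ ι₁)) : Set (ι₀ ⊕ ι₁)))
      (PcS_isPrime D _) (ITS_le_PcS D _)
      (fun P hP hI hϖP => exists_PcS_le D hϖ _ P hP hI hϖP)
    have h1 : c = c' := by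
      apply Subtype.ext
      funext v
      rw [c.2.2 v (by simp), c'.2.2 v (by simp)]
    rw [h1]
    exact hc'
  · intro S v hv c hc
    have h1 := isAssociatedPrime_of_patched_injective (X.L S) (X.L (insert v S))
      (fun n => by rw [X.L_φ, X.L_φ]) (X.i1 S v hv)
      (fun n x hx => by
        rw [X.L_φ] at hx ⊢
        exact (X.inj S v hv n x 0 (by rwa [map_zero, add_zero])).1) hc
    exact h1
  · intro S v hv c hc s c' hc'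
    have hvS : v ∉ (S : Set (ι₀ ⊕ ι₁)) := by simpa using hv
    have hins : ((insert v S : Finset (ι₀ ⊕ ι₁)) : Set (ι₀ ⊕ ι₁)) = insert v (S : Set (ι₀ ⊕ ι₁)) :=
      Finset.coe_insert v S
    have hall : D.Allowed c'.1 ∧ ∀ w ∉ insert v (S : Set (ι₀ ⊕ ι₁)), c'.1 w = Ty.nr :=
      ⟨c'.2.1, fun w hw => c'.2.2 w (by rwa [hins])⟩
    obtain ⟨𝔭, h𝔭, hP𝔭, hd𝔭, huniq, h𝔞⟩ := htest (S : Set (ι₀ ⊕ ι₁)) v hvS c s ⟨c'.1, hall⟩ hc'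
    have hτ := e_notMem_PcS D (κ := κ) (S : Set (ι₀ ⊕ ι₁)) v hvS c
    obtain ⟨e, hnew⟩ := X.new S v hv
    have hτe := fun h => hτ ((PcS_isPrime D (κ := κ) (S : Set (ι₀ ⊕ ι₁)) c).mem_of_pow_mem e h)
    refine isAssociatedPrime_of_patched_ihara_ker (X.L S) (X.L (insert v S))
      (fun n => by rw [X.L_φ, X.L_φ]) (X.i1 S v hv) (X.i2 S v hv) (X.j1 S v hv) (X.j2 S v hv)
      (X.j1_i1 S v hv) (X.j1_i2 S v hv) (X.j2_i1 S v hv) (X.j2_i2 S v hv)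
      (fun n x y hxy => ?_) hk (X.surj S v hv) hnew hc hτe (fun h => hτ ?_) h𝔭 h𝔞 hP𝔭 hd𝔭
      (fun P₁ hP₁ hP₁𝔭 => ?_)
    · rw [X.L_φ] at hxy ⊢
      exact X.inj S v hv n x y hxy
    · have h2 := (PcS D κ (S : Set (ι₀ ⊕ ι₁)) c).neg_mem h
      have h3 : -((MvPowerSeries.C ((D.qT v : 𝒪) + 1) : LamT 𝒪 ι₀ ι₁ κ) *
          MvPowerSeries.C ((D.qT v : 𝒪) + 1) - trT κ D v * trT κ D v) =
          trT κ D v ^ 2 - MvPowerSeries.C (((D.qT v : 𝒪) + 1) ^ 2) := by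
        rw [map_pow]
        ring
      rwa [h3] at h2
    · obtain ⟨c₁, hc₁⟩ := (X.L (insert v S)).exists_eq_of_isAssociatedPrime hne
        (fun n => by rw [X.L_φ]; exact X.φ_C n ϖ)
        (I := ITS κ D (insert v (S : Set (ι₀ ⊕ ι₁))))
        (fun n => by rw [← hins]; exact X.ann (insert v S) n) ((hdim _).trans hS)
        (Pc := PcS D κ (insert v (S : Set (ι₀ ⊕ ι₁))))
        (PcS_isPrime D _) (ITS_le_PcS D _) (fun P hP hI hϖP => exists_PcS_le D hϖ _ P hP hI hϖP) hP₁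
      rcases huniq c₁ (hc₁ ▸ hP₁𝔭) with h | h
      · exact Or.inl (hc₁.trans h)
      · refine Or.inr (hc₁.trans ?_)
        rw [h]
        rfl

/-- The test primes of `Fermat.Agent.LocRing`, with `𝔞` the maximal ideal. -/
theorem exists_test_maximal [CharZero 𝒪] (S : Set (ι₀ ⊕ ι₁)) (v : ι₀ ⊕ ι₁) (hv : v ∉ S)
    (c : CompS D S) (s : Bool) (c' : CompS D (insert v S))
    (hc' : c'.1 = Function.update c.1 v (Ty.st s)) :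
    ∃ 𝔭 : Ideal (LamT 𝒪 ι₀ ι₁ κ), 𝔭.IsPrime ∧ PcS D κ S c ≤ 𝔭 ∧
      MvPowerSeries.C ((D.qT v : 𝒪) + 1) * MvPowerSeries.C ((D.qT v : 𝒪) + 1) -
        trT κ D v * trT κ D v ∈ 𝔭 ∧
      (∀ c'' : CompS D (insert v S), PcS D κ (insert v S) c'' ≤ 𝔭 →
        PcS D κ (insert v S) c'' = PcS D κ S c ∨ c'' = c') ∧
      𝔭 ≤ maximalIdeal (LamT 𝒪 ι₀ ι₁ κ) := by
  obtain ⟨𝔭, h1, h2, h3, h4⟩ := exists_test_levels D (κ := κ) S v hv c s c' hc'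
  exact ⟨𝔭, h1, h2, h3, h4, IsLocalRing.le_maximalIdeal h1.ne_top⟩

/-- **End of the climb**: all the characteristic zero points of `R₀` are in the support of `M₀`. -/
theorem ClimbData.eq_zero_of_mem_annihilator [CharZero 𝒪] (X : ClimbData D κ r M d 𝔞)
    (hass : ∀ c, IsAssociatedPrime
      (PcS D κ ((Finset.univ : Finset (ι₀ ⊕ ι₁)) : Set (ι₀ ⊕ ι₁)) c)
      (PMod (LamT 𝒪 ι₀ ι₁ κ) (M Finset.univ)))
    {R₀ : Type*} [CommRing R₀] [IsLocalRing R₀] [IsNoetherianRing R₀]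
    [IsAdicComplete (maximalIdeal R₀) R₀] [Finite (ResidueField R₀)] [Algebra 𝒪 R₀]
    {M₀ : Type*} [AddCommGroup M₀] [Module R₀ M₀] [Module.Finite R₀ M₀]
    (B : BottomSeq (X.L Finset.univ) R₀ M₀
      (MvPowerSeries.X : Fin r → MvPowerSeries (Fin r) 𝒪))
    (hBC : ∀ n c, B.ψ n (MvPowerSeries.C c) = algebraMap 𝒪 R₀ c)
    (hBI : ∀ n, ∀ f ∈ IT κ D, B.ψ n f = 0)
    {A : Type*} [CommRing A] [IsDomain A] (x : R₀ →+* A)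
    (hx : Function.Injective (x.comp (algebraMap 𝒪 R₀)))
    {f : R₀} (hf : f ∈ Module.annihilator R₀ M₀) : x f = 0 := by
  obtain ⟨ϖ, hϖ⟩ := IsDiscreteValuationRing.exists_irreducible 𝒪
  have hc2 := isAdicComplete_mvPowerSeries (σ := (((ι₀ × Bool) × Fin 2 × Fin 2) ⊕ Ka ι₁ κ)) (𝒪 := 𝒪)
  have hf2 := finite_residueField_mvPowerSeries (((ι₀ × Bool) × Fin 2 × Fin 2) ⊕ Ka ι₁ κ) 𝒪
  have h1 : Module.annihilator R₀ M₀ ≤ RingHom.ker x := by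
    refine climb_end (X.L Finset.univ) B (ϖ := ϖ)
      (I := ITS κ D ((Finset.univ : Finset (ι₀ ⊕ ι₁)) : Set (ι₀ ⊕ ι₁)))
      (Pc := PcS D κ ((Finset.univ : Finset (ι₀ ⊕ ι₁)) : Set (ι₀ ⊕ ι₁)))
      (fun P hP hI hϖP => exists_PcS_le D hϖ _ P hP hI hϖP) hass (RingHom.ker_isPrime x) ?_ ?_
    · rw [Finset.coe_univ, ITS_univ]
      intro f hf
      rw [Ideal.mem_comap, B.Ψ_eq (fun n => hBI n f hf)]
      exact Ideal.zero_mem _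
    · intro h
      rw [Ideal.mem_comap, B.Ψ_eq (fun n => hBC n ϖ), RingHom.mem_ker] at h
      apply hϖ.ne_zero
      apply hx
      rw [map_zero]
      exact h
  exact h1 hf

end Fermat.Agent.Patch
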