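/-
The final patching theorem, in terms of the deformation rings `R_{Q_n}` and of the modules over them.
-/
import Fermat.Agent.Patch.ClimbAll
import Fermat.Agent.RTE.Nilp

set_option autoImplicit false

namespace Fermat.Agent.Patch

open Filter IsLocalRing Fermat.Agent.S53rep Fermat.Agent.LocRing Fermat.Agent.RT

section General

variable {𝒪 : Type*} [CommRing 𝒪] [IsLocalRing 𝒪] {σ : Type*}

/-- homomorphisms between power series rings are local -/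
theorem isLocalHom_algHom_mvPowerSeries {τ : Type*}
    (φ : MvPowerSeries τ 𝒪 →ₐ[𝒪] MvPowerSeries σ 𝒪) :
    IsLocalHom (φ : MvPowerSeries τ 𝒪 →+* MvPowerSeries σ 𝒪) := by
  have h1 : IsLocalHom (algebraMap 𝒪 (MvPowerSeries σ 𝒪)) := by
    refine ⟨fun a ha => ?_⟩
    have := ha.map (MvPowerSeries.constantCoeff (σ := σ) (R := 𝒪))
    rwa [MvPowerSeries.algebraMap_apply, MvPowerSeries.constantCoeff_C] at this
  refine isLocalHom_of_mvPowerSeries (fun x => ?_) φ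
  obtain ⟨x, rfl⟩ := residue_surjective x
  refine ⟨MvPowerSeries.constantCoeff x, ?_⟩
  rw [Function.comp_apply, ← sub_eq_zero, ← map_sub, residue_eq_zero_iff,
    mem_maximalIdeal_mvPowerSeries_iff]
  simp [MvPowerSeries.algebraMap_apply]

theorem maximalIdeal_mvPowerSeries_eq [Finite σ] : maximalIdeal (MvPowerSeries σ 𝒪) =
    (maximalIdeal 𝒪).map (MvPowerSeries.C : 𝒪 →+* MvPowerSeries σ 𝒪) ⊔
      Ideal.span (Set.range (MvPowerSeries.X : σ → MvPowerSeries σ 𝒪)) := by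
  apply le_antisymm
  · intro f hf
    have h1 : f = MvPowerSeries.C (MvPowerSeries.constantCoeff f) +
        (f - MvPowerSeries.C (MvPowerSeries.constantCoeff f)) := by ring
    rw [h1]
    refine Ideal.add_mem _ (Ideal.mem_sup_left (Ideal.mem_map_of_mem _
      ((mem_maximalIdeal_mvPowerSeries_iff f).1 hf))) (Ideal.mem_sup_right ?_)
    rw [span_range_X_eq_ker, RingHom.mem_ker, map_sub, MvPowerSeries.constantCoeff_C, sub_self]
  · rw [sup_le_iff, Ideal.map_le_iff_le_comap, Ideal.span_le]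
    refine ⟨fun c hc => ?_, ?_⟩
    · rw [Ideal.mem_comap, mem_maximalIdeal_mvPowerSeries_iff, MvPowerSeries.constantCoeff_C]
      exact hc
    · rintro _ ⟨i, rfl⟩
      exact X_mem_maximalIdeal i

/-- the group ring is reduced in characteristic zero -/
theorem isReduced_groupRing (𝒪 : Type*) [CommRing 𝒪] [IsDomain 𝒪] [CharZero 𝒪] (Δ : Type*)
    [CommGroup Δ] [Finite Δ] : IsReduced (MonoidAlgebra 𝒪 Δ) := by
  have h0 : CharZero (FractionRing 𝒪) :=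
    charZero_of_injective_algebraMap (IsFractionRing.injective 𝒪 (FractionRing 𝒪))
  have h1 : NeZero (Nat.card Δ : FractionRing 𝒪) := ⟨Nat.cast_ne_zero.2 Nat.card_pos.ne'⟩
  have h2 : IsSemisimpleRing (MonoidAlgebra (FractionRing 𝒪) Δ) :=
    inferInstanceAs (IsSemisimpleModule _ _)
  have h3 : IsReduced (MonoidAlgebra (FractionRing 𝒪) Δ) := inferInstance
  refine isReduced_of_injective (MonoidAlgebra.mapRingHom Δ
    (algebraMap 𝒪 (FractionRing 𝒪))) ?_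
  exact MonoidAlgebra.map_injective _ (IsFractionRing.injective 𝒪 (FractionRing 𝒪))

theorem mem_span_singleton_smul_top {R N : Type*} [CommRing R] [AddCommGroup N] [Module R N]
    (a : R) (x : N) : x ∈ (Ideal.span {a} • ⊤ : Submodule R N) ↔ ∃ y, x = a • y := by
  rw [Submodule.ideal_span_singleton_smul]
  constructor
  · intro h
    obtain ⟨y, _, rfl⟩ := (Submodule.mem_smul_pointwise_iff_exists _ _ _).1 h
    exact ⟨y, rfl⟩
  · rintro ⟨y, rfl⟩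
    exact Submodule.smul_mem_pointwise_smul _ _ _ trivial

end General

variable {𝒪 : Type} [CommRing 𝒪] [IsDomain 𝒪] [IsDiscreteValuationRing 𝒪]
  [IsAdicComplete (maximalIdeal 𝒪) 𝒪] [Finite (ResidueField 𝒪)]
variable {ι₀ ι₁ : Type} [Fintype ι₀] [Fintype ι₁] [DecidableEq (ι₀ ⊕ ι₁)]

/-- The input of the patching argument.
`Rn n` = deformation ring with Taylor-Wiles primes `Q_n`, `R₀` = deformation ring for `Q = ∅`,
`Δ n` = the diamond group, `M S n` = module of level `N_S`, `Q_n`, `M₀ S` = module of level `N_S`,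
for `S ⊆ T = ι₀ ⊕ ι₁`. -/
structure TWPackage (D : LocData 𝒪 ι₀ ι₁) (κ : Type) [Fintype κ] (r p : ℕ)
    (Rn : ℕ → Type*) [∀ n, CommRing (Rn n)] [∀ n, Algebra 𝒪 (Rn n)]
    (R₀ : Type*) [CommRing R₀] [Algebra 𝒪 R₀]
    (Δ : ℕ → Type*) [∀ n, CommGroup (Δ n)]
    (M : Finset (ι₀ ⊕ ι₁) → ℕ → Type*) [∀ S n, AddCommGroup (M S n)]
    [∀ S n, Module (Rn n) (M S n)] [∀ S n, Module (MonoidAlgebra 𝒪 (Δ n)) (M S n)]
    (M₀ : Finset (ι₀ ⊕ ι₁) → Type*) [∀ S, AddCommGroup (M₀ S)] [∀ S, Module R₀ (M₀ S)]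
    (d : Finset (ι₀ ⊕ ι₁) → ℕ) where
  /-- the presentation of `R_{Q_n}` over the local variables -/
  γ : ∀ n, LamT 𝒪 ι₀ ι₁ κ →ₐ[𝒪] Rn n
  γ_surjective : ∀ n, Function.Surjective (γ n)
  γ_IT : ∀ n, ∀ f ∈ IT κ D, γ n f = 0
  /-- the lift of the diamond operators -/
  φ : ∀ n, MvPowerSeries (Fin r) 𝒪 →ₐ[𝒪] LamT 𝒪 ι₀ ι₁ κ
  /-- `R_{Q_n} → R_∅` -/
  ψ : ∀ n, Rn n →ₐ[𝒪] R₀
  ψ_surjective : ∀ n, Function.Surjective (ψ n)
  ψ_φ : ∀ n i, ψ n (γ n (φ n (MvPowerSeries.X i))) = 0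
  /-- generators of `Δ n` -/
  g : ∀ n, Fin r → Δ n
  g_gen : ∀ n, Subgroup.closure (Set.range (g n)) = ⊤
  g_rel : ∀ n, ∀ e : Fin r → ℤ, ∏ i, g n i ^ e i = 1 → ∀ i, ((p ^ n : ℕ) : ℤ) ∣ e i
  smul_C : ∀ S n (c : 𝒪) (x : M S n),
    algebraMap 𝒪 (Rn n) c • x = algebraMap 𝒪 (MonoidAlgebra 𝒪 (Δ n)) c • x
  smul_g : ∀ S n i (x : M S n), γ n (φ n (MvPowerSeries.X i)) • x = (gr 𝒪 (Δ n) (g n i) - 1) • x
  /-- freeness over the group ring -/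
  b : ∀ S n, Module.Basis (Fin (d S)) (MonoidAlgebra 𝒪 (Δ n)) (M S n)
  unram : ∀ S n v, v ∉ S → ∀ i j (x : M S n), γ n ((SgT 𝒪 κ v - 1) i j) • x = 0
  /-- degeneracy maps and traces -/
  i1 : ∀ (S : Finset (ι₀ ⊕ ι₁)) (v : ι₀ ⊕ ι₁), v ∉ S → ∀ n, M S n →ₗ[Rn n] M (insert v S) n
  i2 : ∀ (S : Finset (ι₀ ⊕ ι₁)) (v : ι₀ ⊕ ι₁), v ∉ S → ∀ n, M S n →ₗ[Rn n] M (insert v S) n
  j1 : ∀ (S : Finset (ι₀ ⊕ ι₁)) (v : ι₀ ⊕ ι₁), v ∉ S → ∀ n, M (insert v S) n →ₗ[Rn n] M S n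
  j2 : ∀ (S : Finset (ι₀ ⊕ ι₁)) (v : ι₀ ⊕ ι₁), v ∉ S → ∀ n, M (insert v S) n →ₗ[Rn n] M S n
  j1_i1 : ∀ S v hv n x, j1 S v hv n (i1 S v hv n x) = ((D.qT v + 1 : ℕ) : Rn n) • x
  j1_i2 : ∀ S v hv n x, j1 S v hv n (i2 S v hv n x) = γ n (trT κ D v) • x
  j2_i1 : ∀ S v hv n x, j2 S v hv n (i1 S v hv n x) = γ n (trT κ D v) • x
  j2_i2 : ∀ S v hv n x, j2 S v hv n (i2 S v hv n x) = ((D.qT v + 1 : ℕ) : Rn n) • x
  new : ∀ S v hv n z, j1 S v hv n z = 0 → j2 S v hv n z = 0 →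
    ∃ e : ℕ, (γ n (trT κ D v) ^ 2 - ((D.qT v + 1 : ℕ) : Rn n) ^ 2) ^ e • z = 0
  /-- the bottom level -/
  π : ∀ S n, M S n →+ M₀ S
  π_smul : ∀ S n (f : Rn n) (x : M S n), π S n (f • x) = ψ n f • π S n x
  π_surjective : ∀ S n, Function.Surjective (π S n)
  π_ker : ∀ S n (x : M S n), π S n x = 0 →
    x ∈ (RingHom.ker (aug 𝒪 (Δ n)) • ⊤ : Submodule (MonoidAlgebra 𝒪 (Δ n)) (M S n))
  I1 : ∀ (S : Finset (ι₀ ⊕ ι₁)) (v : ι₀ ⊕ ι₁), v ∉ S → M₀ S → M₀ (insert v S)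
  I2 : ∀ (S : Finset (ι₀ ⊕ ι₁)) (v : ι₀ ⊕ ι₁), v ∉ S → M₀ S → M₀ (insert v S)
  π_i1 : ∀ S v hv n x, π (insert v S) n (i1 S v hv n x) = I1 S v hv (π S n x)
  π_i2 : ∀ S v hv n x, π (insert v S) n (i2 S v hv n x) = I2 S v hv (π S n x)
  /-- Ihara's lemma at the bottom level -/
  ihara : ∀ (ϖ : 𝒪), Irreducible ϖ → ∀ S v hv x y z,
    I1 S v hv x + I2 S v hv y = algebraMap 𝒪 R₀ ϖ • z →
    (∃ x', x = algebraMap 𝒪 R₀ ϖ • x') ∧ ∃ y', y = algebraMap 𝒪 R₀ ϖ • y'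

namespace TWPackage

variable {D : LocData 𝒪 ι₀ ι₁} {κ : Type} [Fintype κ] {r p : ℕ}
    {Rn : ℕ → Type*} [∀ n, CommRing (Rn n)] [∀ n, Algebra 𝒪 (Rn n)]
    {R₀ : Type*} [CommRing R₀] [Algebra 𝒪 R₀]
    {Δ : ℕ → Type*} [∀ n, CommGroup (Δ n)]
    {M : Finset (ι₀ ⊕ ι₁) → ℕ → Type*} [∀ S n, AddCommGroup (M S n)]
    [∀ S n, Module (Rn n) (M S n)] [∀ S n, Module (MonoidAlgebra 𝒪 (Δ n)) (M S n)]
    {M₀ : Finset (ι₀ ⊕ ι₁) → Type*} [∀ S, AddCommGroup (M₀ S)] [∀ S, Module R₀ (M₀ S)]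
    {d : Finset (ι₀ ⊕ ι₁) → ℕ}

/-- The modules as modules over `Λ`. -/
@[reducible] noncomputable def modLam (X : TWPackage D κ r p Rn R₀ Δ M M₀ d) (S : Finset (ι₀ ⊕ ι₁))
    (n : ℕ) : Module (LamT 𝒪 ι₀ ι₁ κ) (M S n) :=
  Module.compHom (M S n) (X.γ n : LamT 𝒪 ι₀ ι₁ κ →+* Rn n)

/-- linear maps over `R_n` are `Λ`-linear -/
noncomputable def lamLin' (X : TWPackage D κ r p Rn R₀ Δ M M₀ d) {S S' : Finset (ι₀ ⊕ ι₁)}
    (n : ℕ) (f : M S n →ₗ[Rn n] M S' n) :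
    letI := X.modLam
    M S n →ₗ[LamT 𝒪 ι₀ ι₁ κ] M S' n :=
  letI := X.modLam
  { toFun := f
    map_add' := f.map_add
    map_smul' := fun a x => f.map_smul (X.γ n a) x }

theorem γφ_C (X : TWPackage D κ r p Rn R₀ Δ M M₀ d) (n : ℕ) (c : 𝒪) :
    X.γ n (X.φ n (MvPowerSeries.C c)) = algebraMap 𝒪 (Rn n) c := by
  have h1 : X.φ n (MvPowerSeries.C c) = algebraMap 𝒪 _ c := (X.φ n).commutes c
  rw [h1, AlgHom.commutes]

variable [∀ n, Finite (Δ n)]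

/-- The level sequences. -/
noncomputable def level (X : TWPackage D κ r p Rn R₀ Δ M M₀ d) (hp : p.Prime)
    (hp𝒪 : (p : 𝒪) ∈ maximalIdeal 𝒪) (S : Finset (ι₀ ⊕ ι₁)) :
    letI := X.modLam S
    LevelSeq (MvPowerSeries (Fin r) 𝒪) (LamT 𝒪 ι₀ ι₁ κ) (M S) (d S) :=
  letI := X.modLam S
  LevelSeq.ofGroupRing hp hp𝒪
    (fun n => (X.φ n : MvPowerSeries (Fin r) 𝒪 →+* LamT 𝒪 ι₀ ι₁ κ))
    (fun n => isLocalHom_algHom_mvPowerSeries (X.φ n)) X.g X.g_gen X.g_rel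
    (fun n c x => by
      rw [← X.smul_C, ← X.γφ_C]
      rfl)
    (fun n i x => by
      rw [← X.smul_g]
      rfl) (X.b S)

/-- `π x = 0` iff `x ∈ (y) M`. -/
theorem π_eq_zero_iff (X : TWPackage D κ r p Rn R₀ Δ M M₀ d) (S : Finset (ι₀ ⊕ ι₁)) (n : ℕ)
    (x : M S n) :
    letI := X.modLam S
    X.π S n x = 0 ↔ x ∈ (Ideal.span (Set.range fun i => X.φ n (MvPowerSeries.X i)) • ⊤ :
      Submodule (LamT 𝒪 ι₀ ι₁ κ) (M S n)) := by
  letI := X.modLam S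
  constructor
  · intro h
    refine (mem_span_range_smul_top_iff (g := X.g n)
      (φ := (X.φ n : MvPowerSeries (Fin r) 𝒪 →+* LamT 𝒪 ι₀ ι₁ κ)) (X.g_gen n)
      (fun c x => ?_) (fun i x => ?_) x).2 (X.π_ker S n x h)
    · rw [← X.smul_C, ← X.γφ_C]
      rfl
    · rw [← X.smul_g]
      rfl
  · intro h
    refine Submodule.smul_induction_on h ?_ ?_
    · intro a ha y _
      change X.π S n (X.γ n a • y) = 0
      have h1 : X.ψ n (X.γ n a) = 0 := by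
        have h2 : Ideal.span (Set.range fun i => X.φ n (MvPowerSeries.X i)) ≤
            RingHom.ker ((X.ψ n).comp (X.γ n)) := by
          rw [Ideal.span_le]
          rintro _ ⟨i, rfl⟩
          exact X.ψ_φ n i
        exact h2 ha
      rw [X.π_smul, h1, zero_smul]
    · intro y z hy hz
      rw [map_add, hy, hz, add_zero]

/-- the image of `𝔪_S` in `R₀` -/
theorem map_maximalIdeal_eq (X : TWPackage D κ r p Rn R₀ Δ M M₀ d) (n : ℕ) {ϖ : 𝒪}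
    (hϖ : Irreducible ϖ) :
    ((maximalIdeal (MvPowerSeries (Fin r) 𝒪)).map
      (X.φ n : MvPowerSeries (Fin r) 𝒪 →+* LamT 𝒪 ι₀ ι₁ κ)).map
      (((X.ψ n).comp (X.γ n) : LamT 𝒪 ι₀ ι₁ κ →ₐ[𝒪] R₀) : LamT 𝒪 ι₀ ι₁ κ →+* R₀) =
      Ideal.span {algebraMap 𝒪 R₀ ϖ} := by
  rw [maximalIdeal_mvPowerSeries_eq, Ideal.map_sup, Ideal.map_sup, Ideal.map_map, Ideal.map_map,
    hϖ.maximalIdeal_eq, Ideal.map_span, Set.image_singleton]
  have h1 : (Ideal.span (Set.range (MvPowerSeries.X : Fin r → MvPowerSeries (Fin r) 𝒪))).map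
      (X.φ n : MvPowerSeries (Fin r) 𝒪 →+* LamT 𝒪 ι₀ ι₁ κ) ≤
      RingHom.ker (((X.ψ n).comp (X.γ n) : LamT 𝒪 ι₀ ι₁ κ →ₐ[𝒪] R₀) :
        LamT 𝒪 ι₀ ι₁ κ →+* R₀) := by
    rw [Ideal.map_span, Ideal.span_le]
    rintro _ ⟨_, ⟨i, rfl⟩, rfl⟩
    exact X.ψ_φ n i
  rw [(Ideal.map_eq_bot_iff_le_ker _).2 h1, sup_bot_eq]
  congr 2
  change X.ψ n (X.γ n (X.φ n (MvPowerSeries.C ϖ))) = _
  rw [X.γφ_C, AlgHom.commutes]

/-- Ihara's lemma at level `n`. -/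
theorem inj (X : TWPackage D κ r p Rn R₀ Δ M M₀ d) (S : Finset (ι₀ ⊕ ι₁)) (v : ι₀ ⊕ ι₁) (hv : v ∉ S)
    (n : ℕ) (x y : M S n) :
    letI := X.modLam S
    letI := X.modLam (insert v S)
    X.i1 S v hv n x + X.i2 S v hv n y ∈
      ((maximalIdeal (MvPowerSeries (Fin r) 𝒪)).map
        (X.φ n : MvPowerSeries (Fin r) 𝒪 →+* LamT 𝒪 ι₀ ι₁ κ) • ⊤ :
        Submodule (LamT 𝒪 ι₀ ι₁ κ) (M (insert v S) n)) →
    x ∈ ((maximalIdeal (MvPowerSeries (Fin r) 𝒪)).map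
        (X.φ n : MvPowerSeries (Fin r) 𝒪 →+* LamT 𝒪 ι₀ ι₁ κ) • ⊤ :
        Submodule (LamT 𝒪 ι₀ ι₁ κ) (M S n)) ∧
    y ∈ ((maximalIdeal (MvPowerSeries (Fin r) 𝒪)).map
        (X.φ n : MvPowerSeries (Fin r) 𝒪 →+* LamT 𝒪 ι₀ ι₁ κ) • ⊤ :
        Submodule (LamT 𝒪 ι₀ ι₁ κ) (M S n)) := by
  letI m1 := X.modLam S
  letI m2 := X.modLam (insert v S)
  intro h
  obtain ⟨ϖ, hϖ⟩ := IsDiscreteValuationRing.exists_irreducible 𝒪
  refine injective_mod_of_bottom (S := MvPowerSeries (Fin r) 𝒪)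
    (φ := (X.φ n : MvPowerSeries (Fin r) 𝒪 →+* LamT 𝒪 ι₀ ι₁ κ))
    (ψ := (((X.ψ n).comp (X.γ n) : LamT 𝒪 ι₀ ι₁ κ →ₐ[𝒪] R₀) : LamT 𝒪 ι₀ ι₁ κ →+* R₀))
    (y := (MvPowerSeries.X : Fin r → MvPowerSeries (Fin r) 𝒪))
    (π := X.π S n) (π' := X.π (insert v S) n) ((X.ψ_surjective n).comp (X.γ_surjective n))
    (fun f x => X.π_smul S n (X.γ n f) x) (fun f x => X.π_smul (insert v S) n (X.γ n f) x)
    (X.π_surjective S n) (fun i => X_mem_maximalIdeal i) (X.π_eq_zero_iff S n)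
    (i1 := X.i1 S v hv n) (i2 := X.i2 S v hv n) (I1 := X.I1 S v hv) (I2 := X.I2 S v hv)
    (X.π_i1 S v hv n) (X.π_i2 S v hv n) ?_ x y h
  rw [X.map_maximalIdeal_eq n hϖ]
  intro x y hxy
  rw [mem_span_singleton_smul_top] at hxy
  obtain ⟨z, hz⟩ := hxy
  rw [mem_span_singleton_smul_top, mem_span_singleton_smul_top]
  exact X.ihara ϖ hϖ S v hv x y z hz

/-- a uniform bound for the index of nilpotency -/
theorem new_uniform [CharZero 𝒪] (X : TWPackage D κ r p Rn R₀ Δ M M₀ d) (S : Finset (ι₀ ⊕ ι₁))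
    (v : ι₀ ⊕ ι₁) (hv : v ∉ S) (n : ℕ) (z : M (insert v S) n) (h1 : X.j1 S v hv n z = 0)
    (h2 : X.j2 S v hv n z = 0) :
    (X.γ n (trT κ D v) ^ 2 - ((D.qT v + 1 : ℕ) : Rn n) ^ 2) ^ d (insert v S) • z = 0 := by
  obtain ⟨e, he⟩ := X.new S v hv n z h1 h2
  have hred := isReduced_groupRing 𝒪 (Δ n)
  have hcomm : SMulCommClass (Rn n) (MonoidAlgebra 𝒪 (Δ n)) (M (insert v S) n) := by
    letI := X.modLam
    refine ⟨fun a c x => ?_⟩
    obtain ⟨s, hs⟩ := exists_smul_eq_groupRing (g := X.g n) (N := M (insert v S) n)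
      (φ := (X.φ n : MvPowerSeries (Fin r) 𝒪 →+* LamT 𝒪 ι₀ ι₁ κ)) (X.g_gen n)
      (fun c x => by
        rw [← X.smul_C, ← X.γφ_C]
        rfl)
      (fun i x => by
        rw [← X.smul_g]
        rfl) c
    rw [← hs, ← hs]
    change a • (X.γ n (X.φ n s) • x) = X.γ n (X.φ n s) • (a • x)
    rw [smul_smul, smul_smul, mul_comm]
  exact RTE.pow_smul_eq_zero_of_basis (X.b (insert v S) n) _ he

/-- From a package to the data for the climb. -/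
noncomputable def climbData [CharZero 𝒪] (X : TWPackage D κ r p Rn R₀ Δ M M₀ d) (hp : p.Prime)
    (hp𝒪 : (p : 𝒪) ∈ maximalIdeal 𝒪) (𝔞 : Ideal (LamT 𝒪 ι₀ ι₁ κ))
    (hsurj : ∀ S v hv n, ∃ a ∉ 𝔞, ∀ x y, ∃ z, X.j1 S v hv n z = X.γ n a • x ∧
      X.j2 S v hv n z = X.γ n a • y) :
    letI := X.modLam
    ClimbData D κ r M d 𝔞 :=
  letI := X.modLam
  { L := X.level hp hp𝒪
    φ := fun n => (X.φ n : MvPowerSeries (Fin r) 𝒪 →+* LamT 𝒪 ι₀ ι₁ κ)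
    L_φ := fun _ _ => rfl
    φ_C := fun n c => (X.φ n).commutes c
    ann := fun S n => by
      rw [ITS, sup_le_iff, Ideal.span_le]
      constructor
      · intro f hf
        rw [Module.mem_annihilator]
        intro x
        change X.γ n f • x = 0
        rw [X.γ_IT n f hf, zero_smul]
      · rintro _ ⟨v, hv, i, j, rfl⟩
        rw [SetLike.mem_coe, Module.mem_annihilator]
        intro x
        exact X.unram S n v (by simpa using hv) i j x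
    i1 := fun S v hv n => X.lamLin' n (X.i1 S v hv n)
    i2 := fun S v hv n => X.lamLin' n (X.i2 S v hv n)
    j1 := fun S v hv n => X.lamLin' n (X.j1 S v hv n)
    j2 := fun S v hv n => X.lamLin' n (X.j2 S v hv n)
    j1_i1 := fun S v hv n x => by
      change X.j1 S v hv n (X.i1 S v hv n x) = X.γ n (MvPowerSeries.C ((D.qT v : 𝒪) + 1)) • x
      rw [X.j1_i1]
      congr 1
      have h1 : (MvPowerSeries.C ((D.qT v : 𝒪) + 1) : LamT 𝒪 ι₀ ι₁ κ) =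
          algebraMap 𝒪 _ ((D.qT v : 𝒪) + 1) := rfl
      rw [h1, AlgHom.commutes, map_add, map_natCast, map_one, Nat.cast_add, Nat.cast_one]
    j1_i2 := fun S v hv n x => X.j1_i2 S v hv n x
    j2_i1 := fun S v hv n x => X.j2_i1 S v hv n x
    j2_i2 := fun S v hv n x => by
      change X.j2 S v hv n (X.i2 S v hv n x) = X.γ n (MvPowerSeries.C ((D.qT v : 𝒪) + 1)) • x
      rw [X.j2_i2]
      congr 1
      have h1 : (MvPowerSeries.C ((D.qT v : 𝒪) + 1) : LamT 𝒪 ι₀ ι₁ κ) =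
          algebraMap 𝒪 _ ((D.qT v : 𝒪) + 1) := rfl
      rw [h1, AlgHom.commutes, map_add, map_natCast, map_one, Nat.cast_add, Nat.cast_one]
    inj := fun S v hv n x y h => X.inj S v hv n x y h
    surj := fun S v hv n => hsurj S v hv n
    new := fun S v hv => ⟨d (insert v S), fun n z h1 h2 => by
      change X.γ n ((trT κ D v ^ 2 - MvPowerSeries.C (((D.qT v : 𝒪) + 1) ^ 2)) ^
        d (insert v S)) • z = 0
      have h3 := X.new_uniform S v hv n z h1 h2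
      rw [← h3, map_pow]
      congr 2
      have h1 : (MvPowerSeries.C (((D.qT v : 𝒪) + 1) ^ 2) : LamT 𝒪 ι₀ ι₁ κ) =
          algebraMap 𝒪 _ (((D.qT v : 𝒪) + 1) ^ 2) := rfl
      rw [map_sub, map_pow, h1, AlgHom.commutes, map_pow, map_add, map_natCast, map_one,
        Nat.cast_add, Nat.cast_one]⟩ }

/-- `M S n` is finite over `Λ`. -/
theorem finite_lam (X : TWPackage D κ r p Rn R₀ Δ M M₀ d) (S : Finset (ι₀ ⊕ ι₁)) (n : ℕ) :
    letI := X.modLam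
    Module.Finite (LamT 𝒪 ι₀ ι₁ κ) (M S n) := by
  classical
  letI := X.modLam
  refine Module.Finite.of_fg_top ⟨Finset.univ.image (X.b S n), ?_⟩
  rw [eq_top_iff]
  rintro x -
  rw [← (X.b S n).sum_repr x]
  refine Submodule.sum_mem _ fun i _ => ?_
  obtain ⟨s, hs⟩ := exists_smul_eq_groupRing (g := X.g n) (N := M S n)
    (φ := (X.φ n : MvPowerSeries (Fin r) 𝒪 →+* LamT 𝒪 ι₀ ι₁ κ)) (X.g_gen n)
    (fun c x => by
      rw [← X.smul_C, ← X.γφ_C]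
      rfl)
    (fun i x => by
      rw [← X.smul_g]
      rfl) ((X.b S n).repr x i)
  rw [← hs]
  refine Submodule.smul_mem _ _ (Submodule.subset_span ?_)
  simp

/-- Dual of Ihara's lemma at level `n`, from the bottom level. -/
theorem surj_of_bottom (X : TWPackage D κ r p Rn R₀ Δ M M₀ d)
    {J1 J2 : ∀ (S : Finset (ι₀ ⊕ ι₁)) (v : ι₀ ⊕ ι₁), v ∉ S → M₀ (insert v S) → M₀ S}
    (π_j1 : ∀ S v hv n x, X.π S n (X.j1 S v hv n x) = J1 S v hv (X.π (insert v S) n x))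
    (π_j2 : ∀ S v hv n x, X.π S n (X.j2 S v hv n x) = J2 S v hv (X.π (insert v S) n x))
    (hJ : ∀ S v hv x y, ∃ z, J1 S v hv z = x ∧ J2 S v hv z = y)
    (S : Finset (ι₀ ⊕ ι₁)) (v : ι₀ ⊕ ι₁) (hv : v ∉ S) (n : ℕ) (x y : M S n) :
    ∃ z, X.j1 S v hv n z = x ∧ X.j2 S v hv n z = y := by
  letI := X.modLam
  have hfin := X.finite_lam S n
  have hloc := isLocalHom_algHom_mvPowerSeries (X.φ n)
  exact surjective_of_bottom (S := MvPowerSeries (Fin r) 𝒪) (R := LamT 𝒪 ι₀ ι₁ κ)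
    (φ := (X.φ n : MvPowerSeries (Fin r) 𝒪 →+* LamT 𝒪 ι₀ ι₁ κ))
    (y := (MvPowerSeries.X : Fin r → MvPowerSeries (Fin r) 𝒪))
    (π := X.π S n) (π' := X.π (insert v S) n)
    (X.π_surjective (insert v S) n) (fun i => X_mem_maximalIdeal i) (X.π_eq_zero_iff S n)
    (j1 := X.lamLin' n (X.j1 S v hv n)) (j2 := X.lamLin' n (X.j2 S v hv n))
    (J1 := J1 S v hv) (J2 := J2 S v hv) (π_j1 S v hv n) (π_j2 S v hv n) (hJ S v hv) x y

/-- The bottom sequence. -/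
noncomputable def bottom (X : TWPackage D κ r p Rn R₀ Δ M M₀ d) (hp : p.Prime)
    (hp𝒪 : (p : 𝒪) ∈ maximalIdeal 𝒪) (S : Finset (ι₀ ⊕ ι₁)) :
    letI := X.modLam
    BottomSeq (X.level hp hp𝒪 S) R₀ (M₀ S) (MvPowerSeries.X : Fin r → MvPowerSeries (Fin r) 𝒪) :=
  letI := X.modLam
  { ψ := fun n => (((X.ψ n).comp (X.γ n) : LamT 𝒪 ι₀ ι₁ κ →ₐ[𝒪] R₀) : LamT 𝒪 ι₀ ι₁ κ →+* R₀)
    ψ_surjective := fun n => (X.ψ_surjective n).comp (X.γ_surjective n)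
    ψ_φ := fun n i => X.ψ_φ n i
    π := X.π S
    π_smul := fun n f x => X.π_smul S n (X.γ n f) x
    π_surjective := X.π_surjective S
    ker_π := X.π_eq_zero_iff S }

/-- **Main theorem of the patching, general form**: the cokernels of the traces are killed by elements
staying away from the test primes. -/
theorem main' [CharZero 𝒪] (X : TWPackage D κ r p Rn R₀ Δ M M₀ d) (hp : p.Prime)
    (hp𝒪 : (p : 𝒪) ∈ maximalIdeal 𝒪)
    (hr : 3 * Fintype.card ι₀ + Fintype.card ι₁ + Fintype.card κ ≤ r) [Nontrivial (M₀ ∅)]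
    [IsLocalRing R₀] [IsNoetherianRing R₀] [IsAdicComplete (maximalIdeal R₀) R₀]
    [Finite (ResidueField R₀)] [Module.Finite R₀ (M₀ Finset.univ)]
    {𝔞 : Ideal (LamT 𝒪 ι₀ ι₁ κ)} {k : ℕ} (hk : maximalIdeal (LamT 𝒪 ι₀ ι₁ κ) ^ k ≤ 𝔞)
    (htest : ∀ (S : Set (ι₀ ⊕ ι₁)) (v : ι₀ ⊕ ι₁) (_ : v ∉ S) (c : CompS D S) (s : Bool)
      (c' : CompS D (insert v S)), c'.1 = Function.update c.1 v (Ty.st s) →
      ∃ 𝔭 : Ideal (LamT 𝒪 ι₀ ι₁ κ), 𝔭.IsPrime ∧ PcS D κ S c ≤ 𝔭 ∧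
        MvPowerSeries.C ((D.qT v : 𝒪) + 1) * MvPowerSeries.C ((D.qT v : 𝒪) + 1) -
          trT κ D v * trT κ D v ∈ 𝔭 ∧
        (∀ c'' : CompS D (insert v S), PcS D κ (insert v S) c'' ≤ 𝔭 →
          PcS D κ (insert v S) c'' = PcS D κ S c ∨ c'' = c') ∧ 𝔭 ≤ 𝔞)
    (hsurj : ∀ S v hv n, ∃ a ∉ 𝔞, ∀ x y, ∃ z, X.j1 S v hv n z = X.γ n a • x ∧
      X.j2 S v hv n z = X.γ n a • y)
    {A : Type*} [CommRing A] [IsDomain A] (x : R₀ →+* A)
    (hx : Function.Injective (x.comp (algebraMap 𝒪 R₀)))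
    {f : R₀} (hf : f ∈ Module.annihilator R₀ (M₀ Finset.univ)) : x f = 0 := by
  letI := X.modLam
  have hd : 0 < d ∅ := by
    rw [Nat.pos_iff_ne_zero]
    intro h0
    obtain ⟨y, hy⟩ := exists_ne (0 : M₀ ∅)
    obtain ⟨z, rfl⟩ := X.π_surjective ∅ 0 y
    have hz : z = 0 := by
      rw [← (X.b ∅ 0).sum_repr z]
      have : IsEmpty (Fin (d ∅)) := by
        rw [h0]
        infer_instance
      rw [Finset.univ_eq_empty, Finset.sum_empty]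
    exact hy (by rw [hz, map_zero])
  exact (X.climbData hp hp𝒪 𝔞 hsurj).eq_zero_of_mem_annihilator
    ((X.climbData hp hp𝒪 𝔞 hsurj).isAssociatedPrime hd hr hk htest Finset.univ)
    (X.bottom hp hp𝒪 Finset.univ)
    (fun n c => ((X.ψ n).comp (X.γ n)).commutes c)
    (fun n f hf => by
      change X.ψ n (X.γ n f) = 0
      rw [X.γ_IT n f hf, map_zero]) x hx hf

/-- **Main theorem of the patching**: if the traces `(J1, J2)` at the bottom level are surjective, then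
every characteristic zero point of `R₀` is in the support of `M₀`. -/
theorem main [CharZero 𝒪] (X : TWPackage D κ r p Rn R₀ Δ M M₀ d) (hp : p.Prime)
    (hp𝒪 : (p : 𝒪) ∈ maximalIdeal 𝒪)
    (hr : 3 * Fintype.card ι₀ + Fintype.card ι₁ + Fintype.card κ ≤ r) [Nontrivial (M₀ ∅)]
    [IsLocalRing R₀] [IsNoetherianRing R₀] [IsAdicComplete (maximalIdeal R₀) R₀]
    [Finite (ResidueField R₀)] [Module.Finite R₀ (M₀ Finset.univ)]
    {J1 J2 : ∀ (S : Finset (ι₀ ⊕ ι₁)) (v : ι₀ ⊕ ι₁), v ∉ S → M₀ (insert v S) → M₀ S}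
    (π_j1 : ∀ S v hv n x, X.π S n (X.j1 S v hv n x) = J1 S v hv (X.π (insert v S) n x))
    (π_j2 : ∀ S v hv n x, X.π S n (X.j2 S v hv n x) = J2 S v hv (X.π (insert v S) n x))
    (hJ : ∀ S v hv x y, ∃ z, J1 S v hv z = x ∧ J2 S v hv z = y)
    {A : Type*} [CommRing A] [IsDomain A] (x : R₀ →+* A)
    (hx : Function.Injective (x.comp (algebraMap 𝒪 R₀)))
    {f : R₀} (hf : f ∈ Module.annihilator R₀ (M₀ Finset.univ)) : x f = 0 := by
  refine X.main' hp hp𝒪 hr (𝔞 := maximalIdeal (LamT 𝒪 ι₀ ι₁ κ)) (k := 1) (by rw [pow_one])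
    (fun S v hv c s c' hc' => exists_test_maximal S v hv c s c' hc') (fun S v hv n => ?_) x hx hf
  refine ⟨1, fun h => (Ideal.ne_top_iff_one _).1 (IsLocalRing.maximalIdeal.isMaximal _).ne_top h,
    fun y z => ?_⟩
  simp only [map_one, one_smul]
  exact X.surj_of_bottom π_j1 π_j2 hJ S v hv n y z

end TWPackage

end Fermat.Agent.Patch
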