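/-
A quotient of `Λ` with a smaller presentation over the local variables is killed by an element which
is not in `locK ⊔ 𝔪²`.
-/
import Fermat.Agent.Patch.Package
import Fermat.Agent.LocRing.TestK

set_option autoImplicit false

namespace Fermat.Agent.Patch

open Filter IsLocalRing Fermat.Agent.S53rep Fermat.Agent.LocRing Fermat.Agent.RT

variable {𝒪 : Type} [CommRing 𝒪] [IsDomain 𝒪] [IsDiscreteValuationRing 𝒪]
  [IsAdicComplete (maximalIdeal 𝒪) 𝒪]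
variable {ι₀ ι₁ κ : Type} [Fintype ι₀] [Fintype ι₁] [Fintype κ]

/-- The variable of `Λ` attached to `t : κ`. -/
abbrev kv (ι₀ ι₁ : Type) {κ : Type} (t : κ) : Var ι₀ (Ka ι₁ κ) := Sum.inr (Sum.inr (Sum.inr t))

/-- If `γ : Λ → B` is surjective, and `B` has a presentation with the same local variables and fewer
further variables, then some `a ∉ locK ⊔ 𝔪²` is killed by `γ`. -/
theorem exists_eq_zero_notMem_locK {B : Type*} [CommRing B] [IsLocalRing B] [Algebra 𝒪 B]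
    (γ : LamT 𝒪 ι₀ ι₁ κ →ₐ[𝒪] B) (hγ : Function.Surjective γ)
    {L κ' : Type*} [Finite L] [Fintype κ'] (δ : MvPowerSeries (L ⊕ κ') 𝒪 →ₐ[𝒪] B)
    (hδ : Function.Surjective δ)
    (hL : ∀ l, δ (MvPowerSeries.X (Sum.inl l)) ∈
      (locK 𝒪 ι₀ ι₁ κ).map (γ : LamT 𝒪 ι₀ ι₁ κ →+* B))
    (hcard : Fintype.card κ' < Fintype.card κ) :
    ∃ a, γ a = 0 ∧ a ∉ locK 𝒪 ι₀ ι₁ κ ⊔ maximalIdeal (LamT 𝒪 ι₀ ι₁ κ) ^ 2 := by
  classical
  have hγloc : IsLocalHom (γ : LamT 𝒪 ι₀ ι₁ κ →+* B) := IsLocalHom.of_surjective _ hγ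
  have hδloc : IsLocalHom (δ : MvPowerSeries (L ⊕ κ') 𝒪 →+* B) := IsLocalHom.of_surjective _ hδ
  set 𝔟 := locK 𝒪 ι₀ ι₁ κ ⊔ maximalIdeal (LamT 𝒪 ι₀ ι₁ κ) ^ 2 with h𝔟
  set 𝔫 := 𝔟.map (γ : LamT 𝒪 ι₀ ι₁ κ →+* B) with h𝔫
  have hC𝔫 : ∀ c ∈ maximalIdeal 𝒪, algebraMap 𝒪 B c ∈ 𝔫 := by
    intro c hc
    have h1 : algebraMap 𝒪 B c = γ (MvPowerSeries.C c) := (γ.commutes c).symm
    rw [h1]
    exact Ideal.mem_map_of_mem (γ : LamT 𝒪 ι₀ ι₁ κ →+* B) (Ideal.mem_sup_left (C_mem_locK hc))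
  have hmB : maximalIdeal B = (maximalIdeal (LamT 𝒪 ι₀ ι₁ κ)).map
      (γ : LamT 𝒪 ι₀ ι₁ κ →+* B) := by
    have h0 : (maximalIdeal B).comap (γ : LamT 𝒪 ι₀ ι₁ κ →+* B) =
        maximalIdeal (LamT 𝒪 ι₀ ι₁ κ) :=
      ((IsLocalRing.local_hom_TFAE (γ : LamT 𝒪 ι₀ ι₁ κ →+* B)).out 0 4).1 hγloc
    rw [← h0]
    exact (Ideal.map_comap_of_surjective (γ : LamT 𝒪 ι₀ ι₁ κ →+* B) hγ _).symm
  have hm2 : maximalIdeal B ^ 2 ≤ 𝔫 := by
    rw [hmB, ← Ideal.map_pow]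
    exact Ideal.map_mono le_sup_right
  have hX : ∀ s, δ (MvPowerSeries.X s) ∈ maximalIdeal B := by
    intro s
    rw [mem_maximalIdeal]
    intro h
    have h2 : IsUnit (MvPowerSeries.X s : MvPowerSeries (L ⊕ κ') 𝒪) :=
      isUnit_of_map_unit (δ : MvPowerSeries (L ⊕ κ') 𝒪 →+* B) _ h
    exact (mem_maximalIdeal _).1 (X_mem_maximalIdeal s) h2
  -- linear expansion
  have hlin : ∀ f ∈ maximalIdeal (MvPowerSeries (L ⊕ κ') 𝒪), ∃ a : κ' → 𝒪,
      δ f - ∑ j, algebraMap 𝒪 B (a j) * δ (MvPowerSeries.X (Sum.inr j)) ∈ 𝔫 := by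
    intro f hf
    have := Fintype.ofFinite L
    rw [mem_maximalIdeal_mvPowerSeries_iff] at hf
    have h1 : f - MvPowerSeries.C (MvPowerSeries.constantCoeff f) ∈ Ideal.span
        (Set.range (MvPowerSeries.X : L ⊕ κ' → MvPowerSeries (L ⊕ κ') 𝒪)) := by
      rw [span_range_X_eq_ker, RingHom.mem_ker, map_sub, MvPowerSeries.constantCoeff_C, sub_self]
    rw [Ideal.mem_span_range_iff_exists_fun] at h1
    obtain ⟨t, ht⟩ := h1
    refine ⟨fun j => MvPowerSeries.constantCoeff (t (Sum.inr j)), ?_⟩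
    have h2 : δ f = algebraMap 𝒪 B (MvPowerSeries.constantCoeff f) +
        (∑ l, δ (t (Sum.inl l)) * δ (MvPowerSeries.X (Sum.inl l)) +
          ∑ j, δ (t (Sum.inr j)) * δ (MvPowerSeries.X (Sum.inr j))) := by
      have h3 : f = MvPowerSeries.C (MvPowerSeries.constantCoeff f) +
          ∑ i, t i * MvPowerSeries.X i := by rw [ht]; ring
      conv_lhs => rw [h3]
      rw [map_add, map_sum, Fintype.sum_sum_type]
      simp only [map_mul]
      congr 1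
      exact δ.commutes _
    rw [h2]
    have h4 : algebraMap 𝒪 B (MvPowerSeries.constantCoeff f) +
        (∑ l, δ (t (Sum.inl l)) * δ (MvPowerSeries.X (Sum.inl l)) +
          ∑ j, δ (t (Sum.inr j)) * δ (MvPowerSeries.X (Sum.inr j))) -
        ∑ j, algebraMap 𝒪 B (MvPowerSeries.constantCoeff (t (Sum.inr j))) *
          δ (MvPowerSeries.X (Sum.inr j)) =
        algebraMap 𝒪 B (MvPowerSeries.constantCoeff f) +
        (∑ l, δ (t (Sum.inl l)) * δ (MvPowerSeries.X (Sum.inl l)) +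
          ∑ j, δ (t (Sum.inr j) - MvPowerSeries.C (MvPowerSeries.constantCoeff (t (Sum.inr j)))) *
            δ (MvPowerSeries.X (Sum.inr j))) := by
      have h5 : ∀ c, δ (MvPowerSeries.C c) = algebraMap 𝒪 B c := fun c => δ.commutes c
      simp only [map_sub, sub_mul, Finset.sum_sub_distrib, h5]
      ring
    rw [h4]
    refine Ideal.add_mem _ (hC𝔫 _ hf) (Ideal.add_mem _ (Ideal.sum_mem _ fun l _ => ?_)
      (Ideal.sum_mem _ fun j _ => ?_))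
    · exact Ideal.mul_mem_left _ _ (Ideal.map_mono le_sup_left (hL l))
    · refine hm2 ?_
      rw [pow_two]
      refine Ideal.mul_mem_mul ?_ (hX _)
      have h6 : t (Sum.inr j) - MvPowerSeries.C (MvPowerSeries.constantCoeff (t (Sum.inr j))) ∈
          maximalIdeal (MvPowerSeries (L ⊕ κ') 𝒪) := by
        rw [mem_maximalIdeal_mvPowerSeries_iff, map_sub, MvPowerSeries.constantCoeff_C, sub_self]
        exact Ideal.zero_mem _
      rw [mem_maximalIdeal]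
      intro h
      exact (mem_maximalIdeal _).1 h6
        (isUnit_of_map_unit (δ : MvPowerSeries (L ⊕ κ') 𝒪 →+* B) _ h)
  -- the coefficients of the images of the variables of `Λ`
  have hcoef : ∀ i : κ, ∃ a : κ' → 𝒪,
      γ (MvPowerSeries.X (kv ι₀ ι₁ i)) -
        ∑ j, algebraMap 𝒪 B (a j) * δ (MvPowerSeries.X (Sum.inr j)) ∈ 𝔫 := by
    intro i
    obtain ⟨f, hf⟩ := hδ (γ (MvPowerSeries.X (kv ι₀ ι₁ i)))
    have hfm : f ∈ maximalIdeal (MvPowerSeries (L ⊕ κ') 𝒪) := by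
      rw [mem_maximalIdeal]
      intro h
      have h1 : IsUnit (γ (MvPowerSeries.X (kv ι₀ ι₁ i))) := by
        rw [← hf]
        exact h.map δ
      exact (mem_maximalIdeal _).1 (X_mem_maximalIdeal (kv ι₀ ι₁ i))
        (isUnit_of_map_unit (γ : LamT 𝒪 ι₀ ι₁ κ →+* B) _ h1)
    obtain ⟨a, ha⟩ := hlin f hfm
    exact ⟨a, by rwa [hf] at ha⟩
  choose a ha using hcoef
  -- a linear relation
  let F : (κ → ResidueField 𝒪) →ₗ[ResidueField 𝒪] (κ' → ResidueField 𝒪) :=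
    Matrix.vecMulLinear (Matrix.of fun i j => residue 𝒪 (a i j))
  have hF : LinearMap.ker F ≠ ⊥ := by
    refine LinearMap.ker_ne_bot_of_finrank_lt ?_
    rw [Module.finrank_fintype_fun_eq_card, Module.finrank_fintype_fun_eq_card]
    exact hcard
  obtain ⟨c, hc, hc0⟩ := (Submodule.ne_bot_iff _).1 hF
  choose C hC using fun i => residue_surjective (c i)
  have hrel : ∀ j, ∑ i, C i * a i j ∈ maximalIdeal 𝒪 := by
    intro j
    rw [← residue_eq_zero_iff, map_sum]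
    have h1 := congrFun (LinearMap.mem_ker.1 hc) j
    simp only [F, Matrix.vecMulLinear_apply, Matrix.vecMul, dotProduct, Matrix.of_apply,
      Pi.zero_apply] at h1
    rw [← h1]
    exact Finset.sum_congr rfl fun i _ => by rw [map_mul, hC]
  have hmem : γ (∑ i, MvPowerSeries.C (C i) * MvPowerSeries.X (kv ι₀ ι₁ i)) ∈ 𝔫 := by
    have h1 : γ (∑ i, MvPowerSeries.C (C i) * MvPowerSeries.X (kv ι₀ ι₁ i)) =
        ∑ i, algebraMap 𝒪 B (C i) * (γ (MvPowerSeries.X (kv ι₀ ι₁ i)) -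
          ∑ j, algebraMap 𝒪 B (a i j) * δ (MvPowerSeries.X (Sum.inr j))) +
        ∑ j, algebraMap 𝒪 B (∑ i, C i * a i j) * δ (MvPowerSeries.X (Sum.inr j)) := by
      have h2 : ∀ c, γ (MvPowerSeries.C c) = algebraMap 𝒪 B c := fun c => γ.commutes c
      simp only [map_sum, map_mul, h2, mul_sub, Finset.sum_sub_distrib, Finset.mul_sum,
        Finset.sum_mul, ← mul_assoc]
      rw [Finset.sum_comm (s := (Finset.univ : Finset κ')) (t := (Finset.univ : Finset κ))]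
      ring
    rw [h1]
    refine Ideal.add_mem _ (Ideal.sum_mem _ fun i _ => Ideal.mul_mem_left _ _ (ha i))
      (Ideal.sum_mem _ fun j _ => Ideal.mul_mem_right _ _ (hC𝔫 _ (hrel j)))
  obtain ⟨y, hy, hyγ⟩ := (Ideal.mem_map_iff_of_surjective
    (γ : LamT 𝒪 ι₀ ι₁ κ →+* B) hγ).1 hmem
  refine ⟨∑ i, MvPowerSeries.C (C i) * MvPowerSeries.X (kv ι₀ ι₁ i) - y, ?_, fun h => ?_⟩
  · rw [map_sub, sub_eq_zero]
    exact hyγ.symm
  · have h1 : (∑ i, MvPowerSeries.C (C i) * MvPowerSeries.X (kv ι₀ ι₁ i) :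
        LamT 𝒪 ι₀ ι₁ κ) ∈ 𝔟 := by
      have := Ideal.add_mem _ h hy
      simpa using this
    apply hc0
    funext i
    have h2 := coeff_mem_of_mem_locK_sup h1 i
    rw [map_sum, Finset.sum_eq_single i] at h2
    · rw [MvPowerSeries.coeff_C_mul, MvPowerSeries.coeff_X, if_pos rfl, mul_one] at h2
      rw [← hC, Pi.zero_apply, residue_eq_zero_iff]
      exact h2
    · intro j _ hji
      rw [MvPowerSeries.coeff_C_mul, MvPowerSeries.coeff_X, if_neg, mul_zero]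
      intro h3
      apply hji
      have h4 := Finsupp.single_left_injective (one_ne_zero) h3
      simpa using h4.symm
    · intro h3; exact absurd (Finset.mem_univ i) h3

namespace TWPackage

variable [Finite (ResidueField 𝒪)] [DecidableEq (ι₀ ⊕ ι₁)] {D : LocData 𝒪 ι₀ ι₁} {r p : ℕ}
    {Rn : ℕ → Type*} [∀ n, CommRing (Rn n)] [∀ n, Algebra 𝒪 (Rn n)]
    {R₀ : Type*} [CommRing R₀] [Algebra 𝒪 R₀]
    {Δ : ℕ → Type*} [∀ n, CommGroup (Δ n)]
    {M : Finset (ι₀ ⊕ ι₁) → ℕ → Type*} [∀ S n, AddCommGroup (M S n)]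
    [∀ S n, Module (Rn n) (M S n)] [∀ S n, Module (MonoidAlgebra 𝒪 (Δ n)) (M S n)]
    {M₀ : Finset (ι₀ ⊕ ι₁) → Type*} [∀ S, AddCommGroup (M₀ S)] [∀ S, Module R₀ (M₀ S)]
    {d : Finset (ι₀ ⊕ ι₁) → ℕ} [∀ n, Finite (Δ n)]

/-- **Main theorem of the patching**, when the cokernels of the traces are killed by elements outside
`locK ⊔ 𝔪²`. -/
theorem mainK [CharZero 𝒪] (X : TWPackage D κ r p Rn R₀ Δ M M₀ d) (hp : p.Prime)
    (hp𝒪 : (p : 𝒪) ∈ maximalIdeal 𝒪)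
    (hr : 3 * Fintype.card ι₀ + Fintype.card ι₁ + Fintype.card κ ≤ r) [Nontrivial (M₀ ∅)]
    [IsLocalRing R₀] [IsNoetherianRing R₀] [IsAdicComplete (maximalIdeal R₀) R₀]
    [Finite (ResidueField R₀)] [Module.Finite R₀ (M₀ Finset.univ)]
    (hsurj : ∀ S v hv n, ∃ a ∉ locK 𝒪 ι₀ ι₁ κ ⊔ maximalIdeal (LamT 𝒪 ι₀ ι₁ κ) ^ 2,
      ∀ x y, ∃ z, X.j1 S v hv n z = X.γ n a • x ∧ X.j2 S v hv n z = X.γ n a • y)
    {A : Type*} [CommRing A] [IsDomain A] (x : R₀ →+* A)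
    (hx : Function.Injective (x.comp (algebraMap 𝒪 R₀)))
    {f : R₀} (hf : f ∈ Module.annihilator R₀ (M₀ Finset.univ)) : x f = 0 := by
  refine X.main' hp hp𝒪 hr (𝔞 := locK 𝒪 ι₀ ι₁ κ ⊔ maximalIdeal (LamT 𝒪 ι₀ ι₁ κ) ^ 2) (k := 2)
    le_sup_right (fun S v hv c s c' hc' => ?_) hsurj x hx hf
  obtain ⟨𝔭, h1, h2, h3, h4, h5⟩ := exists_test_levelsK D (κ := κ) S v hv c s c' hc'
  exact ⟨𝔭, h1, h3, h4, h5, h2.trans le_sup_left⟩

/-- **Main theorem of the patching, for curves with multiplicative reduction at `p`**: the cokernels of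
the traces are modules over a quotient `B n` of `Rn n` (strict and flat deformations), which has a
presentation over the local variables with less generators. -/
theorem mainY [CharZero 𝒪] (X : TWPackage D κ r p Rn R₀ Δ M M₀ d) (hp : p.Prime)
    (hp𝒪 : (p : 𝒪) ∈ maximalIdeal 𝒪)
    (hr : 3 * Fintype.card ι₀ + Fintype.card ι₁ + Fintype.card κ ≤ r) [Nontrivial (M₀ ∅)]
    [IsLocalRing R₀] [IsNoetherianRing R₀] [IsAdicComplete (maximalIdeal R₀) R₀]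
    [Finite (ResidueField R₀)] [Module.Finite R₀ (M₀ Finset.univ)]
    {B : ℕ → Type*} [∀ n, CommRing (B n)] [∀ n, IsLocalRing (B n)] [∀ n, Algebra 𝒪 (B n)]
    (β : ∀ n, Rn n →ₐ[𝒪] B n) (hβ : ∀ n, Function.Surjective (β n))
    {L κ' : ℕ → Type*} [∀ n, Finite (L n)] [∀ n, Fintype (κ' n)]
    (δ : ∀ n, MvPowerSeries (L n ⊕ κ' n) 𝒪 →ₐ[𝒪] B n) (hδ : ∀ n, Function.Surjective (δ n))
    (hL : ∀ n l, δ n (MvPowerSeries.X (Sum.inl l)) ∈
      (locK 𝒪 ι₀ ι₁ κ).map (((β n).comp (X.γ n) : LamT 𝒪 ι₀ ι₁ κ →ₐ[𝒪] B n) :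
        LamT 𝒪 ι₀ ι₁ κ →+* B n))
    (hcard : ∀ n, Fintype.card (κ' n) < Fintype.card κ)
    (hY : ∀ S v hv n (a : Rn n), β n a = 0 →
      ∀ x y, ∃ z, X.j1 S v hv n z = a • x ∧ X.j2 S v hv n z = a • y)
    {A : Type*} [CommRing A] [IsDomain A] (x : R₀ →+* A)
    (hx : Function.Injective (x.comp (algebraMap 𝒪 R₀)))
    {f : R₀} (hf : f ∈ Module.annihilator R₀ (M₀ Finset.univ)) : x f = 0 := by
  refine X.mainK hp hp𝒪 hr (fun S v hv n => ?_) x hx hf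
  obtain ⟨a, ha, ha'⟩ := exists_eq_zero_notMem_locK ((β n).comp (X.γ n))
    ((hβ n).comp (X.γ_surjective n)) (δ n) (hδ n) (hL n) (hcard n)
  exact ⟨a, ha', hY S v hv n (X.γ n a) ha⟩

end TWPackage

end Fermat.Agent.Patch
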