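/-
Algebra of the `p`-new kernels `K = ker (j₁, j₂ : A_p → A)`.
-/
import Mathlib

set_option autoImplicit false

namespace Fermat.Agent.Patch

open IsLocalRing

section Kernel

variable {B : Type*} [CommRing B] {Ap A : Type*} [AddCommGroup Ap] [Module B Ap] [AddCommGroup A]
  [Module B A]

/-- The `p`-new kernel. -/
def newKer (j1 j2 : Ap →ₗ[B] A) : Submodule B Ap := LinearMap.ker j1 ⊓ LinearMap.ker j2

theorem mem_newKer {j1 j2 : Ap →ₗ[B] A} {x : Ap} : x ∈ newKer j1 j2 ↔ j1 x = 0 ∧ j2 x = 0 := by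
  rw [newKer, Submodule.mem_inf, LinearMap.mem_ker, LinearMap.mem_ker]

variable {j1 j2 : Ap →ₗ[B] A}

theorem prod_apply_eq {M N N' : Type*} [AddCommGroup M] [AddCommGroup N] [AddCommGroup N']
    [Module B M] [Module B N] [Module B N'] (f : M →ₗ[B] N) (g : M →ₗ[B] N') (x : M) :
    LinearMap.prod f g x = (f x, g x) := rfl

/-- the kernel is a direct summand -/
theorem exists_proj_newKer [Module.Projective B A] (hsurj : ∀ x y, ∃ z, j1 z = x ∧ j2 z = y) :
    ∃ e : Ap →ₗ[B] newKer j1 j2, ∀ x : newKer j1 j2, e x = x := by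
  have hs : Function.Surjective (LinearMap.prod j1 j2) := by
    rintro ⟨x, y⟩
    obtain ⟨z, h1, h2⟩ := hsurj x y
    exact ⟨z, Prod.ext h1 h2⟩
  obtain ⟨s, hs'⟩ := Module.projective_lifting_property (LinearMap.prod j1 j2) LinearMap.id hs
  have h1 : ∀ w, j1 (s w) = w.1 := fun w => congrArg Prod.fst (LinearMap.congr_fun hs' w)
  have h2 : ∀ w, j2 (s w) = w.2 := fun w => congrArg Prod.snd (LinearMap.congr_fun hs' w)
  refine ⟨LinearMap.codRestrict _ (LinearMap.id - s ∘ₗ LinearMap.prod j1 j2) (fun x => ?_),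
    fun x => ?_⟩
  · rw [mem_newKer]
    simp only [LinearMap.sub_apply, LinearMap.id_apply, LinearMap.comp_apply, map_sub, h1, h2,
      prod_apply_eq, sub_self, and_self]
  · apply Subtype.ext
    have hx := mem_newKer.1 x.2
    simp only [LinearMap.codRestrict_apply, LinearMap.sub_apply, LinearMap.id_apply,
      LinearMap.comp_apply, prod_apply_eq, hx.1, hx.2]
    have : ((0 : A), (0 : A)) = 0 := rfl
    rw [this, map_zero, sub_zero]

/-- `Ap ≃ K × (A × A)` -/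
theorem nonempty_equiv_newKer [Module.Projective B A] (hsurj : ∀ x y, ∃ z, j1 z = x ∧ j2 z = y) :
    Nonempty (Ap ≃ₗ[B] newKer j1 j2 × (A × A)) := by
  have hs : Function.Surjective (LinearMap.prod j1 j2) := by
    rintro ⟨x, y⟩
    obtain ⟨z, h1, h2⟩ := hsurj x y
    exact ⟨z, Prod.ext h1 h2⟩
  obtain ⟨e, he⟩ := exists_proj_newKer hsurj
  refine ⟨LinearEquiv.ofBijective (LinearMap.prod e (LinearMap.prod j1 j2)) ⟨?_, ?_⟩⟩
  · rw [← LinearMap.ker_eq_bot, eq_bot_iff]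
    intro x hx
    rw [LinearMap.mem_ker, prod_apply_eq, Prod.mk_eq_zero] at hx
    obtain ⟨h1, h2⟩ := hx
    rw [prod_apply_eq, Prod.mk_eq_zero] at h2
    have h3 := he ⟨x, mem_newKer.2 h2⟩
    rw [Submodule.mem_bot]
    have h4 : e x = ⟨x, mem_newKer.2 h2⟩ := h3
    rw [h1] at h4
    exact (congrArg Subtype.val h4).symm
  · rintro ⟨k, w⟩
    obtain ⟨z, hz⟩ := hs w
    refine ⟨z + (k - e z : newKer j1 j2), ?_⟩
    have h5 : (LinearMap.prod j1 j2) ((k - e z : newKer j1 j2) : Ap) = 0 := by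
      have := mem_newKer.1 (k - e z).2
      rw [prod_apply_eq, this.1, this.2]
      rfl
    rw [prod_apply_eq, map_add, map_add, h5, add_zero, hz, he]
    simp

theorem projective_newKer [Module.Projective B A] [Module.Projective B Ap]
    (hsurj : ∀ x y, ∃ z, j1 z = x ∧ j2 z = y) : Module.Projective B (newKer j1 j2) := by
  obtain ⟨e, he⟩ := exists_proj_newKer hsurj
  exact Module.Projective.of_split (newKer j1 j2).subtype e (LinearMap.ext he)

theorem finite_newKer [Module.Projective B A] [Module.Finite B Ap]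
    (hsurj : ∀ x y, ∃ z, j1 z = x ∧ j2 z = y) : Module.Finite B (newKer j1 j2) := by
  obtain ⟨e, he⟩ := exists_proj_newKer hsurj
  exact Module.Finite.of_surjective e (fun x => ⟨x, he x⟩)

theorem free_newKer [IsLocalRing B] [Module.Projective B A] [Module.Projective B Ap]
    [Module.Finite B Ap] (hsurj : ∀ x y, ∃ z, j1 z = x ∧ j2 z = y) :
    Module.Free B (newKer j1 j2) := by
  have := projective_newKer hsurj
  have := finite_newKer (B := B) hsurj
  exact Module.free_of_flat_of_isLocalRing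

theorem finrank_newKer [IsLocalRing B] [Module.Free B A] [Module.Finite B A] [Module.Free B Ap]
    [Module.Finite B Ap] (hsurj : ∀ x y, ∃ z, j1 z = x ∧ j2 z = y) :
    Module.finrank B (newKer j1 j2) = Module.finrank B Ap - 2 * Module.finrank B A := by
  have h1 := free_newKer (B := B) hsurj
  have h2 := finite_newKer (B := B) hsurj
  obtain ⟨e⟩ := nonempty_equiv_newKer hsurj
  have h3 := e.finrank_eq
  rw [Module.finrank_prod, Module.finrank_prod] at h3
  omega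

/-- a basis of the kernel -/
theorem exists_basis_newKer [IsLocalRing B] [Module.Free B A] [Module.Finite B A] [Module.Free B Ap]
    [Module.Finite B Ap] (hsurj : ∀ x y, ∃ z, j1 z = x ∧ j2 z = y) {d : ℕ}
    (hd : Module.finrank B Ap - 2 * Module.finrank B A = d) :
    Nonempty (Module.Basis (Fin d) B (newKer j1 j2)) := by
  have h1 := free_newKer (B := B) hsurj
  have h2 := finite_newKer (B := B) hsurj
  exact ⟨Module.finBasisOfFinrankEq B _ ((finrank_newKer hsurj).trans hd)⟩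

/-- `K ∩ 𝔍 A_p = 𝔍 K` -/
theorem mem_smul_top_newKer [Module.Projective B A] (hsurj : ∀ x y, ∃ z, j1 z = x ∧ j2 z = y)
    (𝔍 : Ideal B) {x : newKer j1 j2} (hx : (x : Ap) ∈ (𝔍 • ⊤ : Submodule B Ap)) :
    x ∈ (𝔍 • ⊤ : Submodule B (newKer j1 j2)) := by
  obtain ⟨e, he⟩ := exists_proj_newKer hsurj
  have h1 : e x ∈ (𝔍 • ⊤ : Submodule B (newKer j1 j2)) := by
    have h2 : (𝔍 • ⊤ : Submodule B Ap).map e ≤ 𝔍 • ⊤ := by
      rw [Submodule.map_smul'']
      exact Submodule.smul_mono le_rfl le_top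
    exact h2 (Submodule.mem_map_of_mem hx)
  rwa [he] at h1

/-- lifting from the bottom level -/
theorem exists_mem_newKer_of_bottom (hsurj : ∀ x y, ∃ z, j1 z = x ∧ j2 z = y) (𝔍 : Ideal B)
    {Ap0 A0 : Type*} [AddCommGroup Ap0] [AddCommGroup A0] {πp : Ap →+ Ap0} {π : A →+ A0}
    (hπp : ∀ x ∈ (𝔍 • ⊤ : Submodule B Ap), πp x = 0)
    (hπ : ∀ x, π x = 0 → x ∈ (𝔍 • ⊤ : Submodule B A)) {J1 J2 : Ap0 → A0}
    (h1 : ∀ x, π (j1 x) = J1 (πp x)) (h2 : ∀ x, π (j2 x) = J2 (πp x))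
    {x0 : Ap0} (hx0 : ∃ a, πp a = x0) (hJ1 : J1 x0 = 0) (hJ2 : J2 x0 = 0) :
    ∃ x ∈ newKer j1 j2, πp x = x0 := by
  obtain ⟨a, rfl⟩ := hx0
  have h3 : (j1 a, j2 a) ∈ (𝔍 • ⊤ : Submodule B (A × A)) := by
    have h4 := hπ (j1 a) (by rw [h1, hJ1])
    have h5 := hπ (j2 a) (by rw [h2, hJ2])
    have h6 : ∀ f : A →ₗ[B] A × A, ∀ y ∈ (𝔍 • ⊤ : Submodule B A),
        f y ∈ (𝔍 • ⊤ : Submodule B (A × A)) := by
      intro f y hy
      have h7 : (𝔍 • ⊤ : Submodule B A).map f ≤ 𝔍 • ⊤ := by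
        rw [Submodule.map_smul'']
        exact Submodule.smul_mono le_rfl le_top
      exact h7 (Submodule.mem_map_of_mem hy)
    have h8 := Submodule.add_mem _ (h6 (LinearMap.inl B A A) _ h4) (h6 (LinearMap.inr B A A) _ h5)
    simpa using h8
  have h4 : (𝔍 • ⊤ : Submodule B (A × A)) = (𝔍 • ⊤ : Submodule B Ap).map (LinearMap.prod j1 j2) := by
    rw [Submodule.map_smul'', Submodule.map_top]
    congr 1
    rw [eq_comm, LinearMap.range_eq_top]
    rintro ⟨x, y⟩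
    obtain ⟨z, h1, h2⟩ := hsurj x y
    exact ⟨z, Prod.ext h1 h2⟩
  rw [h4] at h3
  obtain ⟨w, hw, hjw⟩ := h3
  refine ⟨a - w, mem_newKer.2 ⟨?_, ?_⟩, ?_⟩
  · rw [map_sub, sub_eq_zero]
    exact (congrArg Prod.fst hjw).symm
  · rw [map_sub, sub_eq_zero]
    exact (congrArg Prod.snd hjw).symm
  · rw [map_sub, hπp w hw, sub_zero]

end Kernel

section Recipe

/-- **The recipe for `hY`.**  `j_v = (jv1, jv2) : A_pv → A_p` is onto, `t` kills `A_v`: then
`t (x, y)` is the image under `j_v` of an element of the `p`-new kernel of `A_pv`. -/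
theorem exists_newKer_of_smul_eq_zero {P : Type*} [CommRing P] {Apv Ap Av : Type*}
    [AddCommGroup Apv] [Module P Apv] [AddCommGroup Ap] [Module P Ap] [AddCommGroup Av] [Module P Av]
    {jv1 jv2 : Apv →ₗ[P] Ap} {j1 j2 : Apv →ₗ[P] Av}
    (hsurj : ∀ x y, ∃ z, jv1 z = x ∧ jv2 z = y) {t : P} (ht : ∀ a : Av, t • a = 0) (x y : Ap) :
    ∃ z ∈ newKer j1 j2, jv1 z = t • x ∧ jv2 z = t • y := by
  obtain ⟨z, h1, h2⟩ := hsurj x y
  refine ⟨t • z, mem_newKer.2 ⟨?_, ?_⟩, ?_, ?_⟩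
  · rw [map_smul, ht]
  · rw [map_smul, ht]
  · rw [map_smul, h1]
  · rw [map_smul, h2]

end Recipe

section Ihara

/-- Ihara's lemma for the `p`-new kernels at the bottom level. -/
theorem ihara_newKer {P : Type*} [CommRing P] {Apv Ap A : Type*}
    [AddCommGroup Apv] [Module P Apv] [AddCommGroup Ap] [Module P Ap] [AddCommGroup A] [Module P A]
    {i1 i2 : Ap → Apv} {j1 j2 : Ap →ₗ[P] A} {ϖ : P} (htf : ∀ a : A, ϖ • a = 0 → a = 0)
    (hih : ∀ x y z, i1 x + i2 y = ϖ • z → (∃ x', x = ϖ • x') ∧ ∃ y', y = ϖ • y')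
    {x y : Ap} (hx : x ∈ newKer j1 j2) (hy : y ∈ newKer j1 j2) {z : Apv}
    (h : i1 x + i2 y = ϖ • z) :
    (∃ x' ∈ newKer j1 j2, x = ϖ • x') ∧ ∃ y' ∈ newKer j1 j2, y = ϖ • y' := by
  have key : ∀ w ∈ newKer j1 j2, (∃ w', w = ϖ • w') → ∃ w' ∈ newKer j1 j2, w = ϖ • w' := by
    rintro w hw ⟨w', rfl⟩
    rw [mem_newKer, map_smul, map_smul] at hw
    exact ⟨w', mem_newKer.2 ⟨htf _ hw.1, htf _ hw.2⟩, rfl⟩
  obtain ⟨h1, h2⟩ := hih x y z h
  exact ⟨key x hx h1, key y hy h2⟩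

end Ihara

end Fermat.Agent.Patch
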